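import Fermat.Agent.Mazur.Eisenstein.Ord
import Mathlib.NumberTheory.RamificationInertia.Galois
import Fermat.Agent.Arith.InertiaLift
import Mathlib.RingTheory.Ideal.Quotient.HasFiniteQuotients

/-!
# Elements fixed by inertia

An algebraic number fixed by an inertia group has integral valuation at that place.
-/

set_option autoImplicit false

noncomputable section

namespace Fermat.Agent.Mazur.Eisenstein

open Fermat.Agent.Arith
open scoped NumberField

variable {A : ValuationSubring QBar} {q : ℕ}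

section Level

variable (L : IntermediateField ℚ QBar)

/-- The inclusion of the integers of a subfield. -/
def intEmb : 𝓞 L →+* ZBar where
  toFun x := ⟨((x : L) : QBar), (x.2 : IsIntegral ℤ (x : L)).map (L.val.toRingHom.toIntAlgHom)⟩
  map_one' := Subtype.ext (by simp)
  map_mul' x y := Subtype.ext (by simp)
  map_zero' := Subtype.ext (by simp)
  map_add' x y := Subtype.ext (by simp)

/-- The prime of the integers of a subfield below `A`. -/
def below (A : ValuationSubring QBar) : Ideal (𝓞 L) := (centre A).comap (intEmb L)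

theorem mem_below {x : 𝓞 L} : x ∈ below L A ↔ ((x : L) : QBar) ∈ A.nonunits := mem_centre A

instance below_isPrime : (below L A).IsPrime := Ideal.IsPrime.comap _

theorem natCast_mem_below (hA : A.LiesOverPrime q) : (q : 𝓞 L) ∈ below L A := by
  show intEmb L q ∈ centre A
  rw [map_natCast, mem_centre]
  exact hA

theorem below_liesOver (hA : A.LiesOverPrime q) (hq : q.Prime) :
    (below L A).LiesOver (Ideal.span {(q : ℤ)}) :=
  (Ideal.liesOver_span_iff Ideal.IsPrime.ne_top' (Nat.prime_iff_prime_int.mp hq)).mpr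
    (by simpa using natCast_mem_below L hA)

/-- Inertia at the prime below `A` lifts to inertia at `A`. -/
theorem exists_inertia_restrict [IsGalois ℚ L] (hA : A.LiesOverPrime q)
    (hq : q.Prime) {τ : L ≃ₐ[ℚ] L} (hτ : τ ∈ (below L A).inertia Gal(L/ℚ)) :
    ∃ σ ∈ A.inertiaSubgroupIn ℚ, ∀ x : L, σ (x : QBar) = (τ x : QBar) := by
  obtain ⟨g, rfl⟩ := AlgEquiv.restrictNormalHom_surjective (K₁ := L) QBar τ
  set H := L.fixingSubgroup
  have : H.Normal := (InfiniteGalois.normal_iff_isGalois L).mpr ‹_›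
  obtain ⟨h, hh, hin⟩ := exists_inertia_lift hA hq H (InfiniteGalois.fixingSubgroup_isClosed L) g
    fun x hx hxH => by
      have hxL : x ∈ L := by
        rw [← InfiniteGalois.fixedField_fixingSubgroup L]
        exact fun σ => hxH σ.1 σ.2
      let y : 𝓞 L := ⟨⟨x, hxL⟩, (isIntegral_algHom_iff (L.val.toRingHom.toIntAlgHom)
        L.val.injective).mp hx⟩
      have := (mem_below L).mp (hτ y)
      have hc := AlgEquiv.restrictNormal_commutes g L ⟨x, hxL⟩
      have h2 : (((AlgEquiv.restrictNormalHom L g • y - y : 𝓞 L) : L) : QBar) =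
          (algebraMap L QBar) ((g.restrictNormal L) ⟨x, hxL⟩) - x := by
        show (algebraMap L QBar) ((AlgEquiv.restrictNormalHom L g • y - y : 𝓞 L) : L) = _
        rw [NumberField.RingOfIntegers.coe_eq_algebraMap, map_sub, map_sub]
        rfl
      rw [h2, hc] at this
      exact this
  refine ⟨h * g, hin, fun x => ?_⟩
  have hc := AlgEquiv.restrictNormal_commutes g L x
  rw [AlgEquiv.mul_apply]
  change h (g (x : QBar)) = _
  rw [show g (x : QBar) = ((g.restrictNormal L x : L) : QBar) from hc.symm]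
  exact (IntermediateField.mem_fixingSubgroup_iff _ _).mp hh _ (g.restrictNormal L x).2

end Level

/-- In the inertia field of a prime, the residue characteristic generates the prime locally. -/
theorem exists_mul_mem_span {L : Type} [Field L] [NumberField L] [IsGalois ℚ L] (hq : q.Prime)
    (P : Ideal (𝓞 L)) [P.IsPrime] [P.LiesOver (Ideal.span {(q : ℤ)})]
    (E : IntermediateField ℚ L)
    (hE : E = FixedPoints.intermediateField (P.inertia Gal(L/ℚ))) :
    ∃ s : 𝓞 E, s ∉ P.comap (algebraMap (𝓞 E) (𝓞 L)) ∧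
      ∀ y ∈ P.comap (algebraMap (𝓞 E) (𝓞 L)), y * s ∈ Ideal.span {(q : 𝓞 E)} := by
  classical
  set I := P.inertia Gal(L/ℚ) with hI
  have hG : IsGaloisGroup I E L := by rw [hE]; exact IsGaloisGroup.subgroup Gal(L/ℚ) ℚ L I
  have : IsGaloisGroup I (𝓞 E) (𝓞 L) := IsGaloisGroup.of_isFractionRing I (𝓞 E) (𝓞 L) E L
  have : (Ideal.span {(q : ℤ)}).IsMaximal :=
    PrincipalIdealRing.isMaximal_of_irreducible (Nat.prime_iff_prime_int.mp hq).irreducible
  set Q : Ideal (𝓞 E) := P.comap (algebraMap (𝓞 E) (𝓞 L)) with hQ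
  have hq0 : (Ideal.span {(q : ℤ)}) ≠ ⊥ := by simpa using hq.ne_zero
  have hQ0 : Q ≠ ⊥ := Ideal.ne_bot_of_liesOver_of_ne_bot hq0 Q
  have : Q.IsMaximal := Ideal.IsPrime.isMaximal inferInstance hQ0
  have hIcard : Nat.card (P.inertia I) = Nat.card I := by
    have htop : P.inertia I = ⊤ := (Subgroup.eq_top_iff' _).mpr fun g => g.2
    rw [htop, Subgroup.card_top]
  have : Finite (𝓞 E ⧸ Q) := Ideal.finiteQuotientOfFreeOfNeBot Q hQ0
  have h1 : Ideal.ramificationIdx P (𝓞 E) = Nat.card I := by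
    rw [← hIcard, ← Ideal.ramificationIdxIn_eq_ramificationIdx Q P I,
      Ideal.card_inertia_eq_ramificationIdxIn (G := I) Q P]
  have h2 : Ideal.ramificationIdx P ℤ = Nat.card I := by
    rw [← Ideal.ramificationIdxIn_eq_ramificationIdx (Ideal.span {(q : ℤ)}) P Gal(L/ℚ),
      ← Ideal.card_inertia_eq_ramificationIdxIn (G := Gal(L/ℚ)) (Ideal.span {(q : ℤ)}) P]
  have h3 : Ideal.ramificationIdx Q ℤ = 1 := by
    have := Ideal.ramificationIdx_tower (R := ℤ) Q P
    rw [h1, h2] at this
    exact Nat.eq_of_mul_eq_mul_right (m := Nat.card I) Nat.card_pos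
      (by rw [one_mul]; exact this.symm)
  have hmap : (Ideal.span {(q : ℤ)}).map (algebraMap ℤ (𝓞 E)) = Ideal.span {(q : 𝓞 E)} := by
    rw [Ideal.map_span, Set.image_singleton, map_natCast]
  have hne : Ideal.span {(q : 𝓞 E)} ≠ ⊥ := by simpa using hq.ne_zero
  have hcount := Ideal.IsDedekindDomain.ramificationIdx_eq_normalizedFactors_count
    (Ideal.span {(q : ℤ)}) Q (by rw [hmap]; exact hne)
  rw [h3, hmap] at hcount
  obtain ⟨J, hJ, hfac⟩ := Ideal.eq_prime_pow_mul_coprime hne Q
  rw [← hcount, pow_one] at hfac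
  have hJQ : ¬ J ≤ Q := fun hle => by
    rw [sup_of_le_left hle] at hJ
    exact Ideal.IsPrime.ne_top inferInstance hJ
  obtain ⟨s, hsJ, hsQ⟩ := SetLike.not_le_iff_exists.mp hJQ
  exact ⟨s, hsQ, fun y hy => by rw [hfac]; exact Ideal.mul_mem_mul hy hsJ⟩

/-- An element fixed by the inertia group at `A` has integral valuation. -/
theorem exists_int_ordAt (hA : A.LiesOverPrime q) (hq : q.Prime) {x : QBar} (hx : x ≠ 0)
    (hfix : ∀ σ ∈ A.inertiaSubgroupIn ℚ, σ x = x) : ∃ k : ℤ, ordAt A q x = k := by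
  classical
  let L : IntermediateField ℚ QBar :=
    IntermediateField.normalClosure ℚ (IntermediateField.adjoin ℚ {x}) QBar
  have : FiniteDimensional ℚ (IntermediateField.adjoin ℚ {x}) :=
    IntermediateField.adjoin.finiteDimensional (Algebra.IsIntegral.isIntegral x)
  have : NumberField L := { to_finiteDimensional := inferInstance }
  have : Normal ℚ L := normalClosure.normal ℚ (IntermediateField.adjoin ℚ {x}) QBar
  have : IsGalois ℚ L := IsGalois.mk
  have hxL : x ∈ L := IntermediateField.le_normalClosure (IntermediateField.adjoin ℚ {x})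
    (IntermediateField.mem_adjoin_simple_self ℚ x)
  have := below_liesOver L hA hq
  set P := below L A with hP
  set E : IntermediateField ℚ L := FixedPoints.intermediateField (P.inertia Gal(L/ℚ)) with hE
  obtain ⟨s, hs, hmul⟩ := exists_mul_mem_span hq P E hE
  have hmemQ : ∀ y : 𝓞 E, y ∈ P.comap (algebraMap (𝓞 E) (𝓞 L)) ↔
      (((y : E) : L) : QBar) ∈ A.nonunits := fun y => mem_below L
  -- integers of the inertia field have integral valuation
  have hA' : ∀ y : 𝓞 E, (((y : E) : L) : QBar) ∈ A := fun y =>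
    mem_of_isIntegral A (intEmb L (algebraMap (𝓞 E) (𝓞 L) y)).2
  have hunit : ∀ y : 𝓞 E, y ∉ P.comap (algebraMap (𝓞 E) (𝓞 L)) →
      (((y : E) : L) : QBar) ≠ 0 ∧ ordAt A q (((y : E) : L) : QBar) = 0 := fun y hy => by
    rw [hmemQ] at hy
    obtain ⟨h0, -⟩ := notMem_nonunits_iff.mp hy
    exact ⟨h0, (ordAt_eq_zero_iff hA hq h0).mpr (isUnitAt_of_notMem_nonunits (hA' y) hy)⟩
  have key : ∀ (n : ℕ) (y : 𝓞 E), (((y : E) : L) : QBar) ≠ 0 →
      ordAt A q (((y : E) : L) : QBar) < n → ∃ k : ℤ, ordAt A q (((y : E) : L) : QBar) = k := by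
    intro n
    induction n with
    | zero =>
      intro y hy hlt
      exact absurd (ordAt_nonneg_of_mem hA hq hy (hA' y)) (not_le.mpr (by exact_mod_cast hlt))
    | succ n ih =>
      intro y hy hlt
      by_cases hyQ : y ∈ P.comap (algebraMap (𝓞 E) (𝓞 L))
      · obtain ⟨z, hz⟩ := Ideal.mem_span_singleton'.mp (hmul y hyQ)
        have hz' : (((z : E) : L) : QBar) * (q : QBar) =
            (((y : E) : L) : QBar) * (((s : E) : L) : QBar) := by
          simpa [map_mul, map_natCast] using congrArg (fun t : 𝓞 E => (((t : E) : L) : QBar)) hz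
        obtain ⟨hs0, hsord⟩ := hunit s hs
        have hq0 : (q : QBar) ≠ 0 := by exact_mod_cast hq.ne_zero
        have hz0 : (((z : E) : L) : QBar) ≠ 0 :=
          left_ne_zero_of_mul (hz'.trans_ne (mul_ne_zero hy hs0))
        have hord := congrArg (ordAt A q) hz'
        rw [ordAt_mul hA hq hz0 hq0, ordAt_mul hA hq hy hs0, ordAt_prime hA hq, hsord,
          add_zero] at hord
        obtain ⟨k, hk⟩ := ih z hz0 (by push_cast at hlt; linarith)
        exact ⟨k + 1, by rw [← hord, hk]; push_cast; ring⟩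
      · exact ⟨0, by rw [(hunit y hyQ).2]; simp⟩
  have hxE : (⟨x, hxL⟩ : L) ∈ E := by
    rw [hE]
    rintro ⟨τ, hτ⟩
    obtain ⟨σ, hσ, hστ⟩ := exists_inertia_restrict L hA hq hτ
    exact Subtype.ext ((hστ ⟨x, hxL⟩).symm.trans (hfix σ hσ))
  obtain ⟨a, b, hb, hab⟩ := IsFractionRing.div_surjective (𝓞 E) (⟨⟨x, hxL⟩, hxE⟩ : E)
  have hxab : (((a : E) : L) : QBar) / (((b : E) : L) : QBar) = x := by
    simpa [map_div₀] using congrArg (fun t : E => ((t : L) : QBar)) hab
  have hb0 : (((b : E) : L) : QBar) ≠ 0 := by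
    intro h
    apply hx
    rw [← hxab, h, div_zero]
  have ha0 : (((a : E) : L) : QBar) ≠ 0 := by
    intro h
    apply hx
    rw [← hxab, h, zero_div]
  obtain ⟨na, hna⟩ := exists_nat_gt (ordAt A q (((a : E) : L) : QBar))
  obtain ⟨nb, hnb⟩ := exists_nat_gt (ordAt A q (((b : E) : L) : QBar))
  obtain ⟨ka, hka⟩ := key na a ha0 hna
  obtain ⟨kb, hkb⟩ := key nb b hb0 hnb
  exact ⟨ka - kb, by rw [← hxab, ordAt_div hA hq ha0 hb0, hka, hkb]; push_cast; rfl⟩

end Fermat.Agent.Mazur.Eisenstein
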