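import Mathlib.GroupTheory.Index
import Mathlib.Algebra.Group.Subgroup.Order
import Mathlib.Topology.Algebra.OpenSubgroup
import Mathlib.Tactic.LinearCombination
import Mathlib.Tactic.Ring

/-!
# Selmer groups in short exact sequences

The counting step of the Eisenstein descent: Selmer groups cut out by conditions at two inertia
groups, and the stability of the descent bound under extensions (`descentBound_extension`).
-/

set_option autoImplicit false

noncomputable section

namespace Fermat.Agent.Mazur.Eisenstein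

open AddSubgroup

/-! ## Indices -/

section Index

variable {X Y : Type*} [AddCommGroup X] [AddCommGroup Y]

/-- Multiplicativity of the index along a homomorphism. -/
theorem relIndex_eq_map_mul_inf_ker (f : X →+ Y) {H K : AddSubgroup X} (h : H ≤ K) :
    H.relIndex K = (H.map f).relIndex (K.map f) * (H ⊓ f.ker).relIndex (K ⊓ f.ker) := by
  set M := H ⊔ (K ⊓ f.ker) with hM
  have hMK : M ≤ K := sup_le h inf_le_left
  rw [← AddSubgroup.relIndex_mul_relIndex H M K le_sup_left hMK, mul_comm]
  congr 1
  · rw [AddSubgroup.relIndex_map_map, ← AddSubgroup.inf_relIndex_right (H ⊔ f.ker) (K ⊔ f.ker)]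
    have e : (H ⊔ f.ker) ⊓ (K ⊔ f.ker) = H ⊔ f.ker :=
      inf_eq_left.mpr (sup_le_sup_right h _)
    rw [e]
    have hK : K ⊔ f.ker = (H ⊔ f.ker) ⊔ K := by
      rw [sup_right_comm, sup_eq_right.mpr h]
    rw [hK, AddSubgroup.relIndex_sup_left, ← AddSubgroup.inf_relIndex_right (H ⊔ f.ker) K,
      sup_inf_assoc_of_le _ h, inf_comm f.ker K]
  · rw [hM, AddSubgroup.relIndex_sup_left, ← AddSubgroup.inf_relIndex_right H (K ⊓ f.ker)]
    congr 1
    rw [← inf_assoc, inf_eq_left.mpr h]

theorem card_map_mul_card_inf_ker (f : X →+ Y) (K : AddSubgroup X) :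
    Nat.card (K.map f) * Nat.card (K ⊓ f.ker : AddSubgroup X) = Nat.card K := by
  have h := relIndex_eq_map_mul_inf_ker f (bot_le : (⊥ : AddSubgroup X) ≤ K)
  rw [AddSubgroup.map_bot, bot_inf_eq, AddSubgroup.relIndex_bot_left, AddSubgroup.relIndex_bot_left,
    AddSubgroup.relIndex_bot_left] at h
  exact h.symm

theorem card_comap_mul (f : X →+ Y) (hf : Function.Surjective f) (K : AddSubgroup Y) :
    Nat.card (K.comap f) = Nat.card K * Nat.card f.ker := by
  rw [← card_map_mul_card_inf_ker f (K.comap f), AddSubgroup.map_comap_eq_self_of_surjective hf]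
  congr 1
  rw [inf_eq_right.mpr]
  intro x hx
  rw [AddSubgroup.mem_comap, (AddMonoidHom.mem_ker).mp hx]
  exact zero_mem K

theorem card_top' : Nat.card (⊤ : AddSubgroup X) = Nat.card X :=
  Nat.card_congr AddSubgroup.topEquiv.toEquiv

theorem card_map_of_inj (f : X →+ Y) (hf : Function.Injective f) (K : AddSubgroup X) :
    Nat.card (K.map f) = Nat.card K :=
  Nat.card_congr (K.equivMapOfInjective f hf).toEquiv.symm

end Index

variable (G : Type*) [Group G] [TopologicalSpace G] [IsTopologicalGroup G]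

/-! ## The Selmer groups -/

/-- Local data of the descent: two inertia groups, the other inertia elements, and the target
of characters of the multiplicative part with its subgroup of units. -/
structure LocalData (Ω : Type*) [AddCommGroup Ω] [DistribMulAction G Ω] where
  Ip : Subgroup G
  Ir : Subgroup G
  unr : Set G
  U : AddSubgroup Ω

variable {G} {Ω : Type*} [AddCommGroup Ω] [DistribMulAction G Ω]
variable (B : Type*) [AddCommGroup B] [DistribMulAction G B]

/-- Continuous cocycles. -/
def cocycles : AddSubgroup (G → B) where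
  carrier := {c | (∀ g h, c (g * h) = c g + g • c h) ∧
    ∃ H : Subgroup G, IsOpen (H : Set G) ∧ ∀ g, ∀ h ∈ H, c (g * h) = c g}
  zero_mem' := ⟨fun g h => by simp, ⊤, isOpen_univ, fun g h _ => rfl⟩
  add_mem' := by
    rintro a b ⟨ha, H, hH, ha'⟩ ⟨hb, K, hK, hb'⟩
    refine ⟨fun g h => by simp only [Pi.add_apply, ha, hb, smul_add]; abel,
      H ⊓ K, by simpa using hH.inter hK, fun g h hh => ?_⟩
    simp only [Pi.add_apply, ha' g h hh.1, hb' g h hh.2]
  neg_mem' := by
    rintro a ⟨ha, H, hH, ha'⟩
    refine ⟨fun g h => by simp only [Pi.neg_apply, ha, neg_add, smul_neg], H, hH, fun g h hh => ?_⟩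
    simp only [Pi.neg_apply, ha' g h hh]

/-- The coboundary map. -/
def dB : B →+ (G → B) where
  toFun b g := g • b - b
  map_zero' := by funext g; simp
  map_add' a b := by funext g; simp [smul_add]; abel

omit [TopologicalSpace G] [IsTopologicalGroup G] in
@[simp] theorem dB_apply (b : B) (g : G) : dB B b g = g • b - b := rfl

/-- Restriction of functions on `G` to a subgroup. -/
def resSub (I : Subgroup G) : (G → B) →+ (I → B) where
  toFun c g := c g
  map_zero' := rfl
  map_add' _ _ := rfl

/-- Invariants under a subgroup. -/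
def fixedBy (I : Subgroup G) : AddSubgroup B := ((resSub B I).comp (dB B)).ker

omit [TopologicalSpace G] [IsTopologicalGroup G] in
/-- The invariants are the elements fixed by the whole subgroup. -/
theorem mem_fixedBy {I : Subgroup G} {b : B} : b ∈ fixedBy B I ↔ ∀ g ∈ I, g • b = b := by
  simp [fixedBy, AddMonoidHom.mem_ker, resSub, funext_iff, sub_eq_zero]

variable {B}

/-- The Selmer condition on cocycles: trivial at `Ip` and at the other inertia elements, with
values in the multiplicative part at `Ir` and there given by units. -/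
def selmer (L : LocalData G Ω) (B0 : AddSubgroup B) : AddSubgroup (G → B) where
  carrier := {c | c ∈ cocycles B ∧ (∀ g ∈ L.unr, c g = 0) ∧
    (∃ b : B, ∀ g ∈ L.Ip, c g = g • b - b) ∧
    ∃ h : ∀ g : L.Ir, c g ∈ B0,
      ∀ χ : B0 →+ Ω, ∃ y ∈ L.U, ∀ g : L.Ir, χ ⟨c g, h g⟩ = (g : G) • y - y}
  zero_mem' := ⟨zero_mem _, fun _ _ => rfl, ⟨0, fun g _ => by simp⟩, fun _ => zero_mem _,
    fun χ => ⟨0, zero_mem _, fun g => by
      simp only [Pi.zero_apply, smul_zero, sub_zero]
      exact map_zero χ⟩⟩
  add_mem' := by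
    rintro a a' ⟨h1, h2, ⟨b, h3⟩, h4, h5⟩ ⟨h1', h2', ⟨b', h3'⟩, h4', h5'⟩
    refine ⟨add_mem h1 h1', fun g hg => by simp [h2 g hg, h2' g hg],
      ⟨b + b', fun g hg => by simp [h3 g hg, h3' g hg, smul_add]; abel⟩,
      fun g => add_mem (h4 g) (h4' g), fun χ => ?_⟩
    obtain ⟨y, hy, hy'⟩ := h5 χ
    obtain ⟨z, hz, hz'⟩ := h5' χ
    refine ⟨y + z, add_mem hy hz, fun g => ?_⟩
    have : (⟨(a + a') g, add_mem (h4 g) (h4' g)⟩ : B0) = ⟨a g, h4 g⟩ + ⟨a' g, h4' g⟩ := rfl
    rw [this, map_add, hy', hz', smul_add]; abel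
  neg_mem' := by
    rintro a ⟨h1, h2, ⟨b, h3⟩, h4, h5⟩
    refine ⟨neg_mem h1, fun g hg => by simp [h2 g hg],
      ⟨-b, fun g hg => by simp [h3 g hg]; abel⟩, fun g => neg_mem (h4 g), fun χ => ?_⟩
    obtain ⟨y, hy, hy'⟩ := h5 χ
    refine ⟨-y, neg_mem hy, fun g => ?_⟩
    have : (⟨(-a) g, neg_mem (h4 g)⟩ : B0) = -⟨a g, h4 g⟩ := rfl
    rw [this, map_neg, hy', smul_neg]; abel

/-- The hypotheses on a module with a multiplicative part making coboundaries Selmer. -/
structure IsLocallyGood (L : LocalData G Ω) (B0 : AddSubgroup B) : Prop where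
  isOpen : ∀ b : B, ∃ H : Subgroup G, IsOpen (H : Set G) ∧ ∀ h ∈ H, h • b = b
  unr : ∀ g ∈ L.unr, ∀ b : B, g • b = b
  quot : ∀ (g : L.Ir) (b : B), (g : G) • b - b ∈ B0
  units : ∀ (b : B) (χ : B0 →+ Ω), ∃ y ∈ L.U, ∀ g : L.Ir,
    χ ⟨(g : G) • b - b, quot g b⟩ = (g : G) • y - y

omit [IsTopologicalGroup G] in
theorem range_dB_le_selmer {L : LocalData G Ω} {B0 : AddSubgroup B} (hB : IsLocallyGood L B0) :
    (dB (G := G) B).range ≤ selmer L B0 := by
  rintro _ ⟨b, rfl⟩
  refine ⟨⟨fun g h => by simp [mul_smul, smul_sub], ?_⟩,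
    fun g hg => by simp [hB.unr g hg], ⟨b, fun g _ => rfl⟩, fun g => hB.quot g b, hB.units b⟩
  obtain ⟨H, hH, hb⟩ := hB.isOpen b
  exact ⟨H, hH, fun g h hh => by simp [mul_smul, hb h hh]⟩

/-- The order of the Selmer group; it is `0` if that group is infinite. -/
def selCard (L : LocalData G Ω) (B0 : AddSubgroup B) : ℕ :=
  (dB (G := G) B).range.relIndex (selmer L B0)

/-- The inequality proved by the descent. -/
def DescentBound (L : LocalData G Ω) (B0 : AddSubgroup B) : Prop :=
  selCard L B0 ≠ 0 ∧
    selCard L B0 * B0.index * Nat.card (fixedBy B L.Ip) ≤ Nat.card (fixedBy B (⊤ : Subgroup G)) *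
      Nat.card B

/-! ## The bound under extensions -/

section Step

variable {A C : Type*} [AddCommGroup A] [DistribMulAction G A] [AddCommGroup C]
    [DistribMulAction G C]
variable (i : A →+ B) (π : B →+ C)

omit [TopologicalSpace G] [IsTopologicalGroup G] in
/-- Counting the classes of `b` whose coboundary on `I` comes from `A`. -/
theorem card_coboundary_mul (I : Subgroup G) [Finite A]
    (hi : Function.Injective i) (hπ : Function.Surjective π) (hex : π.ker = i.range)
    (hiG : ∀ (g : G) a, i (g • a) = g • i a) (hπG : ∀ (g : G) b, π (g • b) = g • π b) :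
    ((i.range.map ((resSub B I).comp (dB B)))).relIndex
        (((fixedBy C I).comap π).map ((resSub B I).comp (dB B))) * Nat.card (fixedBy B I)
      = Nat.card (fixedBy C I) * Nat.card (fixedBy A I) := by
  set D := (resSub B I).comp (dB B) with hD
  set T := (fixedBy C I).comap π with hT
  have hsub : fixedBy B I ≤ T := fun b hb => by
    rw [hT, AddSubgroup.mem_comap, mem_fixedBy]
    intro g hg
    rw [← hπG, (mem_fixedBy B).mp hb g hg]
  have hiT : i.range ≤ T := fun b hb => by
    rw [hT, AddSubgroup.mem_comap, (AddMonoidHom.mem_ker).mp (hex ▸ hb : b ∈ π.ker)]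
    exact zero_mem _
  -- `T` has order `|C^I| |A|`.
  have hTcard : Nat.card T = Nat.card (fixedBy C I) * Nat.card A := by
    rw [hT, card_comap_mul π hπ, hex]
    congr 1
    exact Nat.card_congr (AddMonoidHom.ofInjective hi).toEquiv.symm
  -- On it the coboundary has kernel `B^I`; on the image of `A` it has kernel `A^I`.
  have h1 : Nat.card (T.map D) * Nat.card (fixedBy B I) = Nat.card (fixedBy C I) * Nat.card A := by
    rw [← hTcard, ← card_map_mul_card_inf_ker D T]
    rw [show T ⊓ D.ker = fixedBy B I from inf_eq_right.mpr hsub]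
  have h2 : Nat.card (i.range.map D) * Nat.card (fixedBy A I) = Nat.card A := by
    have h := card_map_mul_card_inf_ker D i.range
    have e : i.range ⊓ D.ker = (fixedBy A I).map i := by
      ext b
      constructor
      · rintro ⟨⟨a, rfl⟩, hb⟩
        refine ⟨a, (mem_fixedBy A).mpr fun g hg => hi ?_, rfl⟩
        rw [hiG]
        exact (mem_fixedBy B).mp hb g hg
      · rintro ⟨a, ha, rfl⟩
        refine ⟨⟨a, rfl⟩, (mem_fixedBy B).mpr fun g hg => ?_⟩
        rw [← hiG, (mem_fixedBy A).mp ha g hg]
    rw [e, card_map_of_inj i hi] at h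
    rw [h]
    exact Nat.card_congr (AddMonoidHom.ofInjective hi).toEquiv.symm
  have h3 : (i.range.map D).relIndex (T.map D) * Nat.card (i.range.map D) = Nat.card (T.map D) := by
    rw [mul_comm, ← AddSubgroup.relIndex_bot_left (i.range.map D),
      ← AddSubgroup.relIndex_bot_left (T.map D)]
    exact AddSubgroup.relIndex_mul_relIndex _ _ _ bot_le (AddSubgroup.map_mono hiT)
  have hA : 0 < Nat.card A := Nat.card_pos
  apply Nat.eq_of_mul_eq_mul_right hA
  calc _ = (i.range.map D).relIndex (T.map D) * (Nat.card (i.range.map D) * Nat.card (fixedBy A I))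
        * Nat.card (fixedBy B I) := by rw [h2]; ring
    _ = Nat.card (T.map D) * Nat.card (fixedBy B I) * Nat.card (fixedBy A I) := by
        rw [← h3]; ring
    _ = _ := by rw [h1]; ring

omit [TopologicalSpace G] [IsTopologicalGroup G] [DistribMulAction G B] in
/-- The order of an extension. -/
private theorem card_eq_mul_of_extension (hi : Function.Injective i) (hπ : Function.Surjective π)
    (hex : π.ker = i.range) : Nat.card B = Nat.card C * Nat.card A := by
  have h := card_comap_mul π hπ ⊤
  rw [AddSubgroup.comap_top, card_top', card_top', hex,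
    Nat.card_congr (AddMonoidHom.ofInjective hi).toEquiv.symm] at h
  exact h

omit [TopologicalSpace G] [IsTopologicalGroup G] [DistribMulAction G B] in
/-- The index of the multiplicative parts of an extension. -/
private theorem index_eq_mul_of_extension [Finite B]
    (hi : Function.Injective i) (hπ : Function.Surjective π) (hex : π.ker = i.range)
    {A0 : AddSubgroup A} {B0 : AddSubgroup B} {C0 : AddSubgroup C} (hA0 : A0 = B0.comap i)
    (hC0 : C0 = B0.map π) : B0.index = A0.index * C0.index := by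
  have h1 := AddSubgroup.card_mul_index B0
  have h2 := AddSubgroup.card_mul_index A0
  have h3 := AddSubgroup.card_mul_index C0
  have h4 := card_eq_mul_of_extension i π hi hπ hex
  have h5 : Nat.card B0 = Nat.card C0 * Nat.card A0 := by
    have h := card_map_mul_card_inf_ker π B0
    have e : B0 ⊓ π.ker = A0.map i := by
      rw [hex, hA0, AddSubgroup.map_comap_eq, inf_comm]
    rw [e, ← hC0, card_map_of_inj i hi] at h
    exact h.symm
  apply Nat.eq_of_mul_eq_mul_left (Nat.card_pos : 0 < Nat.card B0)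
  calc _ = Nat.card B := h1
    _ = (Nat.card C0 * C0.index) * (Nat.card A0 * A0.index) := by rw [h4, h2, h3]
    _ = _ := by rw [h5]; ring

omit [IsTopologicalGroup G] in
/-- Selmer classes of the extension map to Selmer classes of the quotient. -/
private theorem map_selmer_le (hπG : ∀ (g : G) b, π (g • b) = g • π b) {L : LocalData G Ω}
    {B0 : AddSubgroup B} {C0 : AddSubgroup C} (hC0 : C0 = B0.map π) :
    (selmer L B0).map (π.compLeft G) ≤ selmer L C0 := by
  set P : (G → B) →+ (G → C) := π.compLeft G with hP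
  rintro _ ⟨c, ⟨⟨h1, H, hH, h1'⟩, h2, ⟨b, h3⟩, h4, h5⟩, rfl⟩
  refine ⟨⟨fun g h => by simp [hP, h1, hπG], H, hH,
    fun g h hh => by simp [hP, h1' g h hh]⟩, fun g hg => by simp [hP, h2 g hg],
    ⟨π b, fun g hg => by simp [hP, h3 g hg, hπG]⟩,
    fun g => hC0 ▸ ⟨c g, h4 g, rfl⟩, fun χ => ?_⟩
  let πr : B0 →+ C0 :=
    (π.domRestrict B0).codRestrict C0 fun b => hC0 ▸ ⟨b, b.2, rfl⟩
  exact h5 (χ.comp πr)

omit [IsTopologicalGroup G] in
/-- Selmer classes of the subgroup give Selmer classes of the extension. -/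
private theorem selmer_le_comap (hiG : ∀ (g : G) a, i (g • a) = g • i a) {L : LocalData G Ω}
    {A0 : AddSubgroup A} {B0 : AddSubgroup B} (hA0 : A0 = B0.comap i) :
    selmer L A0 ≤ (selmer L B0).comap (i.compLeft G) := by
  set I : (G → A) →+ (G → B) := i.compLeft G with hI
  rintro a ⟨⟨h1, H, hH, h1'⟩, h2, ⟨b, h3⟩, h4, h5⟩
  refine ⟨⟨fun g h => by simp [hI, h1, hiG], H, hH,
    fun g h hh => by simp [hI, h1' g h hh]⟩, fun g hg => by simp [hI, h2 g hg],
    ⟨i b, fun g hg => by simp [hI, h3 g hg, hiG]⟩,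
    fun g => by have := h4 g; rw [hA0] at this; exact this, fun χ => ?_⟩
  let ir : A0 →+ B0 :=
    (i.domRestrict A0).codRestrict B0 fun a => by have := a.2; simp only [hA0] at this; exact this
  exact h5 (χ.comp ir)

omit [IsTopologicalGroup G] in
/-- A class of the subgroup which is Selmer in the extension and trivial at `Ip` is Selmer. -/
private theorem comap_inf_comap_selmer_le (hi : Function.Injective i)
    (hiG : ∀ (g : G) a, i (g • a) = g • i a) {L : LocalData G Ω} {A0 : AddSubgroup A}
    {B0 : AddSubgroup B} (hA0 : A0 = B0.comap i)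
    (hext : ∀ χ : A0 →+ Ω, ∃ χ' : B0 →+ Ω, ∀ (a : A) (ha : a ∈ A0) (ha' : i a ∈ B0),
      χ' ⟨i a, ha'⟩ = χ ⟨a, ha⟩) :
    (i.range.map ((resSub B L.Ip).comp (dB B))).comap ((resSub B L.Ip).comp (i.compLeft G)) ⊓
      (selmer L B0).comap (i.compLeft G) ≤ selmer L A0 := by
  set I : (G → A) →+ (G → B) := i.compLeft G with hI
  set Dp := (resSub B L.Ip).comp (dB B) with hDp
  set R := (resSub B L.Ip).comp I with hR
  rintro a ⟨⟨_, ⟨a₀, rfl⟩, ha⟩, ⟨⟨h1, H, hH, h1'⟩, h2, -, h4, h5⟩⟩
  refine ⟨⟨fun g h => hi (by simpa [hI, hiG] using h1 g h), H, hH,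
    fun g h hh => hi (h1' g h hh)⟩,
    fun g hg => hi ((h2 g hg).trans (map_zero i).symm),
    ⟨a₀, fun g hg => hi ?_⟩, fun g => hA0 ▸ h4 g, fun χ => ?_⟩
  · have := congrFun ha ⟨g, hg⟩
    simp [hR, hI, hDp, resSub] at this
    rw [map_sub, hiG]
    exact this.symm
  · obtain ⟨χ', hχ'⟩ := hext χ
    obtain ⟨y, hy, hy'⟩ := h5 χ'
    exact ⟨y, hy, fun g => by rw [← hy' g]; exact (hχ' _ _ _).symm⟩

omit [Group G] [TopologicalSpace G] [IsTopologicalGroup G] [DistribMulAction G A]
  [DistribMulAction G B] [DistribMulAction G C] in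
/-- The functions killed in the quotient are those with values in the subgroup. -/
private theorem ker_compLeft_eq_range (hex : π.ker = i.range) :
    (π.compLeft G).ker = (i.compLeft G).range := by
  ext c
  constructor
  · intro hc
    have : ∀ g, ∃ a, i a = c g := fun g => by
      have : π (c g) = 0 := congrFun hc g
      have h2 : c g ∈ π.ker := this
      rwa [hex] at h2
    choose a ha using this
    exact ⟨a, funext ha⟩
  · rintro ⟨a, rfl⟩
    funext g
    have : i (a g) ∈ π.ker := hex ▸ ⟨a g, rfl⟩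
    exact this

omit [TopologicalSpace G] [IsTopologicalGroup G] in
/-- The coboundaries of the quotient are the images of those of the extension. -/
private theorem map_range_dB (hπ : Function.Surjective π)
    (hπG : ∀ (g : G) b, π (g • b) = g • π b) :
    (dB (G := G) B).range.map (π.compLeft G) = (dB (G := G) C).range := by
  ext c
  constructor
  · rintro ⟨_, ⟨b, rfl⟩, rfl⟩
    exact ⟨π b, funext fun g => by simp [hπG]⟩
  · rintro ⟨x, rfl⟩
    obtain ⟨b, rfl⟩ := hπ x
    exact ⟨dB B b, ⟨b, rfl⟩, funext fun g => by simp [hπG]⟩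

omit [TopologicalSpace G] [IsTopologicalGroup G] in
/-- Counting the coboundaries of the extension with values in the subgroup. -/
private theorem relIndex_range_dB_mul [Finite A] (hi : Function.Injective i)
    (hπ : Function.Surjective π) (hex : π.ker = i.range)
    (hiG : ∀ (g : G) a, i (g • a) = g • i a) (hπG : ∀ (g : G) b, π (g • b) = g • π b) :
    (dB (G := G) A).range.relIndex ((dB (G := G) B).range.comap (i.compLeft G))
        * Nat.card (fixedBy B (⊤ : Subgroup G))
      = Nat.card (fixedBy C (⊤ : Subgroup G)) * Nat.card (fixedBy A (⊤ : Subgroup G)) := by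
  set I : (G → A) →+ (G → B) := i.compLeft G with hI
  set D := (dB (G := G) B).range.comap I
  have hIinj : Function.Injective I := fun a a' h => funext fun g => hi (congrFun h g)
  have hdA : (dB (G := G) A).range.map I = i.range.map (dB (G := G) B) := by
    ext c
    constructor
    · rintro ⟨_, ⟨a, rfl⟩, rfl⟩
      exact ⟨i a, ⟨a, rfl⟩, funext fun g => by simp [hI, hiG]⟩
    · rintro ⟨_, ⟨a, rfl⟩, rfl⟩
      exact ⟨dB A a, ⟨a, rfl⟩, funext fun g => by simp [hI, hiG]⟩
  rw [← card_coboundary_mul i π ⊤ hi hπ hex hiG hπG]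
  congr 1
  rw [← AddSubgroup.relIndex_map_map_of_injective _ _ hIinj (f := I), hdA,
    show D.map I = ((fixedBy C (⊤ : Subgroup G)).comap π).map (dB (G := G) B) from ?_]
  · rw [← AddSubgroup.map_map, ← AddSubgroup.map_map]
    exact (AddSubgroup.relIndex_map_map_of_injective _ _
      (f := resSub B (⊤ : Subgroup G))
      (fun a b h => funext fun g => congrFun h ⟨g, trivial⟩)).symm
  ext c
  constructor
  · rintro ⟨a, ⟨b, hb⟩, rfl⟩
    refine ⟨b, (mem_fixedBy C).mpr fun g _ => ?_, hb⟩
    have h0 : i (a g) ∈ π.ker := hex ▸ ⟨a g, rfl⟩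
    rw [← sub_eq_zero, ← hπG, ← map_sub]
    rw [show g • b - b = i (a g) from congrFun hb g]
    exact h0
  · rintro ⟨b, hb, rfl⟩
    have : ∀ g : G, ∃ a, i a = g • b - b := fun g => by
      have h0 : g • b - b ∈ π.ker := by
        rw [AddMonoidHom.mem_ker, map_sub, hπG, (mem_fixedBy C).mp hb g trivial, sub_self]
      rwa [hex] at h0
    choose a ha using this
    exact ⟨a, ⟨b, funext fun g => (ha g).symm⟩, funext ha⟩

omit [IsTopologicalGroup G] [DistribMulAction G A] in
/-- The Selmer index of the extension is that of the image times that of the kernel classes. -/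
private theorem selCard_eq_mul (hi : Function.Injective i) (hπ : Function.Surjective π)
    (hex : π.ker = i.range) (hπG : ∀ (g : G) b, π (g • b) = g • π b) {L : LocalData G Ω}
    {B0 : AddSubgroup B} (hB : IsLocallyGood L B0) :
    selCard L B0 = (dB (G := G) C).range.relIndex ((selmer L B0).map (π.compLeft G)) *
      ((dB (G := G) B).range.comap (i.compLeft G)).relIndex
        ((selmer L B0).comap (i.compLeft G)) := by
  set I : (G → A) →+ (G → B) := i.compLeft G
  have hIinj : Function.Injective I := fun a a' h => funext fun g => hi (congrFun h g)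
  rw [selCard, relIndex_eq_map_mul_inf_ker (π.compLeft G) (range_dB_le_selmer hB),
    map_range_dB π hπ hπG, ker_compLeft_eq_range i π hex]
  congr 1
  rw [inf_comm, ← AddSubgroup.map_comap_eq, inf_comm, ← AddSubgroup.map_comap_eq,
    AddSubgroup.relIndex_map_map_of_injective _ _ hIinj]

omit [IsTopologicalGroup G] in
/-- Among the kernel classes the Selmer classes of the subgroup have index at most the defect at
`Ip`. -/
private theorem relIndex_selmer_comap_le (hi : Function.Injective i) (hex : π.ker = i.range)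
    (hiG : ∀ (g : G) a, i (g • a) = g • i a) (hπG : ∀ (g : G) b, π (g • b) = g • π b)
    {L : LocalData G Ω} {A0 : AddSubgroup A} {B0 : AddSubgroup B} (hA0 : A0 = B0.comap i)
    (hext : ∀ χ : A0 →+ Ω, ∃ χ' : B0 →+ Ω, ∀ (a : A) (ha : a ∈ A0) (ha' : i a ∈ B0),
      χ' ⟨i a, ha'⟩ = χ ⟨a, ha⟩)
    (hr2pos : (i.range.map ((resSub B L.Ip).comp (dB B))).relIndex
      (((fixedBy C L.Ip).comap π).map ((resSub B L.Ip).comp (dB B))) ≠ 0) :
    (selmer L A0).relIndex ((selmer L B0).comap (i.compLeft G)) ≠ 0 ∧
      (selmer L A0).relIndex ((selmer L B0).comap (i.compLeft G)) ≤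
        (i.range.map ((resSub B L.Ip).comp (dB B))).relIndex
          (((fixedBy C L.Ip).comap π).map ((resSub B L.Ip).comp (dB B))) := by
  set I : (G → A) →+ (G → B) := i.compLeft G
  set K := (selmer L B0).comap I
  set Dp := (resSub B L.Ip).comp (dB B)
  set R := (resSub B L.Ip).comp I
  have hcomap : (i.range.map Dp).comap R ⊓ K ≤ selmer L A0 :=
    comap_inf_comap_selmer_le i hi hiG hA0 hext
  have hRK : K.map R ≤ ((fixedBy C L.Ip).comap π).map Dp := by
    rintro _ ⟨a, ⟨-, -, ⟨b, hb⟩, -, -⟩, rfl⟩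
    refine ⟨b, (mem_fixedBy C).mpr fun g hg => ?_, funext fun g => (hb g g.2).symm⟩
    rw [← sub_eq_zero, ← hπG, ← map_sub, ← hb g hg]
    exact (hex ▸ ⟨a g, rfl⟩ : i (a g) ∈ π.ker)
  have h1 : (selmer L A0).relIndex K ∣ ((i.range.map Dp).comap R).relIndex K := by
    rw [← AddSubgroup.inf_relIndex_right ((i.range.map Dp).comap R) K]
    exact AddSubgroup.relIndex_dvd_of_le_left K hcomap
  rw [AddSubgroup.relIndex_comap] at h1
  have h2 : (i.range.map Dp).relIndex (K.map R) ≠ 0 :=
    fun h0 => hr2pos (AddSubgroup.relIndex_eq_zero_of_le_right hRK h0)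
  exact ⟨fun h0 => h2 (Nat.eq_zero_of_zero_dvd (h0 ▸ h1)),
    (Nat.le_of_dvd (Nat.pos_of_ne_zero h2) h1).trans
      (AddSubgroup.relIndex_le_of_le_right hRK hr2pos)⟩

/-! ## The bound -/

omit [IsTopologicalGroup G] in
/-- The descent bound is stable under extensions. -/
theorem descentBound_extension [Finite A] [Finite C]
    (hi : Function.Injective i) (hπ : Function.Surjective π) (hex : π.ker = i.range)
    (hiG : ∀ (g : G) a, i (g • a) = g • i a) (hπG : ∀ (g : G) b, π (g • b) = g • π b)
    (L : LocalData G Ω) (A0 : AddSubgroup A) (B0 : AddSubgroup B) (C0 : AddSubgroup C)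
    (hA0 : A0 = B0.comap i) (hC0 : C0 = B0.map π)
    (hext : ∀ χ : A0 →+ Ω, ∃ χ' : B0 →+ Ω, ∀ (a : A) (ha : a ∈ A0) (ha' : i a ∈ B0),
      χ' ⟨i a, ha'⟩ = χ ⟨a, ha⟩)
    (hA : IsLocallyGood L A0) (hB : IsLocallyGood L B0)
    (bA : DescentBound L A0) (bC : DescentBound L C0) : DescentBound L B0 := by
  classical
  have hBfin : Finite B := Nat.finite_of_card_ne_zero (by
    rw [card_eq_mul_of_extension i π hi hπ hex]
    exact Nat.mul_ne_zero Nat.card_pos.ne' Nat.card_pos.ne')
  -- the maps on function spaces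
  set I : (G → A) →+ (G → B) := i.compLeft G with hI
  set P : (G → B) →+ (G → C) := π.compLeft G
  have hIinj : Function.Injective I := fun a a' h => funext fun g => hi (congrFun h g)
  have hker : P.ker = I.range := ker_compLeft_eq_range i π hex
  set K := (selmer L B0).comap I with hK
  set D := (dB (G := G) B).range.comap I with hD
  have hdC : (dB (G := G) B).range.map P = (dB (G := G) C).range := map_range_dB π hπ hπG
  -- the image in `C` satisfies the conditions
  have hPle : (selmer L B0).map P ≤ selmer L C0 :=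
    map_selmer_le π hπG hC0
  -- Selmer classes of `A` give Selmer classes of `B`
  have hAK : selmer L A0 ≤ K :=
    selmer_le_comap i hiG hA0
  have hdAD : (dB (G := G) A).range ≤ D := by
    rintro _ ⟨a, rfl⟩
    exact ⟨i a, funext fun g => by simp [hI, hiG]⟩
  have hDK : D ≤ K := AddSubgroup.comap_mono (range_dB_le_selmer hB)
  -- (1) the sequence
  have e1 : selCard L B0 = (dB (G := G) C).range.relIndex ((selmer L B0).map P) * D.relIndex K :=
    selCard_eq_mul i π hi hπ hex hπG hB
  -- (2) coboundaries from `C`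
  have e2 : (dB (G := G) A).range.relIndex D * Nat.card (fixedBy B (⊤ : Subgroup G))
      = Nat.card (fixedBy C (⊤ : Subgroup G)) * Nat.card (fixedBy A (⊤ : Subgroup G)) :=
    relIndex_range_dB_mul i π hi hπ hex hiG hπG
  -- (3) the defect at `Ip`
  set Dp := (resSub B L.Ip).comp (dB B)
  set r2 := (i.range.map Dp).relIndex (((fixedBy C L.Ip).comap π).map Dp) with hr2
  have e3 := card_coboundary_mul i π L.Ip hi hπ hex hiG hπG
  rw [← hr2] at e3
  have hr2pos : r2 ≠ 0 := by
    intro h0
    rw [h0, zero_mul] at e3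
    exact Nat.mul_ne_zero Nat.card_pos.ne' Nat.card_pos.ne' e3.symm
  -- (4) the kernel classes
  have e4a : (selmer L A0).relIndex K ≠ 0 ∧ (selmer L A0).relIndex K ≤ r2 :=
    relIndex_selmer_comap_le i π hi hex hiG hπG hA0 hext hr2pos
  have e4 : (dB (G := G) A).range.relIndex D * D.relIndex K
      = selCard L A0 * (selmer L A0).relIndex K := by
    rw [selCard, AddSubgroup.relIndex_mul_relIndex _ _ _ hdAD hDK,
      AddSubgroup.relIndex_mul_relIndex _ _ _ (range_dB_le_selmer hA) hAK]
  -- (5) sizes
  have e5 : B0.index = A0.index * C0.index :=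
    index_eq_mul_of_extension i π hi hπ hex hA0 hC0
  -- conclusion
  have hCs : (dB (G := G) C).range.relIndex ((selmer L B0).map P) ≠ 0 :=
    fun h0 => bC.1 (AddSubgroup.relIndex_eq_zero_of_le_right hPle h0)
  have hDne : D.relIndex K ≠ 0 := by
    intro h0
    rw [h0, mul_zero] at e4
    exact Nat.mul_ne_zero bA.1 e4a.1 e4.symm
  refine ⟨by rw [e1]; exact Nat.mul_ne_zero hCs hDne, ?_⟩
  have hposC : 0 < Nat.card (fixedBy C (⊤ : Subgroup G)) * Nat.card (fixedBy A (⊤ : Subgroup G)) :=
    Nat.mul_pos Nat.card_pos Nat.card_pos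
  refine Nat.le_of_mul_le_mul_right ?_ hposC
  calc selCard L B0 * B0.index * Nat.card (fixedBy B L.Ip)
        * (Nat.card (fixedBy C (⊤ : Subgroup G)) * Nat.card (fixedBy A (⊤ : Subgroup G)))
      = (dB (G := G) C).range.relIndex ((selmer L B0).map P) *
        (selCard L A0 * (selmer L A0).relIndex K)
          * (A0.index * C0.index) * Nat.card (fixedBy B L.Ip)
          * Nat.card (fixedBy B (⊤ : Subgroup G)) := by
        rw [e1, e5, ← e2, ← e4]; ring
    _ ≤ selCard L C0 * (selCard L A0 * r2)
          * (A0.index * C0.index) * Nat.card (fixedBy B L.Ip)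
          * Nat.card (fixedBy B (⊤ : Subgroup G)) := by
        gcongr
        · exact AddSubgroup.relIndex_le_of_le_right hPle bC.1
        · exact e4a.2
    _ = (selCard L A0 * A0.index * Nat.card (fixedBy A L.Ip))
          * (selCard L C0 * C0.index * Nat.card (fixedBy C L.Ip))
          * Nat.card (fixedBy B (⊤ : Subgroup G)) := by
        have : r2 * Nat.card (fixedBy B L.Ip)
            = Nat.card (fixedBy C L.Ip) * Nat.card (fixedBy A L.Ip) := e3
        linear_combination (selCard L C0 * selCard L A0 * (A0.index * C0.index)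
          * Nat.card (fixedBy B (⊤ : Subgroup G))) * this
    _ ≤ (Nat.card (fixedBy A (⊤ : Subgroup G)) * Nat.card A)
          * (Nat.card (fixedBy C (⊤ : Subgroup G)) * Nat.card C)
          * Nat.card (fixedBy B (⊤ : Subgroup G)) := by
        exact Nat.mul_le_mul_right _ (Nat.mul_le_mul bA.2 bC.2)
    _ = _ := by
        rw [card_eq_mul_of_extension i π hi hπ hex]; ring

end Step

end Fermat.Agent.Mazur.Eisenstein
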