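import Fermat.Agent.Mazur.Eisenstein.Pieces
import Fermat.Agent.Mazur.Eisenstein.DescentCore
import Mathlib.Algebra.Module.Injective

/-!
# The descent bound for admissible modules

The descent bound for an admissible module follows from the bound for lines
(`descentBound_of_admissible`).
-/

set_option autoImplicit false

noncomputable section

namespace Fermat.Agent.Mazur.Eisenstein

universe u

variable {G : Type*} [Group G] [TopologicalSpace G] [IsTopologicalGroup G]
variable {Ω : Type*} [AddCommGroup Ω] [DistribMulAction G Ω]

/-- The action on a stable subgroup. -/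
@[implicit_reducible]
def subAction {B : Type*} [AddCommGroup B] [DistribMulAction G B] (A : AddSubgroup B)
    (hA : ∀ (g : G), ∀ a ∈ A, g • a ∈ A) : DistribMulAction G A where
  smul g a := ⟨g • (a : B), hA g a a.2⟩
  one_smul a := Subtype.ext (one_smul G (a : B))
  mul_smul g h a := Subtype.ext (mul_smul g h (a : B))
  smul_zero g := Subtype.ext (smul_zero g)
  smul_add g a b := Subtype.ext (smul_add g (a : B) b)

/-- The action on the quotient by a stable subgroup. -/
@[implicit_reducible]
def quotAction {B : Type*} [AddCommGroup B] [DistribMulAction G B] (A : AddSubgroup B)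
    (hA : ∀ (g : G), ∀ a ∈ A, g • a ∈ A) : DistribMulAction G (B ⧸ A) where
  smul g := QuotientAddGroup.map A A (DistribSMul.toAddMonoidHom B g) (fun a ha => hA g a ha)
  one_smul x := QuotientAddGroup.induction_on x fun b =>
    congrArg (QuotientAddGroup.mk (s := A)) (one_smul G b)
  mul_smul g h x := QuotientAddGroup.induction_on x fun b =>
    congrArg (QuotientAddGroup.mk (s := A)) (mul_smul g h b)
  smul_zero _ := map_zero _
  smul_add _ := map_add _

omit [IsTopologicalGroup G] in
theorem IsLocallyGood.of_injective {A B : Type*} [AddCommGroup A] [DistribMulAction G A]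
    [AddCommGroup B] [DistribMulAction G B] {L : LocalData G Ω} {B0 : AddSubgroup B}
    (h : IsLocallyGood L B0) (hΩ : Module.Baer ℤ Ω) (f : A →+ B) (hinj : Function.Injective f)
    (hf : ∀ (g : G) a, f (g • a) = g • f a) : IsLocallyGood L (B0.comap f) where
  isOpen a := (h.isOpen (f a)).imp fun H hH => ⟨hH.1, fun g hg => hinj (by rw [hf, hH.2 g hg])⟩
  unr g hg a := hinj (by rw [hf, h.unr g hg])
  quot g a := by rw [AddSubgroup.mem_comap, map_sub, hf]; exact h.quot g (f a)
  units a χ := by
    let fr : B0.comap f →+ B0 := (f.domRestrict _).codRestrict B0 fun x => x.2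
    obtain ⟨χ', hχ'⟩ := hΩ.extension_property_addMonoidHom fr
      (fun x y hxy => Subtype.ext (hinj (congrArg Subtype.val hxy))) χ
    obtain ⟨y, hy, hy'⟩ := h.units (f a) χ'
    refine ⟨y, hy, fun g => ?_⟩
    rw [← hχ', AddMonoidHom.comp_apply, ← hy' g]
    congr 1
    refine Subtype.ext ?_
    show f ((g : G) • a - a) = (g : G) • f a - f a
    rw [map_sub, hf]

omit [IsTopologicalGroup G] in
theorem IsLocallyGood.of_surjective {B C : Type*} [AddCommGroup B] [DistribMulAction G B]
    [AddCommGroup C] [DistribMulAction G C] {L : LocalData G Ω} {B0 : AddSubgroup B}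
    (h : IsLocallyGood L B0) (f : B →+ C) (hsurj : Function.Surjective f)
    (hf : ∀ (g : G) b, f (g • b) = g • f b) : IsLocallyGood L (B0.map f) where
  isOpen c := by
    obtain ⟨b, rfl⟩ := hsurj c
    exact (h.isOpen b).imp fun H hH => ⟨hH.1, fun g hg => by rw [← hf, hH.2 g hg]⟩
  unr g hg c := by obtain ⟨b, rfl⟩ := hsurj c; rw [← hf, h.unr g hg]
  quot g c := by
    obtain ⟨b, rfl⟩ := hsurj c
    exact ⟨_, h.quot g b, by rw [map_sub, hf]⟩
  units c χ := by
    obtain ⟨b, rfl⟩ := hsurj c
    let fr : B0 →+ B0.map f := (f.domRestrict _).codRestrict _ fun x => ⟨x, x.2, rfl⟩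
    obtain ⟨y, hy, hy'⟩ := h.units b (χ.comp fr)
    refine ⟨y, hy, fun g => ?_⟩
    rw [← hy' g, AddMonoidHom.comp_apply]
    congr 1
    refine Subtype.ext ?_
    show (g : G) • f b - f b = f ((g : G) • b - b)
    rw [map_sub, hf]

omit [IsTopologicalGroup G] in
/-- The bound for an admissible module follows from the bound for lines. -/
theorem descentBound_of_admissible (L : LocalData G Ω) (hΩ : Module.Baer ℤ Ω) {r : ℕ}
    [Fact r.Prime] (χ : G →* (ZMod r)ˣ)
    (base : ∀ (A : Type u) [AddCommGroup A] [DistribMulAction G A] [Finite A] (A0 : AddSubgroup A),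
      Nat.card A = r →
      ((∀ (g : G) (a : A), g • a = a) ∨ ∀ (g : G) (a : A), g • a = (χ g : ZMod r).val • a) →
      IsLocallyGood L A0 → DescentBound L A0) :
    ∀ (B : Type u) [AddCommGroup B] [DistribMulAction G B] [Finite B] (B0 : AddSubgroup B),
      IsAdmissible B r χ → IsLocallyGood L B0 → DescentBound L B0 := by
  suffices H : ∀ (n : ℕ) (B : Type u) [AddCommGroup B] [DistribMulAction G B] [Finite B]
      (B0 : AddSubgroup B), Nat.card B = n → IsAdmissible B r χ → IsLocallyGood L B0 →
      DescentBound L B0 from fun B _ _ _ B0 => H _ B B0 rfl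
  intro n
  induction n using Nat.strong_induction_on with
  | _ n ih =>
    intro B _ _ _ B0 hn hadm hgood
    rcases subsingleton_or_nontrivial B with hsub | hnt
    -- The trivial module.
    · have h1 : Nat.card B = 1 := Nat.card_of_subsingleton 0
      have hs : selCard L B0 = 1 := by
        rw [selCard, AddSubgroup.relIndex_eq_one]
        exact fun c _ => ⟨0, funext fun g => Subsingleton.elim _ _⟩
      have h2 : B0 = ⊤ := (AddSubgroup.eq_top_iff' _).mpr fun b => by
        rw [Subsingleton.elim b 0]; exact zero_mem _
      refine ⟨by omega, ?_⟩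
      rw [hs, h2, AddSubgroup.index_top, h1, Nat.card_of_subsingleton (0 : fixedBy B L.Ip),
        Nat.card_of_subsingleton (0 : fixedBy B (⊤ : Subgroup G))]
    -- A stable line and its quotient: both are locally good and smaller.
    · obtain ⟨A, hA, hstab, hchar⟩ := exists_stable_line χ B hadm
      let := subAction A hstab
      let := quotAction A hstab
      have hincl : ∀ (g : G) (a : A), A.subtype (g • a) = g • A.subtype a := fun g a => rfl
      have hproj : ∀ (g : G) (b : B),
          QuotientAddGroup.mk' A (g • b) = g • QuotientAddGroup.mk' A b := fun g b => rfl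
      have hker : (QuotientAddGroup.mk' A).ker = A.subtype.range := by
        rw [QuotientAddGroup.ker_mk', AddSubgroup.range_subtype]
      have hAgood := hgood.of_injective hΩ A.subtype Subtype.val_injective hincl
      have hCgood := hgood.of_surjective (QuotientAddGroup.mk' A)
        (QuotientAddGroup.mk'_surjective A) hproj
      -- The bound passes through the extension.
      refine descentBound_extension A.subtype (QuotientAddGroup.mk' A) Subtype.val_injective
        (QuotientAddGroup.mk'_surjective A) hker hincl hproj L (B0.comap A.subtype) B0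
        (B0.map (QuotientAddGroup.mk' A)) rfl rfl (fun χ' => ?_) hAgood hgood ?_ ?_
      · let fr : B0.comap A.subtype →+ B0 :=
          (A.subtype.domRestrict _).codRestrict B0 fun x => x.2
        obtain ⟨χ'', h⟩ := hΩ.extension_property_addMonoidHom fr
          (fun x y hxy => Subtype.ext (Subtype.ext (congrArg (fun z : B0 => (z : B)) hxy))) χ'
        exact ⟨χ'', fun a ha ha' => by rw [← h]; rfl⟩
      · refine base A _ hA ?_ hAgood
        exact hchar.imp (fun h g a => Subtype.ext (h g a a.2))
          (fun h g a => Subtype.ext (h g a a.2))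
      · refine ih _ ?_ (B ⧸ A) _ rfl
          (hadm.of_surjective (QuotientAddGroup.mk' A) (QuotientAddGroup.mk'_surjective A) hproj)
          hCgood
        have hcard := A.index_mul_card
        rw [hA, AddSubgroup.index_eq_card, hn] at hcard
        have hq : 0 < Nat.card (B ⧸ A) := Nat.card_pos
        have h2 := (Fact.out : r.Prime).two_le
        nlinarith

end Fermat.Agent.Mazur.Eisenstein
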