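import Mathlib.LinearAlgebra.FreeModule.PID
import Mathlib.LinearAlgebra.Matrix.Adjugate
import Mathlib.LinearAlgebra.Matrix.ToLin
import Mathlib.LinearAlgebra.Matrix.ToLinearEquiv
import Mathlib.NumberTheory.Padics.RingHoms
import Mathlib.RingTheory.Filtration
import Mathlib.LinearAlgebra.Quotient.Basic

/-!
# Lattices over `ℤ_r`

Complements of saturated submodules, adjugates of injective endomorphisms, and counting modulo
`r ^ m` for lattices over `ℤ_r`.
-/

set_option autoImplicit false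

noncomputable section

namespace Fermat.Agent.Mazur.Eisenstein

open Module

variable {r : ℕ} [Fact r.Prime]
variable {M : Type*} [AddCommGroup M] [Module ℤ_[r] M] [Module.Finite ℤ_[r] M] [Module.Free ℤ_[r] M]

/-- A submodule containing every element one of whose non-zero multiples it contains. -/
def IsSaturated (X : Submodule ℤ_[r] M) : Prop :=
  ∀ (c : ℤ_[r]) (v : M), c ≠ 0 → c • v ∈ X → v ∈ X

/-- `r` is not zero in `ℤ_r`. -/
theorem natCast_prime_ne_zero : (r : ℤ_[r]) ≠ 0 := by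
  exact_mod_cast (Fact.out : r.Prime).ne_zero

omit [Module.Finite ℤ_[r] M] [Free ℤ_[r] M] in
/-- Saturation may be tested with multiplication by `r`. -/
theorem isSaturated_of_prime (X : Submodule ℤ_[r] M) (h : ∀ v : M, (r : ℤ_[r]) • v ∈ X → v ∈ X) :
    IsSaturated X := by
  intro c v hc hcv
  obtain ⟨u, n, rfl⟩ : ∃ (u : ℤ_[r]ˣ) (n : ℕ), c = (u : ℤ_[r]) * (r : ℤ_[r]) ^ n :=
    ⟨_, _, PadicInt.unitCoeff_spec hc⟩
  have h1 : (r : ℤ_[r]) ^ n • v ∈ X := by
    have := X.smul_mem ((u⁻¹ : ℤ_[r]ˣ) : ℤ_[r]) hcv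
    rwa [← mul_smul, ← mul_assoc, ← Units.val_mul, inv_mul_cancel, Units.val_one, one_mul] at this
  clear hc hcv
  induction n generalizing v with
  | zero => simpa using h1
  | succ n ih =>
    rw [pow_succ', mul_smul] at h1
    exact ih v (h _ h1)

omit [Module.Finite ℤ_[r] M] [Free ℤ_[r] M] in
theorem isTorsionFree_quotient {X : Submodule ℤ_[r] M} (h : IsSaturated X) :
    Module.IsTorsionFree ℤ_[r] (M ⧸ X) := by
  refine Module.IsTorsionFree.of_smul_eq_zero fun c x hx => ?_
  by_cases hc : c = 0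
  · exact Or.inl hc
  obtain ⟨v, rfl⟩ := Submodule.Quotient.mk_surjective X x
  rw [← Submodule.Quotient.mk_smul, Submodule.Quotient.mk_eq_zero] at hx
  exact Or.inr ((Submodule.Quotient.mk_eq_zero X).mpr (h c v hc hx))

omit [Free ℤ_[r] M] in
theorem free_quotient {X : Submodule ℤ_[r] M} (h : IsSaturated X) :
    Module.Free ℤ_[r] (M ⧸ X) :=
  haveI := isTorsionFree_quotient h
  inferInstance

omit [Free ℤ_[r] M] in
/-- A saturated submodule is a direct summand. -/
theorem exists_proj {X : Submodule ℤ_[r] M} (h : IsSaturated X) :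
    ∃ P : M →ₗ[ℤ_[r]] M, (∀ v, P v ∈ X) ∧ ∀ v ∈ X, P v = v := by
  have := free_quotient h
  obtain ⟨s, hs⟩ := Module.projective_lifting_property X.mkQ LinearMap.id X.mkQ_surjective
  refine ⟨LinearMap.id - s.comp X.mkQ, fun v => ?_, fun v hv => ?_⟩
  · rw [← Submodule.Quotient.mk_eq_zero X]
    have := LinearMap.congr_fun hs (X.mkQ v)
    simp only [LinearMap.comp_apply, LinearMap.id_apply] at this
    show X.mkQ (v - s (X.mkQ v)) = 0
    rw [map_sub, this, sub_self]
  · show v - s (X.mkQ v) = v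
    rw [show X.mkQ v = 0 from (Submodule.Quotient.mk_eq_zero X).mpr hv, map_zero, sub_zero]

/-- An endomorphism injective modulo a saturated submodule has an adjugate. -/
theorem exists_adjugate {X : Submodule ℤ_[r] M} (h : IsSaturated X) (f : M →ₗ[ℤ_[r]] M)
    (hX : ∀ v ∈ X, f v ∈ X) (hf : ∀ v, f v ∈ X → v ∈ X) :
    ∃ (g : M →ₗ[ℤ_[r]] M) (δ : ℤ_[r]), δ ≠ 0 ∧ (∀ v ∈ X, g v ∈ X) ∧
      ∀ v, g (f v) - δ • v ∈ X := by
  classical
  have := free_quotient h
  set fbar : (M ⧸ X) →ₗ[ℤ_[r]] M ⧸ X := X.mapQ X f hX with hfbar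
  set b := Module.Free.chooseBasis ℤ_[r] (M ⧸ X)
  set A := LinearMap.toMatrix b b fbar with hA
  have hdet : A.det ≠ 0 := by
    intro h0
    obtain ⟨w, hw0, hw⟩ := Matrix.exists_mulVec_eq_zero_iff.mpr h0
    obtain ⟨v, hv⟩ := Submodule.Quotient.mk_surjective X (b.equivFun.symm w)
    have hfv : fbar (b.equivFun.symm w) = 0 := by
      refine b.equivFun.injective ?_
      rw [map_zero, ← hw, hA]
      funext i
      rw [Basis.equivFun_apply, ← LinearMap.toMatrix_mulVec_repr b b]
      congr 2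
      exact (b.equivFun.apply_symm_apply w)
    rw [← hv, hfbar, Submodule.mapQ_apply, Submodule.Quotient.mk_eq_zero] at hfv
    have h2 : b.equivFun.symm w = 0 := by
      rw [← hv]
      exact (Submodule.Quotient.mk_eq_zero X).mpr (hf v hfv)
    exact hw0 ((LinearEquiv.map_eq_zero_iff _).mp h2)
  obtain ⟨g, hg⟩ := Module.projective_lifting_property X.mkQ
    ((Matrix.toLin b b A.adjugate).comp X.mkQ) X.mkQ_surjective
  refine ⟨g, A.det, hdet, fun v hv => ?_, fun v => ?_⟩
  · rw [← Submodule.Quotient.mk_eq_zero X]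
    have h1 := LinearMap.congr_fun hg v
    simp only [LinearMap.comp_apply] at h1
    show X.mkQ (g v) = 0
    rw [h1, show X.mkQ v = 0 from (Submodule.Quotient.mk_eq_zero X).mpr hv, map_zero]
  rw [← Submodule.Quotient.mk_eq_zero X]
  show X.mkQ (g (f v) - A.det • v) = 0
  have h1 := LinearMap.congr_fun hg (f v)
  simp only [LinearMap.comp_apply] at h1
  rw [map_sub, map_smul, h1]
  have h3 : X.mkQ (f v) = Matrix.toLin b b A (X.mkQ v) := by
    rw [hA, Matrix.toLin_toMatrix, hfbar]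
    rfl
  rw [h3, ← LinearMap.comp_apply, ← Matrix.toLin_mul b b b, Matrix.adjugate_mul, map_smul,
    Matrix.toLin_one, LinearMap.smul_apply, LinearMap.id_apply, sub_self]

/-- An injective endomorphism has an adjugate. -/
theorem exists_adjugate_of_injective (f : M →ₗ[ℤ_[r]] M) (hf : Function.Injective f) :
    ∃ (g : M →ₗ[ℤ_[r]] M) (δ : ℤ_[r]), δ ≠ 0 ∧ ∀ v, g (f v) = δ • v := by
  obtain ⟨g, δ, hδ, -, h⟩ := exists_adjugate (X := (⊥ : Submodule ℤ_[r] M))
    (fun c v hc hv => by
      rw [Submodule.mem_bot] at hv ⊢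
      exact (smul_eq_zero.mp hv).resolve_left hc) f
    (fun v hv => by rw [Submodule.mem_bot] at hv ⊢; rw [hv, map_zero])
    (fun v hv => by
      rw [Submodule.mem_bot] at hv ⊢
      exact hf (by rw [hv, map_zero]))
  exact ⟨g, δ, hδ, fun v => sub_eq_zero.mp ((Submodule.mem_bot _).mp (h v))⟩

omit [Module.Finite ℤ_[r] M] [Free ℤ_[r] M] in
/-- The coordinates outside a submodule, modulo `r ^ m`, bound the number of classes from below. -/
private theorem pow_le_card_quotient {d k : ℕ} {X : Submodule ℤ_[r] M}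
    (snf : Basis.SmithNormalForm X (Fin d) k) (m : ℕ)
    [Finite (M ⧸ (X ⊔ LinearMap.range ((r : ℤ_[r]) ^ m • (LinearMap.id : M →ₗ[ℤ_[r]] M))))] :
    r ^ (m * (d - k)) ≤
      Nat.card (M ⧸ (X ⊔ LinearMap.range ((r : ℤ_[r]) ^ m • (LinearMap.id : M →ₗ[ℤ_[r]] M)))) := by
  classical
  set Y := X ⊔ LinearMap.range ((r : ℤ_[r]) ^ m • (LinearMap.id : M →ₗ[ℤ_[r]] M))
  let J := {j : Fin d // ∀ i, snf.f i ≠ j}
  let φ : M →ₗ[ℤ_[r]] (J → ℤ_[r]) := LinearMap.pi fun j => snf.bM.coord j.1
  let φm : M →+ (J → ZMod (r ^ m)) :=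
    (AddMonoidHom.pi fun j : J => (PadicInt.toZModPow m).toAddMonoidHom.comp
      ((LinearMap.proj j).comp φ).toAddMonoidHom)
  have hker : Y.toAddSubgroup ≤ φm.ker := by
    intro v hv
    obtain ⟨x, hx, _, ⟨y, rfl⟩, rfl⟩ := Submodule.mem_sup.mp hv
    rw [AddMonoidHom.mem_ker, map_add]
    have hx0 : φm x = 0 := by
      funext j
      have hxj : snf.bM.coord j.1 x = 0 := by
        have hxs : x = ∑ i, snf.bN.repr ⟨x, hx⟩ i • (snf.bN i : M) := by
          have := congrArg X.subtype (snf.bN.sum_repr ⟨x, hx⟩)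
          rw [map_sum] at this
          simpa using this.symm
        rw [hxs, map_sum]
        refine Finset.sum_eq_zero fun i _ => ?_
        rw [map_smul, snf.snf i, map_smul, Basis.coord_apply, Basis.repr_self,
          Finsupp.single_eq_of_ne (Ne.symm (j.2 i)), smul_zero, smul_zero]
      show PadicInt.toZModPow m (snf.bM.coord j.1 x) = 0
      rw [hxj, map_zero]
    rw [hx0, zero_add]
    funext j
    show PadicInt.toZModPow m (snf.bM.coord j.1 (((r : ℤ_[r]) ^ m • LinearMap.id) y)) = 0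
    rw [LinearMap.smul_apply, LinearMap.id_apply, map_smul, smul_eq_mul, map_mul, map_pow,
      map_natCast, ← Nat.cast_pow, ZMod.natCast_self, zero_mul]
  have hsurj : Function.Surjective φm := by
    intro c
    refine ⟨∑ j : J, ((c j).val : ℤ_[r]) • snf.bM j.1, funext fun j' => ?_⟩
    show PadicInt.toZModPow m (snf.bM.coord j'.1 _) = c j'
    have : NeZero (r ^ m) := ⟨pow_ne_zero _ (Fact.out : r.Prime).ne_zero⟩
    rw [map_sum, Finset.sum_eq_single j']
    · simp
    · intro j _ hj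
      simp [Finsupp.single_eq_of_ne (fun h => hj (Subtype.ext h.symm))]
    · intro h; exact absurd (Finset.mem_univ j') h
  let ψ : M ⧸ Y → (J → ZMod (r ^ m)) := QuotientAddGroup.lift Y.toAddSubgroup φm hker
  have hψ : Function.Surjective ψ := fun c => by
    obtain ⟨v, hv⟩ := hsurj c
    exact ⟨Submodule.Quotient.mk v, hv⟩
  refine le_trans (le_of_eq ?_) (Nat.card_le_card_of_surjective ψ hψ)
  rw [Nat.card_fun, Nat.card_zmod, ← pow_mul, Nat.card_eq_fintype_card]
  congr 2
  rw [Fintype.card_subtype, show (Finset.univ.filter fun j : Fin d => ∀ i, snf.f i ≠ j)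
      = (Finset.univ.image snf.f)ᶜ by ext j; simp,
    Finset.card_compl, Finset.card_image_of_injective _ snf.f.injective]
  simp

omit [Module.Finite ℤ_[r] M] [Free ℤ_[r] M] in
/-- The number of classes of a lattice modulo a submodule and `r ^ m`. -/
theorem exists_card_bounds {d : ℕ} (b : Basis (Fin d) ℤ_[r] M) (X : Submodule ℤ_[r] M) :
    ∃ C : ℕ, ∀ m : ℕ,
      r ^ (m * (d - finrank ℤ_[r] X)) ≤
          Nat.card (M ⧸ (X ⊔ LinearMap.range ((r : ℤ_[r]) ^ m • (LinearMap.id : M →ₗ[ℤ_[r]] M)))) ∧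
        Nat.card (M ⧸ (X ⊔ LinearMap.range ((r : ℤ_[r]) ^ m • (LinearMap.id : M →ₗ[ℤ_[r]] M))))
          ≤ r ^ (m * (d - finrank ℤ_[r] X) + C) := by
  classical
  obtain ⟨k, snf⟩ := X.smithNormalForm b
  have hk : finrank ℤ_[r] X = k := by
    rw [Module.finrank_eq_card_basis snf.bN, Fintype.card_fin]
  have ha : ∀ i, snf.a i ≠ 0 := fun i h0 => by
    have := snf.snf i
    rw [h0, zero_smul, Submodule.coe_eq_zero] at this
    exact snf.bN.ne_zero i this
  refine ⟨∑ i, (snf.a i).valuation, fun m => ?_⟩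
  set Y := X ⊔ LinearMap.range ((r : ℤ_[r]) ^ m • (LinearMap.id : M →ₗ[ℤ_[r]] M)) with hY
  -- `r ^ e j` kills the `j`-th Smith basis vector: `e` is `v (aᵢ)` on `X` and `m` elsewhere
  set e : Fin d → ℕ := Function.extend snf.f (fun i => (snf.a i).valuation) fun _ => m with he
  have hmemY : ∀ j, (r : ℤ_[r]) ^ e j • snf.bM j ∈ Y := by
    intro j
    by_cases hj : ∃ i, snf.f i = j
    · obtain ⟨i, rfl⟩ := hj
      rw [he, snf.f.injective.extend_apply]
      refine Submodule.mem_sup_left ?_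
      obtain ⟨u, hu⟩ : ∃ u : ℤ_[r]ˣ, snf.a i = (u : ℤ_[r]) * (r : ℤ_[r]) ^ (snf.a i).valuation :=
        ⟨_, PadicInt.unitCoeff_spec (ha i)⟩
      have h1 := X.smul_mem ((u⁻¹ : ℤ_[r]ˣ) : ℤ_[r]) (snf.bN i).2
      rw [snf.snf i, ← mul_smul] at h1
      have h2 : ((u⁻¹ : ℤ_[r]ˣ) : ℤ_[r]) * snf.a i = (r : ℤ_[r]) ^ (snf.a i).valuation := by
        conv_lhs => rw [hu]
        rw [← mul_assoc, ← Units.val_mul, inv_mul_cancel, Units.val_one, one_mul]
      rwa [h2] at h1
    · rw [he, Function.extend_apply' _ _ _ hj]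
      exact Submodule.mem_sup_right ⟨snf.bM j, by simp⟩
  -- upper bound
  let rep : ((j : Fin d) → Fin (r ^ e j)) → M ⧸ Y := fun c =>
    Submodule.Quotient.mk (∑ j, ((c j : ℕ) : ℤ_[r]) • snf.bM j)
  have hrep : Function.Surjective rep := by
    intro x
    obtain ⟨v, rfl⟩ := Submodule.Quotient.mk_surjective Y x
    refine ⟨fun j => ⟨(snf.bM.repr v j).appr (e j), PadicInt.appr_lt _ _⟩, ?_⟩
    refine (Submodule.Quotient.eq Y).mpr ?_
    conv => arg 2; arg 2; rw [← snf.bM.sum_repr v]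
    rw [← Finset.sum_sub_distrib]
    refine Y.sum_mem fun j _ => ?_
    rw [← sub_smul]
    obtain ⟨w, hw⟩ := Ideal.mem_span_singleton'.mp (PadicInt.appr_spec (e j) (snf.bM.repr v j))
    rw [show ((((snf.bM.repr v j).appr (e j) : ℕ) : ℤ_[r]) - snf.bM.repr v j) =
      -w * (r : ℤ_[r]) ^ e j
      by rw [neg_mul, hw]; ring, mul_smul]
    exact Y.smul_mem _ (hmemY j)
  have : Finite (M ⧸ Y) := Finite.of_surjective rep hrep
  have hsum : ∑ j, e j = m * (d - k) + ∑ i, (snf.a i).valuation := by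
    rw [← Finset.sum_compl_add_sum (Finset.univ.image snf.f),
      Finset.sum_image snf.f.injective.injOn]
    congr 1
    · rw [Finset.sum_const_nat (m := m) fun j hj => ?_, Finset.card_compl,
        Finset.card_image_of_injective _ snf.f.injective, Fintype.card_fin, Finset.card_univ,
        Fintype.card_fin, mul_comm]
      rw [he, Function.extend_apply']
      simpa using hj
    · exact Finset.sum_congr rfl fun i _ => by rw [he, snf.f.injective.extend_apply]
  refine ⟨?_, ?_⟩
  · -- lower bound: the coordinates outside the submodule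
    rw [hk]
    exact pow_le_card_quotient snf m
  · refine le_trans (Nat.card_le_card_of_surjective rep hrep) (le_of_eq ?_)
    simp only [Nat.card_pi, Nat.card_fin]
    rw [Finset.prod_pow_eq_pow_sum, hsum, hk]

omit [Free ℤ_[r] M] in
/-- Membership in a submodule may be tested modulo all powers of `r`. -/
theorem mem_of_forall_mem_sup (X : Submodule ℤ_[r] M) {v : M}
    (h : ∀ m : ℕ, ∃ w : M, v - (r : ℤ_[r]) ^ m • w ∈ X) : v ∈ X := by
  rw [← Submodule.Quotient.mk_eq_zero X]
  have hmem : Submodule.Quotient.mk (p := X) v ∈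
      (⨅ n : ℕ, (IsLocalRing.maximalIdeal ℤ_[r]) ^ n • (⊤ : Submodule ℤ_[r] (M ⧸ X))) := by
    refine (Submodule.mem_iInf _).mpr fun n => ?_
    obtain ⟨w, hw⟩ := h n
    have : Submodule.Quotient.mk (p := X) v = (r : ℤ_[r]) ^ n • Submodule.Quotient.mk w := by
      rw [← Submodule.Quotient.mk_smul, Submodule.Quotient.eq]
      exact hw
    rw [this]
    refine Submodule.smul_mem_smul ?_ Submodule.mem_top
    rw [PadicInt.maximalIdeal_eq_span_p, Ideal.span_singleton_pow]
    exact Ideal.mem_span_singleton_self _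
  rwa [Ideal.iInf_pow_smul_eq_bot_of_isLocalRing _ (IsLocalRing.maximalIdeal.isMaximal _).ne_top,
    Submodule.mem_bot] at hmem

end Fermat.Agent.Mazur.Eisenstein
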