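import Fermat.Agent.Mazur.Eisenstein.Datum
import Fermat.Agent.Mazur.Eisenstein.Padic

/-!
# From the lattice to torsion points

The maps from the Tate lattice to the torsion points.
-/

set_option autoImplicit false

noncomputable section

namespace Fermat.Agent.Mazur.Eisenstein

open Fermat.Agent.Arith Matrix

variable {p r : ℕ} [Fact r.Prime] {J : Type} [AddCommGroup J] [DistribMulAction GQ J]
variable {T : Type} [CommRing T] [Module T J]

namespace EisensteinDatum

variable (D : EisensteinDatum p r J T)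

/-- The point of order dividing `r ^ m` of a vector of the lattice. -/
def pm (m : ℕ) : (Fin D.d → ℤ_[r]) →+ J := (D.ι m).comp (redVec r D.d m)

theorem pm_apply (m : ℕ) (v : Fin D.d → ℤ_[r]) : D.pm m v = D.ι m (redVec r D.d m v) := rfl

/-- The map to points is linear over `ℤ_r` modulo `r ^ m`. -/
theorem pm_smul (m : ℕ) (c : ℤ_[r]) (v : Fin D.d → ℤ_[r]) :
    D.pm m (c • v) = (PadicInt.toZModPow m c).val • D.pm m v := by
  have : NeZero (r ^ m) := ⟨pow_ne_zero _ (Fact.out : r.Prime).ne_zero⟩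
  rw [pm_apply, pm_apply, ← map_nsmul]
  congr 1
  funext i
  show PadicInt.toZModPow m (c * v i) = (PadicInt.toZModPow m c).val • PadicInt.toZModPow m (v i)
  rw [map_mul, nsmul_eq_mul, ZMod.natCast_zmod_val]

theorem redVec_eq_zero_iff (m : ℕ) (v : Fin D.d → ℤ_[r]) :
    redVec r D.d m v = 0 ↔ ∃ w, v = (r : ℤ_[r]) ^ m • w := by
  constructor
  · intro h
    have hi : ∀ i, ∃ w, v i = (r : ℤ_[r]) ^ m * w := fun i => by
      have h2 : PadicInt.toZModPow m (v i) = 0 := congrFun h i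
      rw [← RingHom.mem_ker, PadicInt.ker_toZModPow, Ideal.mem_span_singleton] at h2
      exact h2
    choose w hw using hi
    exact ⟨w, funext hw⟩
  · rintro ⟨w, rfl⟩
    funext i
    show PadicInt.toZModPow m ((r : ℤ_[r]) ^ m * w i) = 0
    rw [map_mul, map_pow, map_natCast, ← Nat.cast_pow, ZMod.natCast_self, zero_mul]

/-- The kernel of the map to points of level `m` consists of the multiples of `r ^ m`. -/
theorem pm_eq_zero_iff (m : ℕ) (v : Fin D.d → ℤ_[r]) :
    D.pm m v = 0 ↔ ∃ w, v = (r : ℤ_[r]) ^ m • w := by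
  rw [← D.redVec_eq_zero_iff, pm_apply]
  exact map_eq_zero_iff _ (D.ι_injective m)

theorem pm_eq_iff (m : ℕ) (v v' : Fin D.d → ℤ_[r]) :
    D.pm m v = D.pm m v' ↔ ∃ w, v - v' = (r : ℤ_[r]) ^ m • w := by
  rw [← D.pm_eq_zero_iff, map_sub, sub_eq_zero]

theorem pm_succ (m : ℕ) (v : Fin D.d → ℤ_[r]) : r • D.pm (m + 1) v = D.pm m v := D.ι_compat m v

/-- The points of level `m` are killed by `r ^ m`. -/
theorem pow_smul_pm (m : ℕ) (v : Fin D.d → ℤ_[r]) : r ^ m • D.pm m v = 0 := by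
  rw [← map_nsmul, D.pm_eq_zero_iff, ← Nat.cast_smul_eq_nsmul ℤ_[r], Nat.cast_pow]
  exact ⟨v, rfl⟩

/-- Galois acts on the points `pm m v` through the matrices `D.gal`. -/
theorem gal_smul_pm (m : ℕ) (g : GQ) (v : Fin D.d → ℤ_[r]) :
    g • D.pm m v = D.pm m (D.gal g *ᵥ v) := D.ι_gal m g v

/-- Hecke operators act on the points through the lattice matrices. -/
theorem hecke_smul_pm (m : ℕ) (t : T) (v : Fin D.d → ℤ_[r]) :
    t • D.pm m v = D.pm m (intMat r (D.mat t) *ᵥ v) := D.ι_mat m t v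

theorem exists_pm_eq (m : ℕ) (x : J) (hx : r ^ m • x = 0) : ∃ v, D.pm m v = x := by
  have : NeZero (r ^ m) := ⟨pow_ne_zero _ (Fact.out : r.Prime).ne_zero⟩
  obtain ⟨u, hu⟩ := D.exists_ι_eq m x hx
  refine ⟨fun i => ((u i).val : ℤ_[r]), ?_⟩
  rw [← hu, pm_apply]
  congr 1
  funext i
  show PadicInt.toZModPow m ((u i).val : ℤ_[r]) = u i
  rw [map_natCast, ZMod.natCast_zmod_val]

/-- A lattice vector is determined by its points of all levels. -/
theorem pm_ext {v v' : Fin D.d → ℤ_[r]} (h : ∀ m, D.pm m v = D.pm m v') : v = v' := by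
  have := mem_of_forall_mem_sup (⊥ : Submodule ℤ_[r] (Fin D.d → ℤ_[r])) (v := v - v') fun m => by
    obtain ⟨w, hw⟩ := (D.pm_eq_iff m v v').mp (h m)
    exact ⟨w, by rw [Submodule.mem_bot, hw, sub_self]⟩
  exact sub_eq_zero.mp ((Submodule.mem_bot _).mp this)

end EisensteinDatum

end Fermat.Agent.Mazur.Eisenstein
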