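import Fermat.Agent.Mazur.Eisenstein.Idempotent
import Fermat.Agent.Mazur.Eisenstein.Points

/-!
# The Eisenstein lattice

The Eisenstein part of the Tate lattice and of the torsion, and their parts reducing to zero at
a place.
-/

set_option autoImplicit false

noncomputable section

namespace Fermat.Agent.Mazur.Eisenstein

open Fermat.Agent.Arith Module Matrix
open scoped Pointwise

variable {p r : ℕ} [Fact r.Prime] {J : Type} [AddCommGroup J] [DistribMulAction GQ J]
variable {T : Type} [CommRing T] [Module T J]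

namespace EisensteinDatum

variable (D : EisensteinDatum p r J T)

/-- The Hecke action modulo `r`. -/
def matMod : T →+* Matrix (Fin D.d) (Fin D.d) (ZMod r) :=
  ((Int.castRingHom (ZMod r)).mapMatrix).comp D.mat

theorem eps_eq_zero_of_matMod_eq_zero {t : T} (h : D.matMod t = 0) : (D.eps t : ZMod r) = 0 := by
  have h2 := D.mat_v₁ t
  rw [show (D.mat t).map (Int.castRingHom (ZMod r)) = D.matMod t from rfl, h, zero_mulVec] at h2
  exact (smul_eq_zero.mp h2.symm).resolve_right D.v₁_ne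

theorem exists_t₀ : ∃ t₀ : T, D.matMod (t₀ * t₀) = D.matMod t₀ ∧ (D.eps t₀ : ZMod r) = 1 ∧
    ∀ t : T, (D.eps t : ZMod r) = 0 → IsNilpotent (D.matMod (t * t₀)) := by
  have hr : r.Prime := Fact.out
  have : NeZero r := ⟨hr.ne_zero⟩
  set I := RingHom.ker D.matMod
  let f : T ⧸ I →+* Matrix (Fin D.d) (Fin D.d) (ZMod r) := D.matMod.kerLift
  have : Finite (T ⧸ I) := Finite.of_injective f (RingHom.kerLift_injective _)
  let e : T ⧸ I →+* ZMod r := Ideal.Quotient.lift I ((Int.castRingHom (ZMod r)).comp D.eps)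
    fun t ht => D.eps_eq_zero_of_matMod_eq_zero (RingHom.mem_ker.mp ht)
  obtain ⟨i, hi, hei, hnil⟩ := exists_idempotent_at e
  obtain ⟨t₀, rfl⟩ := Ideal.Quotient.mk_surjective i
  refine ⟨t₀, ?_, hei, fun t ht => ?_⟩
  · show f (Ideal.Quotient.mk I (t₀ * t₀)) = f (Ideal.Quotient.mk I t₀)
    rw [map_mul (Ideal.Quotient.mk I), hi.eq]
  · have := (hnil (Ideal.Quotient.mk I t) ht).map f
    rwa [← map_mul] at this

/-- A lift of the Eisenstein idempotent. -/
def t₀ : T := D.exists_t₀.choose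

theorem matMod_t₀_sq : D.matMod (D.t₀ * D.t₀) = D.matMod D.t₀ := D.exists_t₀.choose_spec.1
theorem eps_t₀ : (D.eps D.t₀ : ZMod r) = 1 := D.exists_t₀.choose_spec.2.1
theorem isNilpotent_matMod {t : T} (ht : (D.eps t : ZMod r) = 0) :
    IsNilpotent (D.matMod (t * D.t₀)) := D.exists_t₀.choose_spec.2.2 t ht

theorem map_toZModPow_one {d : ℕ} {X Y : Matrix (Fin d) (Fin d) ℤ}
    (h : X.map (Int.castRingHom (ZMod r)) = Y.map (Int.castRingHom (ZMod r))) :
    MatModEq 1 (intMat r X) (intMat r Y) := by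
  refine matModEq_of_map_eq (Matrix.ext fun i j => ?_)
  have h2 : ((X i j : ℤ) : ZMod r) = (Y i j : ℤ) := congrFun (congrFun h i) j
  have h3 : ((X i j : ℤ) : ZMod (r ^ 1)) = (Y i j : ℤ) := by
    rw [ZMod.intCast_eq_intCast_iff_dvd_sub] at h2 ⊢
    simpa using h2
  simpa [intMat] using h3

theorem matModEq_t₀ : MatModEq 1 (intMat r (D.mat D.t₀) * intMat r (D.mat D.t₀))
    (intMat r (D.mat D.t₀)) := by
  rw [← map_mul, ← map_mul]
  exact map_toZModPow_one D.matMod_t₀_sq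

/-- The Eisenstein idempotent on the lattice. -/
def idem : Matrix (Fin D.d) (Fin D.d) ℤ_[r] :=
  (exists_idempotent_lift D.matModEq_t₀).choose

/-- The Eisenstein idempotent is idempotent. -/
theorem idem_mul_idem : D.idem * D.idem = D.idem :=
  (exists_idempotent_lift D.matModEq_t₀).choose_spec.1

/-- The idempotent is approximated by powers of `t₀`. -/
theorem idem_modEq (m : ℕ) : MatModEq (m + 1) D.idem (intMat r (D.mat (D.t₀ ^ r ^ m))) := by
  rw [map_pow, map_pow]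
  exact (exists_idempotent_lift D.matModEq_t₀).choose_spec.2.1 m

theorem idem_comm (Y : Matrix (Fin D.d) (Fin D.d) ℤ_[r])
    (hY : Y * intMat r (D.mat D.t₀) = intMat r (D.mat D.t₀) * Y) : Y * D.idem = D.idem * Y :=
  (exists_idempotent_lift D.matModEq_t₀).choose_spec.2.2 Y hY

theorem gal_idem (g : GQ) : D.gal g * D.idem = D.idem * D.gal g :=
  D.idem_comm _ (D.gal_mat g D.t₀)

theorem mat_idem (t : T) : intMat r (D.mat t) * D.idem = D.idem * intMat r (D.mat t) :=
  D.idem_comm _ (by rw [← map_mul, ← map_mul, ← map_mul, ← map_mul, mul_comm t])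

/-- The Eisenstein part of the lattice. -/
def eisLat : Submodule ℤ_[r] (Fin D.d → ℤ_[r]) where
  carrier := {v | D.idem *ᵥ v = v}
  zero_mem' := mulVec_zero _
  add_mem' {v w} hv hw := by
    show D.idem *ᵥ (v + w) = v + w
    rw [mulVec_add, show D.idem *ᵥ v = v from hv, show D.idem *ᵥ w = w from hw]
  smul_mem' c v hv := by
    show D.idem *ᵥ (c • v) = c • v
    rw [mulVec_smul, show D.idem *ᵥ v = v from hv]

/-- The Eisenstein lattice is fixed by the idempotent. -/
theorem mem_eisLat {v : Fin D.d → ℤ_[r]} : v ∈ D.eisLat ↔ D.idem *ᵥ v = v := Iff.rfl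

/-- The idempotent projects onto the Eisenstein lattice. -/
theorem idem_mulVec_mem (v : Fin D.d → ℤ_[r]) : D.idem *ᵥ v ∈ D.eisLat := by
  rw [mem_eisLat, mulVec_mulVec, idem_mul_idem]

/-- The Eisenstein lattice is stable under Galois. -/
theorem gal_mem_eisLat (g : GQ) {v : Fin D.d → ℤ_[r]} (hv : v ∈ D.eisLat) :
    D.gal g *ᵥ v ∈ D.eisLat := by
  rw [mem_eisLat, mulVec_mulVec, ← gal_idem, ← mulVec_mulVec, D.mem_eisLat.mp hv]

/-- The Hecke algebra preserves the Eisenstein lattice. -/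
theorem mat_mem_eisLat (t : T) {v : Fin D.d → ℤ_[r]} (hv : v ∈ D.eisLat) :
    intMat r (D.mat t) *ᵥ v ∈ D.eisLat := by
  rw [mem_eisLat, mulVec_mulVec, ← mat_idem, ← mulVec_mulVec, D.mem_eisLat.mp hv]

theorem pm_eq_of_matModEq {m : ℕ} {X Y : Matrix (Fin D.d) (Fin D.d) ℤ_[r]} (h : MatModEq m X Y)
    (v : Fin D.d → ℤ_[r]) : D.pm m (X *ᵥ v) = D.pm m (Y *ᵥ v) := by
  obtain ⟨Z, hZ⟩ := h
  rw [D.pm_eq_iff]
  exact ⟨Z *ᵥ v, by rw [← sub_mulVec, hZ, smul_mulVec]⟩

theorem t₀_smul_pm (m : ℕ) (v : Fin D.d → ℤ_[r]) :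
    (D.t₀ ^ r ^ m) • D.pm m v = D.pm m (D.idem *ᵥ v) := by
  rw [hecke_smul_pm]
  exact (D.pm_eq_of_matModEq ((D.idem_modEq m).mono (Nat.le_succ m)) v).symm

/-- The Eisenstein part of `J[r ^ m]`. -/
def eisTors (m : ℕ) : AddSubgroup J := D.eisLat.toAddSubgroup.map (D.pm m)

/-- The points of the Eisenstein lattice lie in the Eisenstein torsion. -/
theorem pm_mem_eisTors (m : ℕ) {v : Fin D.d → ℤ_[r]} (hv : v ∈ D.eisLat) :
    D.pm m v ∈ D.eisTors m := ⟨v, hv, rfl⟩

/-- `r ^ m` kills `eisTors m`. -/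
theorem pow_smul_eisTors {m : ℕ} {x : J} (hx : x ∈ D.eisTors m) : r ^ m • x = 0 := by
  obtain ⟨v, -, rfl⟩ := hx; exact D.pow_smul_pm m v

theorem t₀_smul_mem_eisTors (m : ℕ) (x : J) (hx : r ^ m • x = 0) :
    (D.t₀ ^ r ^ m) • x ∈ D.eisTors m := by
  obtain ⟨v, rfl⟩ := D.exists_pm_eq m x hx
  rw [t₀_smul_pm]
  exact D.pm_mem_eisTors m (D.idem_mulVec_mem v)

/-- The Eisenstein torsion is stable under Galois. -/
theorem gal_mem_eisTors (m : ℕ) (g : GQ) : ∀ x ∈ D.eisTors m, g • x ∈ D.eisTors m := by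
  rintro _ ⟨v, hv, rfl⟩
  rw [gal_smul_pm]
  exact D.pm_mem_eisTors m (D.gal_mem_eisLat g hv)

variable (A : ValuationSubring QBar)

/-- The part of the Eisenstein lattice reducing to zero at `A`. -/
def connLat : Submodule ℤ_[r] (Fin D.d → ℤ_[r]) where
  carrier := {v | v ∈ D.eisLat ∧ ∀ m, D.pm m v ∈ D.ker A}
  zero_mem' := ⟨zero_mem _, fun m => by rw [map_zero]; exact zero_mem _⟩
  add_mem' := fun ha hb => ⟨add_mem ha.1 hb.1,
    fun m => by rw [map_add]; exact add_mem (ha.2 m) (hb.2 m)⟩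
  smul_mem' := fun c v hv => ⟨Submodule.smul_mem _ c hv.1,
    fun m => by rw [pm_smul]; exact nsmul_mem (hv.2 m) _⟩

theorem connLat_le : D.connLat A ≤ D.eisLat := fun _ hv => hv.1

theorem eisLat_saturated : IsSaturated D.eisLat := by
  intro c v hc hv
  rw [mem_eisLat, mulVec_smul] at hv
  exact smul_right_injective _ hc hv

/-- The part reducing to zero at `A` is saturated. -/
theorem connLat_saturated : IsSaturated (D.connLat A) := by
  refine isSaturated_of_prime _ fun v hv => ⟨D.eisLat_saturated _ v natCast_prime_ne_zero hv.1,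
    fun m => ?_⟩
  have h := hv.2 (m + 1)
  rwa [show (r : ℤ_[r]) • v = r • v from Nat.cast_smul_eq_nsmul _ _ _, map_nsmul, pm_succ] at h

/-- The part of `eisTors m` reducing to zero at `A`, through the lattice. -/
def connTors (m : ℕ) : AddSubgroup J := (D.connLat A).toAddSubgroup.map (D.pm m)

theorem mat_mem_connLat {q : ℕ} (hq : q.Prime) (hqp : q ≠ p) (hA : A.LiesOverPrime q) (t : T)
    {v : Fin D.d → ℤ_[r]} (hv : v ∈ D.connLat A) : intMat r (D.mat t) *ᵥ v ∈ D.connLat A :=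
  ⟨D.mat_mem_eisLat t hv.1, fun m => by
    rw [← hecke_smul_pm]; exact D.hecke_mem q hq hqp A hA t _ (hv.2 m)⟩

/-- Decomposition elements at `q` preserve the connected lattice. -/
theorem gal_mem_connLat {q : ℕ} (hq : q.Prime) (hqp : q ≠ p) (hA : A.LiesOverPrime q) {g : GQ}
    (hg : g • A = A) {v : Fin D.d → ℤ_[r]} (hv : v ∈ D.connLat A) :
    D.gal g *ᵥ v ∈ D.connLat A :=
  ⟨D.gal_mem_eisLat g hv.1, fun m => by
    rw [← gal_smul_pm]; exact D.smul_mem q hq hqp A hA g hg _ (hv.2 m)⟩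

/-- Inertia at `q` is trivial on the Eisenstein lattice modulo the connected part. -/
theorem inertia_sub_mem_connLat {q : ℕ} (hq : q.Prime) (hqp : q ≠ p) (hA : A.LiesOverPrime q)
    {σ : GQ} (hσ : σ ∈ A.inertiaSubgroupIn ℚ) {v : Fin D.d → ℤ_[r]} (hv : v ∈ D.eisLat) :
    D.gal σ *ᵥ v - v ∈ D.connLat A :=
  ⟨sub_mem (D.gal_mem_eisLat σ hv) hv, fun m => by
    rw [map_sub, ← gal_smul_pm]; exact D.inertia_sub_mem q hq hqp A hA σ hσ _⟩

end EisensteinDatum

end Fermat.Agent.Mazur.Eisenstein
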