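import Fermat.Agent.Mazur.Eisenstein.DescentCore
import Fermat.Agent.Mazur.Eisenstein.Lines
import Fermat.Agent.Mazur.Eisenstein.Monodromy

/-!
# The descent at `p`

Counting modulo `r ^ m` on the Eisenstein torsion, and the defect of cocycles at `p`
(`exists_atP`).
-/

set_option autoImplicit false

noncomputable section

namespace Fermat.Agent.Mazur.Eisenstein

open Fermat.Agent.Arith Module Matrix

/-- For an endomorphism preserving a subgroup of a finite abelian group, the kernel on the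
quotient has as many elements as the cokernel. -/
theorem card_ker_quotientMap {B : Type*} [AddCommGroup B] [Finite B] (N : AddSubgroup B)
    (f : B →+ B) (hN : N ≤ N.comap f) :
    Nat.card (QuotientAddGroup.map N N f hN).ker = (N ⊔ f.range).index := by
  set θ := QuotientAddGroup.map N N f hN
  have h1 : θ.range = f.range.map (QuotientAddGroup.mk' N) := by
    ext q
    constructor
    · rintro ⟨x, rfl⟩
      induction x using QuotientAddGroup.induction_on with
      | _ b => exact ⟨f b, ⟨b, rfl⟩, rfl⟩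
    · rintro ⟨_, ⟨b, rfl⟩, rfl⟩
      exact ⟨(b : B ⧸ N), rfl⟩
  have h2 : θ.range.index = (N ⊔ f.range).index := by
    rw [← AddSubgroup.index_comap_of_surjective _ (QuotientAddGroup.mk'_surjective N), h1,
      AddSubgroup.comap_map_eq, QuotientAddGroup.ker_mk', sup_comm]
  rw [← h2]
  have h3 := θ.range.card_mul_index
  have h4 := θ.ker.card_mul_index
  rw [AddSubgroup.index_ker] at h4
  exact Nat.eq_of_mul_eq_mul_left (Nat.card_pos : 0 < Nat.card θ.range)
    (by rw [h3, ← h4, mul_comm])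

/-- For an endomorphism of a finite abelian group, kernel and cokernel have as many elements. -/
private theorem card_ker_eq_index_range {B : Type*} [AddCommGroup B] [Finite B] (f : B →+ B) :
    Nat.card f.ker = f.range.index := by
    have h3 := f.range.card_mul_index
    have h4 := f.ker.card_mul_index
    rw [AddSubgroup.index_ker] at h4
    exact Nat.eq_of_mul_eq_mul_left (Nat.card_pos : 0 < Nat.card f.range)
      (by rw [h3, ← h4, mul_comm])

variable {p r : ℕ} [Fact r.Prime] {J : Type} [AddCommGroup J] [DistribMulAction GQ J]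
variable {T : Type} [CommRing T] [Module T J]

namespace EisensteinDatum

variable (D : EisensteinDatum p r J T)

attribute [instance] finite_eisTors

/-- The reduction of the Eisenstein lattice modulo `r ^ m`. -/
def latHom (m : ℕ) : D.eisLat →+ D.eisTors m :=
  AddMonoidHom.mk' (fun v => ⟨D.pm m v, D.pm_mem_eisTors m v.2⟩)
    fun a b => Subtype.ext (map_add (D.pm m) (a : Fin D.d → ℤ_[r]) b)

theorem latHom_surjective (m : ℕ) : Function.Surjective (D.latHom m) := fun b => by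
  obtain ⟨v, hv, hvb⟩ := b.2
  exact ⟨⟨v, hv⟩, Subtype.ext hvb⟩

/-- The image modulo `r ^ m` of a sublattice. -/
def imTors (Y : Submodule ℤ_[r] (Fin D.d → ℤ_[r])) (m : ℕ) : AddSubgroup (D.eisTors m) :=
  (Y.comap D.eisLat.subtype).toAddSubgroup.map (D.latHom m)

theorem mem_imTors {Y : Submodule ℤ_[r] (Fin D.d → ℤ_[r])} {m : ℕ} {b : D.eisTors m} :
    b ∈ D.imTors Y m ↔ ∃ v ∈ D.eisLat, v ∈ Y ∧ D.pm m v = (b : J) := by
  constructor
  · rintro ⟨v, hv, rfl⟩; exact ⟨v, v.2, hv, rfl⟩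
  · rintro ⟨v, hv, hvY, h⟩; exact ⟨⟨v, hv⟩, hvY, Subtype.ext h⟩

theorem ker_latHom (m : ℕ) : (D.latHom m).ker =
    (LinearMap.range ((r : ℤ_[r]) ^ m •
      (LinearMap.id : D.eisLat →ₗ[ℤ_[r]] D.eisLat))).toAddSubgroup := by
  ext v
  rw [AddMonoidHom.mem_ker, Submodule.mem_toAddSubgroup, LinearMap.mem_range]
  constructor
  · intro h
    obtain ⟨w, hw⟩ := (D.pm_eq_zero_iff m v).mp (congrArg Subtype.val h)
    exact ⟨⟨w, D.eisLat_saturated _ _ (pow_ne_zero m natCast_prime_ne_zero) (hw ▸ v.2)⟩,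
      Subtype.ext hw.symm⟩
  · rintro ⟨w, rfl⟩
    exact Subtype.ext ((D.pm_eq_zero_iff m _).mpr ⟨w, rfl⟩)

/-- The index of the image of a sublattice. -/
theorem exists_index_bounds {Y : Submodule ℤ_[r] (Fin D.d → ℤ_[r])} (hY : Y ≤ D.eisLat) :
    ∃ C : ℕ, ∀ m : ℕ,
      r ^ (m * (2 * D.eisRank - finrank ℤ_[r] Y)) ≤ (D.imTors Y m).index ∧
        (D.imTors Y m).index ≤ r ^ (m * (2 * D.eisRank - finrank ℤ_[r] Y) + C) := by
  obtain ⟨C, hC⟩ := exists_card_bounds (Module.finBasisOfFinrankEq ℤ_[r] D.eisLat D.finrank_eisLat)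
    (Y.comap D.eisLat.subtype)
  rw [(Submodule.comapSubtypeEquivOfLe hY).finrank_eq] at hC
  refine ⟨C, fun m => ?_⟩
  have h : (D.imTors Y m).index = Nat.card (D.eisLat ⧸ (Y.comap D.eisLat.subtype ⊔
      LinearMap.range ((r : ℤ_[r]) ^ m • (LinearMap.id : D.eisLat →ₗ[ℤ_[r]] D.eisLat)))) := by
    rw [← AddSubgroup.index_comap_of_surjective _ (D.latHom_surjective m), imTors,
      AddSubgroup.comap_map_eq, ker_latHom, ← Submodule.sup_toAddSubgroup, AddSubgroup.index]
    rfl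
  rw [h]
  exact hC m

theorem index_imTors_bot (m : ℕ) : (D.imTors ⊥ m).index = Nat.card (D.eisTors m) := by
  have : D.imTors ⊥ m = ⊥ := by
    rw [eq_bot_iff]
    intro b hb
    obtain ⟨v, -, hv, h⟩ := D.mem_imTors.mp hb
    rw [(Submodule.mem_bot _).mp hv, map_zero] at h
    exact Subtype.ext h.symm
  rw [this, AddSubgroup.index_bot]

theorem imTors_connLat (A : ValuationSubring QBar) (m : ℕ) :
    D.imTors (D.connLat A) m = (D.connTors A m).addSubgroupOf (D.eisTors m) := by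
  ext b
  rw [mem_imTors, AddSubgroup.mem_addSubgroupOf]
  exact ⟨fun ⟨v, _, hv, h⟩ => ⟨v, hv, h⟩, fun ⟨v, hv, h⟩ => ⟨v, hv.1, hv, h⟩⟩

variable {Ap : ValuationSubring QBar}

/-- Frobenius and the monodromy on the lattice: `F N = p N F`. -/
private theorem gal_frobenius_mul_sub_one (hA : Ap.LiesOverPrime p) {π : QBar} (hπ : π ^ r = p)
    {σ₀ F : GQ} (hσ₀ : σ₀ ∈ Ap.inertiaSubgroupIn ℚ) (hne : σ₀ π ≠ π)
    (hF : Ap.IsFrobeniusAt F p) :
    D.gal F * (D.gal σ₀ - 1) = (p : ℤ_[r]) • ((D.gal σ₀ - 1) * D.gal F) := by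
  have hpowpm : ∀ (m j : ℕ) (v : Fin D.d → ℤ_[r]),
      (σ₀ ^ j) • D.pm m v = D.pm m v + j • (σ₀ • D.pm m v - D.pm m v) := by
    intro m j v
    have h0 := D.semistable Ap hA σ₀ hσ₀ m _ (D.pow_smul_pm m v)
    rw [smul_pow_eq σ₀ _ (by rw [h0, smul_zero]), h0, smul_zero, add_zero]
  refine Matrix.ext_of_mulVec_single fun j => D.pm_ext fun m => ?_
  set v : Fin D.d → ℤ_[r] := Pi.single j 1
  obtain ⟨-, hconj, -⟩ := D.exists_eq_pow hA hπ hσ₀ hne hF m 0 (fun g => by simp)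
  have h1 := hconj (D.pm m (D.gal F *ᵥ v)) (D.pow_smul_pm m _)
  rw [hpowpm] at h1
  nth_rw 1 [← gal_smul_pm] at h1
  rw [mul_smul, mul_smul, inv_smul_smul] at h1
  rw [smul_mulVec, ← mulVec_mulVec, ← mulVec_mulVec, sub_mulVec, sub_mulVec, one_mulVec,
    one_mulVec, mulVec_sub, map_sub, ← gal_smul_pm, ← gal_smul_pm, Nat.cast_smul_eq_nsmul,
    map_nsmul, map_sub, ← gal_smul_pm]
  simp only [← gal_smul_pm] at h1 ⊢
  rw [h1]
  abel

/-- The relation `F N = p N F` on an Eisenstein torsion point. -/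
private theorem frobenius_smul_sub {σ₀ F : GQ}
    (hrel : D.gal F * (D.gal σ₀ - 1) = (p : ℤ_[r]) • ((D.gal σ₀ - 1) * D.gal F)) {m : ℕ}
    (a : D.eisTors m) : F • (σ₀ • (a : J) - a) = p • (σ₀ • F • (a : J) - F • (a : J)) := by
  obtain ⟨v, hv, hva⟩ := a.2
  have := congrArg (fun Z : Matrix (Fin D.d) (Fin D.d) ℤ_[r] => D.pm m (Z *ᵥ v)) hrel
  simp only [← mulVec_mulVec, sub_mulVec, one_mulVec, smul_mulVec, mulVec_sub, map_sub,
    Nat.cast_smul_eq_nsmul, map_nsmul, ← gal_smul_pm, hva] at this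
  rw [smul_sub]
  exact this

/-- The image of `σ - 1` on the Eisenstein torsion is that of the lattice `N`. -/
private theorem range_eq_imTors {σ₀ : GQ} {m : ℕ} (Nop : D.eisTors m →+ D.eisTors m)
    (hNapp : ∀ b : D.eisTors m, (Nop b : J) = σ₀ • (b : J) - b)
    (hNE : ∀ v ∈ D.eisLat, (D.gal σ₀ - 1) *ᵥ v ∈ D.eisLat) :
    Nop.range = D.imTors (D.imLat (D.gal σ₀ - 1)) m := by
  ext b
  rw [mem_imTors]
  constructor
  · rintro ⟨a, rfl⟩
    obtain ⟨v, hv, hva⟩ := a.2
    refine ⟨_, hNE v hv, ⟨v, hv, rfl⟩, ?_⟩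
    rw [hNapp, ← hva, gal_smul_pm, ← map_sub]
    simp [sub_mulVec]
  · rintro ⟨_, -, ⟨v, hv, rfl⟩, hvb⟩
    refine ⟨⟨D.pm m v, D.pm_mem_eisTors m hv⟩, Subtype.ext ?_⟩
    rw [hNapp, ← hvb, gal_smul_pm, ← map_sub]
    simp

/-- The images of `σ - 1` and `F - p` together. -/
private theorem range_sup_range_eq_imTors {σ₀ F : GQ} {m : ℕ}
    (Nop f : D.eisTors m →+ D.eisTors m)
    (hNapp : ∀ b : D.eisTors m, (Nop b : J) = σ₀ • (b : J) - b)
    (hfapp : ∀ b : D.eisTors m, (f b : J) = F • (b : J) - p • (b : J))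
    (hSle : D.imLat (D.gal σ₀ - 1) ⊔ D.imLat (D.gal F - (p : ℤ_[r]) • 1) ≤ D.eisLat)
    (hNrange : Nop.range = D.imTors (D.imLat (D.gal σ₀ - 1)) m) :
    Nop.range ⊔ f.range =
      D.imTors (D.imLat (D.gal σ₀ - 1) ⊔ D.imLat (D.gal F - (p : ℤ_[r]) • 1)) m := by
  set N := D.gal σ₀ - 1 with hN
  set Φ := D.gal F - (p : ℤ_[r]) • 1 with hΦ
  refine le_antisymm (sup_le ?_ ?_) ?_
  · rw [hNrange]
    intro b hb
    obtain ⟨v, hv, hvY, h⟩ := D.mem_imTors.mp hb
    exact D.mem_imTors.mpr ⟨v, hv, Submodule.mem_sup_left hvY, h⟩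
  · rintro _ ⟨a, rfl⟩
    obtain ⟨v, hv, hva⟩ := a.2
    refine D.mem_imTors.mpr ⟨Φ *ᵥ v, hSle (Submodule.mem_sup_right ⟨v, hv, rfl⟩),
      Submodule.mem_sup_right ⟨v, hv, rfl⟩, ?_⟩
    rw [hfapp, ← hva, gal_smul_pm, hΦ, sub_mulVec, smul_mulVec, one_mulVec, map_sub,
      Nat.cast_smul_eq_nsmul, map_nsmul]
  · intro b hb
    obtain ⟨_, -, hvY, h⟩ := D.mem_imTors.mp hb
    obtain ⟨_, ⟨a, ha, rfl⟩, _, ⟨c, hc, rfl⟩, rfl⟩ := Submodule.mem_sup.mp hvY
    refine AddSubgroup.mem_sup.mpr ⟨_, ⟨⟨D.pm m a, D.pm_mem_eisTors m ha⟩, rfl⟩, _,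
      ⟨⟨D.pm m c, D.pm_mem_eisTors m hc⟩, rfl⟩, Subtype.ext ?_⟩
    rw [AddSubgroup.coe_add, hNapp, hfapp, ← h]
    show σ₀ • D.pm m a - D.pm m a + (F • D.pm m c - p • D.pm m c) = D.pm m (N *ᵥ a + Φ *ᵥ c)
    simp only [hN, hΦ, sub_mulVec, smul_mulVec, one_mulVec, map_add, map_sub,
      gal_smul_pm, Nat.cast_smul_eq_nsmul, map_nsmul]

/-- Inertia acts on the Eisenstein torsion through powers of `σ₀`, so its invariants are the
kernel of `σ₀ - 1`. -/
private theorem fixedBy_eisTors_eq_ker (hA : Ap.LiesOverPrime p) {π : QBar} (hπ : π ^ r = p)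
    {σ₀ F : GQ} (hσ₀ : σ₀ ∈ Ap.inertiaSubgroupIn ℚ) (hne : σ₀ π ≠ π)
    (hF : Ap.IsFrobeniusAt F p) {m : ℕ} (Nop : D.eisTors m →+ D.eisTors m)
    (hNapp : ∀ b : D.eisTors m, (Nop b : J) = σ₀ • (b : J) - b) :
    letI := subAction (D.eisTors m) (D.gal_mem_eisTors m)
    fixedBy (D.eisTors m) (Ap.inertiaSubgroupIn ℚ) = Nop.ker := by
  let := subAction (D.eisTors m) (D.gal_mem_eisTors m)
  ext b
  rw [mem_fixedBy, AddMonoidHom.mem_ker]
  constructor
  · intro h
    exact Subtype.ext ((hNapp b).trans (sub_eq_zero.mpr (congrArg Subtype.val (h σ₀ hσ₀))))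
  · intro h g hg
    have hb : σ₀ • (b : J) = b := sub_eq_zero.mp ((hNapp b).symm.trans (congrArg Subtype.val h))
    obtain ⟨hgen, -⟩ := D.exists_eq_pow hA hπ hσ₀ hne hF m 0 (fun g => by simp)
    obtain ⟨j, hj, -⟩ := hgen g hg
    exact Subtype.ext ((hj b (D.pow_smul_eisTors b.2)).trans
      (MulAction.mem_stabilizer_iff.mp (pow_mem (MulAction.mem_stabilizer_iff.mpr hb) j)))

omit [Fact r.Prime] in
/-- If `σ b - b = k (σ w - w)` and `g` acts on `b` and `w` as a power of `σ`, the same holds for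
`g`. -/
private theorem nsmul_smul_sub_eq {σ g : GQ} {j k : ℕ} {b w : J}
    (hb : σ • b - b = k • (σ • w - w)) (hgb : g • b = (σ ^ j) • b) (hgw : g • w = (σ ^ j) • w) :
    k • (g • w - w) = g • b - b := by
  have hfixz : σ • (k • w - b) = k • w - b := by
    rw [smul_sub, SMulCommClass.smul_comm σ k, show σ • w = (σ • w - w) + w by abel, smul_add,
      ← hb]
    abel
  have hfixj : (σ ^ j) • (k • w - b) = k • w - b :=
    MulAction.mem_stabilizer_iff.mp (pow_mem (MulAction.mem_stabilizer_iff.mpr hfixz) j)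
  rw [hgw, hgb]
  rw [smul_sub, SMulCommClass.smul_comm _ k] at hfixj
  rw [smul_sub]
  linear_combination (norm := abel) hfixj

/-- The cardinalities at `p` and the defect of cocycles there. -/
theorem exists_atP (hA : Ap.LiesOverPrime p) :
    ∃ rN rS C : ℕ, rN + D.eisRank ≤ rS ∧ rS ≤ 2 * D.eisRank ∧ ∀ m : ℕ,
      letI := subAction (D.eisTors m) (D.gal_mem_eisTors m)
      r ^ (m * (2 * D.eisRank - rN)) ≤
          Nat.card (fixedBy (D.eisTors m) (Ap.inertiaSubgroupIn ℚ)) ∧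
        ∃ k : ℕ, k ≠ 0 ∧ k ≤ r ^ (m * (2 * D.eisRank - rS) + C) ∧
          ∀ w : J, (∀ g : GQ, g • w - w ∈ D.eisTors m) → ∃ b ∈ D.eisTors m,
            ∀ g ∈ Ap.inertiaSubgroupIn ℚ, k • (g • w - w) = g • b - b := by
  classical
  have hr : r.Prime := Fact.out
  obtain ⟨π, hπ⟩ := IsAlgClosed.exists_pow_nat_eq (p : QBar) hr.pos
  obtain ⟨σ₀, hσ₀, hne⟩ := exists_inertia_ne hA D.prime hr hπ
  obtain ⟨F, hF⟩ := exists_isFrobeniusAt hA D.prime
  -- the exact relations on the lattice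
  have hsq := D.gal_sub_sq hA hσ₀
  have hrel := D.gal_frobenius_mul_sub_one hA hπ hσ₀ hne hF
  have hchi : (chi r F : ℤ_[r]) = p := chi_frobenius hA D.prime (Ne.symm D.ne) hF
  -- `N = σ₀ - 1` and `Φ = F - p`; the lattices `N E` and `N E + Φ E` give `r_N` and `r_S`
  set N := D.gal σ₀ - 1 with hN
  set Φ := D.gal F - (p : ℤ_[r]) • 1 with hΦ
  have hNE : ∀ v ∈ D.eisLat, N *ᵥ v ∈ D.eisLat := fun v hv => by
    rw [hN, sub_mulVec, one_mulVec]; exact sub_mem (D.gal_mem_eisLat σ₀ hv) hv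
  have hNle : D.imLat N ≤ D.eisLat := Submodule.map_le_iff_le_comap.mpr hNE
  have hSle : D.imLat N ⊔ D.imLat Φ ≤ D.eisLat :=
    sup_le hNle (Submodule.map_le_iff_le_comap.mpr fun v hv => by
      show Φ *ᵥ v ∈ D.eisLat
      rw [hΦ, sub_mulVec, smul_mulVec, one_mulVec]
      exact sub_mem (D.gal_mem_eisLat F hv) (D.eisLat.smul_mem _ hv))
  obtain ⟨_, hCN⟩ := D.exists_index_bounds hNle
  obtain ⟨C, hCS⟩ := D.exists_index_bounds hSle
  refine ⟨_, _, C, D.finrank_imLat_add_le hsq hrel hchi,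
    D.finrank_eisLat ▸ Submodule.finrank_mono hSle, fun m => ?_⟩
  let := subAction (D.eisTors m) (D.gal_mem_eisTors m)
  -- the two operators modulo `r ^ m`, whose images are those of the lattices
  set Nop : D.eisTors m →+ D.eisTors m :=
    DistribSMul.toAddMonoidHom (D.eisTors m) σ₀ - AddMonoidHom.id _ with hNop
  set f : D.eisTors m →+ D.eisTors m :=
    DistribSMul.toAddMonoidHom (D.eisTors m) F - p • AddMonoidHom.id _ with hf
  have hNapp : ∀ b : D.eisTors m, (Nop b : J) = σ₀ • (b : J) - b := fun b => rfl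
  have hfapp : ∀ b : D.eisTors m, (f b : J) = F • (b : J) - p • (b : J) := fun b => by
    simp [hf]
    rfl
  have hNrange := D.range_eq_imTors Nop hNapp hNE
  have hsup := D.range_sup_range_eq_imTors Nop f hNapp hfapp hSle hNrange
  -- `F N = p N F`, so `f` preserves the image of `Nop`
  have hstable : Nop.range ≤ Nop.range.comap f := by
    rintro _ ⟨a, rfl⟩
    refine ⟨p • ⟨F • (a : J), D.gal_mem_eisTors m F _ a.2⟩ - p • a, Subtype.ext ?_⟩
    have h3 := D.frobenius_smul_sub hrel a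
    rw [map_sub, map_nsmul, map_nsmul, AddSubgroup.coe_sub, AddSubmonoidClass.coe_nsmul,
      AddSubmonoidClass.coe_nsmul, hfapp, hNapp, hNapp]
    exact (congrArg (· - p • (σ₀ • (a : J) - (a : J))) h3).symm
  refine ⟨?_, ?_⟩
  · -- inertia acts on the torsion through powers of `σ₀`, so its invariants are the kernel of `Nop`
    have hfix := D.fixedBy_eisTors_eq_ker hA hπ hσ₀ hne hF Nop hNapp
    have hcard := card_ker_eq_index_range Nop
    rw [hfix, hcard, hNrange]
    exact (hCN m).1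
  · -- `k` is the index of the two images together, the order of the kernel of `f` on the
    -- cokernel of `Nop`
    refine ⟨(Nop.range ⊔ f.range).index, AddSubgroup.index_ne_zero_of_finite,
      hsup ▸ (hCS m).2, fun w hw => ?_⟩
    obtain ⟨hgen, -, hconj⟩ := D.exists_eq_pow hA hπ hσ₀ hne hF m w
      (fun g => D.pow_smul_eisTors (hw g))
    set x : D.eisTors m := ⟨σ₀ • w - w, hw σ₀⟩ with hx
    -- conjugating by `F` shows that the class of `x = σ₀ w - w` is in that kernel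
    have hxker : ((x : D.eisTors m) : D.eisTors m ⧸ Nop.range) ∈
        (QuotientAddGroup.map Nop.range Nop.range f hstable).ker := by
      rw [AddMonoidHom.mem_ker, QuotientAddGroup.map_mk, QuotientAddGroup.eq_zero_iff]
      set y : D.eisTors m := ⟨F⁻¹ • w - w, hw F⁻¹⟩ with hy
      refine ⟨p.choose 2 • x - p • ⟨F • (y : J), D.gal_mem_eisTors m F _ y.2⟩, Subtype.ext ?_⟩
      have hyv : F⁻¹ • w = w + (y : J) := (add_sub_cancel _ _).symm
      have hxv : σ₀ • w = w + (x : J) := (add_sub_cancel _ _).symm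
      have hFy : F • w = w - F • (y : J) := by
        rw [hy, smul_sub, smul_inv_smul]; abel
      have hzz : σ₀ • (σ₀ • (x : J) - (x : J)) - (σ₀ • (x : J) - (x : J)) = 0 :=
        D.semistable Ap hA σ₀ hσ₀ m _ (D.pow_smul_eisTors x.2)
      have h2 := D.frobenius_smul_sub hrel y
      have h1 : F • σ₀ • F⁻¹ • w =
          w + p • (x : J) + p.choose 2 • (σ₀ • (x : J) - (x : J)) := by
        rw [← mul_smul, ← mul_smul, hconj, smul_pow_eq σ₀ w (sub_eq_zero.mp hzz)]
      rw [hyv, smul_add, hxv, smul_add, smul_add, hFy,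
        show σ₀ • (y : J) = (σ₀ • (y : J) - (y : J)) + (y : J) by abel, smul_add, h2] at h1
      rw [map_sub, map_nsmul, map_nsmul, AddSubgroup.coe_sub, AddSubmonoidClass.coe_nsmul,
        AddSubmonoidClass.coe_nsmul, hNapp, hNapp, hfapp]
      linear_combination (norm := abel) -h1
    -- so `k • x = σ₀ b - b` for some `b`
    have hk : ((Nop.range ⊔ f.range).index • x : D.eisTors m) ∈ Nop.range := by
      rw [← QuotientAddGroup.eq_zero_iff, QuotientAddGroup.mk_nsmul,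
        ← card_ker_quotientMap Nop.range f hstable]
      exact congrArg Subtype.val (card_nsmul_eq_zero'
        (x := (⟨_, hxker⟩ : (QuotientAddGroup.map Nop.range Nop.range f hstable).ker)))
    obtain ⟨b, hb⟩ := hk
    set k := (Nop.range ⊔ f.range).index
    have hb' : σ₀ • (b : J) - b = k • (σ₀ • w - w) := by
      rw [← hNapp, hb]; rfl
    -- `k w - b` is fixed by `σ₀`, hence by inertia
    refine ⟨b, b.2, fun g hg => ?_⟩
    obtain ⟨j, hj, hjw⟩ := hgen g hg
    exact nsmul_smul_sub_eq hb' (hj b (D.pow_smul_eisTors b.2)) hjw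

end EisensteinDatum

end Fermat.Agent.Mazur.Eisenstein
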