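import Fermat.Agent.Mazur.Eisenstein.KummerCoc
import Fermat.Agent.Mazur.Eisenstein.Lines

/-!
# The descent at `r`

Coboundaries have unit valuation classes, and cocycles reducing to zero on inertia at `r` have
unit classes up to a bounded power of `r`; the Eisenstein torsion is locally good
(`isLocallyGood`).
-/

set_option autoImplicit false

noncomputable section

namespace Fermat.Agent.Mazur.Eisenstein

open Fermat.Agent.Arith Matrix
open scoped Pointwise

variable {r : ℕ} [Fact r.Prime]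

/-- A class modulo `r ^ m` in the multiplicative group of `ℚ̄`. -/
def zexpU (r : ℕ) [Fact r.Prime] (m : ℕ) : ZMod (r ^ m) →+ UnitsBar :=
  AddMonoidHom.mk' (fun a => Additive.ofMul (Units.mk0 (zexp m a) (zexp_ne_zero m a)))
    fun a b => uval_injective (by
      rw [uval_add, uval_ofMul, uval_ofMul, uval_ofMul, Units.val_mk0, Units.val_mk0, Units.val_mk0,
        zexp_add])

theorem uval_zexpU (m : ℕ) (a : ZMod (r ^ m)) : uval (zexpU r m a) = zexp m a := rfl

variable {d : ℕ}

/-- A coordinate modulo `r ^ m` of a function with values in the lattice. -/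
def vcoord (m : ℕ) (V : GQ → (Fin d → ℤ_[r])) (j : Fin d) : GQ → ZMod (r ^ m) :=
  fun g => PadicInt.toZModPow m (V g j)

/-- All coordinates are twisted cocycles on the subgroup. -/
def IsVCoc (I : Subgroup GQ) (m : ℕ) (V : GQ → (Fin d → ℤ_[r])) : Prop :=
  ∀ j, vcoord m V j ∈ kummerCoc I m

/-- The vector of valuation classes. -/
def kvv (A : ValuationSubring QBar) (m : ℕ) (V : GQ → (Fin d → ℤ_[r])) : Fin d → ZMod (r ^ m) :=
  fun j => kv A m (vcoord m V j)

theorem vcoord_mulVec (m : ℕ) (Z : Matrix (Fin d) (Fin d) ℤ_[r]) (V : GQ → (Fin d → ℤ_[r]))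
    (j : Fin d) :
    vcoord m (fun g => Z *ᵥ V g) j = ∑ k, PadicInt.toZModPow m (Z j k) • vcoord m V k := by
  funext g
  simp only [vcoord, Matrix.mulVec, dotProduct, map_sum, map_mul, Finset.sum_apply, Pi.smul_apply,
    smul_eq_mul]

variable {A : ValuationSubring QBar} (hA : A.LiesOverPrime r)
include hA

local notation "Ir" => ValuationSubring.inertiaSubgroupIn ℚ A

theorem isVCoc_mulVec {m : ℕ} (Z : Matrix (Fin d) (Fin d) ℤ_[r]) {V : GQ → (Fin d → ℤ_[r])}
    (hV : IsVCoc Ir m V) : IsVCoc Ir m fun g => Z *ᵥ V g := fun j => by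
  rw [vcoord_mulVec]
  exact AddSubgroup.sum_mem _ fun k _ => (kv_smul hA _ (hV k)).1

theorem kvv_mulVec {m : ℕ} (Z : Matrix (Fin d) (Fin d) ℤ_[r]) {V : GQ → (Fin d → ℤ_[r])}
    (hV : IsVCoc Ir m V) :
    kvv A m (fun g => Z *ᵥ V g) = Z.map (PadicInt.toZModPow m) *ᵥ kvv A m V := by
  funext j
  rw [kvv, vcoord_mulVec, kv_sum hA _ fun k _ => (kv_smul hA _ (hV k)).1]
  exact Finset.sum_congr rfl fun k _ => (kv_smul hA _ (hV k)).2

theorem kvv_congr {m : ℕ} {V V' : GQ → (Fin d → ℤ_[r])} (hV : IsVCoc Ir m V)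
    (h : ∀ g ∈ Ir, ∀ j, PadicInt.toZModPow m (V g j) = PadicInt.toZModPow m (V' g j)) :
    kvv A m V = kvv A m V' :=
  funext fun j => kv_congr hA (hV j) fun g hg => h g hg j

variable {p : ℕ} {J : Type} [AddCommGroup J] [DistribMulAction GQ J]
variable {T : Type} [CommRing T] [Module T J]

namespace EisensteinDatum

variable (D : EisensteinDatum p r J T)

omit hA in
theorem toZModPow_eq_of_pm_eq {m : ℕ} {v v' : Fin D.d → ℤ_[r]} (h : D.pm m v = D.pm m v')
    (j : Fin D.d) : PadicInt.toZModPow m (v j) = PadicInt.toZModPow m (v' j) :=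
  congrFun (D.ι_injective m h) j

omit hA in
/-- The coboundary of an Eisenstein vector. -/
def transV (v : Fin D.d → ℤ_[r]) : GQ → (Fin D.d → ℤ_[r]) :=
  fun g => D.gal g *ᵥ (D.idem *ᵥ v) - D.idem *ᵥ v

theorem isVCoc_transV (m : ℕ) (v : Fin D.d → ℤ_[r]) : IsVCoc Ir m (D.transV v) := fun j => by
  have hE := D.idem_mulVec_mem v
  refine ⟨fun g hg h hh => ?_, ?_⟩
  · have e : D.transV v (g * h) = D.transV v g + (chi r g : ℤ_[r]) • D.transV v h := by
      simp only [transV]
      rw [← D.gal_mulVec_connLat hA hg (D.inertia_sub_mem_connLat A (Fact.out : r.Prime) D.ne hA hh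
        hE), map_mul, ← mulVec_mulVec, mulVec_sub]
      abel
    show PadicInt.toZModPow m (D.transV v (g * h) j) = _
    rw [e, Pi.add_apply, Pi.smul_apply, smul_eq_mul, map_add, map_mul]
    rfl
  · have := D.finite_eisTors m
    obtain ⟨L, hL, hLfix⟩ := D.exists_level (D.eisTors m)
    refine ⟨L, hL, fun g _ g' _ hx => D.toZModPow_eq_of_pm_eq ?_ j⟩
    simp only [transV]
    rw [map_sub, map_sub, ← gal_smul_pm, ← gal_smul_pm]
    congr 1
    rw [← inv_smul_eq_iff, ← mul_smul]
    exact (hLfix (g'⁻¹ * g) (fun x hxL => by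
      rw [AlgEquiv.mul_apply, hx x hxL, ← AlgEquiv.mul_apply, inv_mul_cancel, AlgEquiv.one_apply])
      _ (D.pm_mem_eisTors m hE))

theorem transV_class (v : Fin D.d → ℤ_[r]) (j : Fin D.d) :
    ∃ x : ℤ_[r], ∀ m, PadicInt.toZModPow m x = kvv A m (D.transV v) j := by
  refine exists_toZModPow_eq _ fun m => ?_
  refine (kv_cast hA (D.isVCoc_transV hA (m + 1) v j)).symm.trans ?_
  refine congrArg (kv A m) (funext fun g => ?_)
  exact RingHom.congr_fun (PadicInt.zmod_cast_comp_toZModPow m (m + 1) (Nat.le_succ m)) _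

/-- The valuation classes of the coboundaries, as a linear map. -/
def classMap : (Fin D.d → ℤ_[r]) →ₗ[ℤ_[r]] (Fin D.d → ℤ_[r]) where
  toFun v j := (D.transV_class hA v j).choose
  map_add' v w := funext fun j => PadicInt.ext_of_toZModPow.mp fun m => by
    rw [Pi.add_apply, map_add, (D.transV_class hA _ j).choose_spec m,
      (D.transV_class hA _ j).choose_spec m, (D.transV_class hA _ j).choose_spec m]
    show kv A m _ = kv A m _ + kv A m _
    rw [← kv_add hA (D.isVCoc_transV hA m v j) (D.isVCoc_transV hA m w j)]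
    refine congrArg (kv A m) (funext fun g => ?_)
    simp only [vcoord, transV, mulVec_add, Pi.add_apply, Pi.sub_apply, map_add, map_sub]
    ring
  map_smul' c v := funext fun j => PadicInt.ext_of_toZModPow.mp fun m => by
    rw [RingHom.id_apply, Pi.smul_apply, smul_eq_mul, map_mul,
      (D.transV_class hA _ j).choose_spec m, (D.transV_class hA _ j).choose_spec m]
    show kv A m _ = _ * kv A m _
    rw [← (kv_smul hA _ (D.isVCoc_transV hA m v j)).2]
    refine congrArg (kv A m) (funext fun g => ?_)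
    simp only [vcoord, transV, mulVec_smul, Pi.smul_apply, Pi.sub_apply, smul_eq_mul, map_mul,
      map_sub]
    ring

theorem toZModPow_classMap (m : ℕ) (v : Fin D.d → ℤ_[r]) (j : Fin D.d) :
    PadicInt.toZModPow m (D.classMap hA v j) = kvv A m (D.transV v) j :=
  (D.transV_class hA v j).choose_spec m

omit hA in
theorem eq_of_toZModPow {v w : Fin D.d → ℤ_[r]}
    (h : ∀ m j, PadicInt.toZModPow m (v j) = PadicInt.toZModPow m (w j)) : v = w :=
  funext fun j => PadicInt.ext_of_toZModPow.mp fun m => h m j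

omit hA in
theorem toZModPow_mulVec (m : ℕ) (Z : Matrix (Fin D.d) (Fin D.d) ℤ_[r]) (v : Fin D.d → ℤ_[r])
    (j : Fin D.d) : PadicInt.toZModPow m ((Z *ᵥ v) j) =
      (Z.map (PadicInt.toZModPow m) *ᵥ fun k => PadicInt.toZModPow m (v k)) j :=
  RingHom.map_mulVec (PadicInt.toZModPow m) Z v j

omit hA in
theorem transV_idem (v : Fin D.d → ℤ_[r]) : D.transV (D.idem *ᵥ v) = D.transV v := by
  funext g
  rw [transV, transV, mulVec_mulVec (M := D.idem) (N := D.idem), D.idem_mul_idem]

theorem classMap_eq_zero {v : Fin D.d → ℤ_[r]} (hv : v ∈ D.connLat A) : D.classMap hA v = 0 :=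
  D.eq_of_toZModPow fun m j => by
    rw [toZModPow_classMap, Pi.zero_apply, map_zero]
    refine kv_coboundary hA (PadicInt.toZModPow m (v j)) fun g hg => ?_
    show PadicInt.toZModPow m (D.transV v g j) = _
    rw [transV, D.mem_eisLat.mp hv.1, D.gal_mulVec_connLat hA hg hv, Pi.sub_apply, Pi.smul_apply,
      smul_eq_mul, map_sub, map_mul]
    rfl

theorem classMap_mem (v : Fin D.d → ℤ_[r]) : D.classMap hA v ∈ D.connLat A := by
  obtain ⟨P, hP, hPX⟩ := exists_proj (D.connLat_saturated A)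
  have e : D.classMap hA v = LinearMap.toMatrix' P *ᵥ D.classMap hA v :=
    D.eq_of_toZModPow fun m j => by
      rw [toZModPow_mulVec, funext fun k => D.toZModPow_classMap hA m v k, toZModPow_classMap,
        ← kvv_mulVec hA _ (D.isVCoc_transV hA m v)]
      refine congrFun (kvv_congr hA (D.isVCoc_transV hA m v) fun g hg k => ?_) j
      simp only [transV]
      rw [LinearMap.toMatrix'_mulVec, hPX _
        (D.inertia_sub_mem_connLat A (Fact.out : r.Prime) D.ne hA hg (D.idem_mulVec_mem v))]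
  rw [e, LinearMap.toMatrix'_mulVec]
  exact hP _

/-- The classes of coboundaries vanish. -/
theorem kvv_transV_eq_zero (m : ℕ) (v : Fin D.d → ℤ_[r]) : kvv A m (D.transV v) = 0 := by
  have hr : r.Prime := Fact.out
  obtain ⟨φ, hφ⟩ := exists_isFrobeniusAt hA hr
  have hφA : φ • A = A := (isFrobeniusAt_iff_forall_mem.mp hφ).1
  set X := LinearMap.toMatrix' (D.classMap hA) with hX
  have hXv : ∀ w, X *ᵥ w = D.classMap hA w := fun w => LinearMap.toMatrix'_mulVec _ w
  have hzero := D.eq_zero_of_twisted hA hφ X (fun w _ => hXv w ▸ D.classMap_mem hA w)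
    (fun w hw => (hXv w).trans (D.classMap_eq_zero hA hw))
    (fun t w _ => D.eq_of_toZModPow fun k j => by
      rw [hXv, hXv, toZModPow_classMap, toZModPow_mulVec,
        funext fun i => D.toZModPow_classMap hA k w i,
        ← kvv_mulVec hA _ (D.isVCoc_transV hA k w)]
      refine congrArg (fun V => kvv A k V j) (funext fun g => ?_)
      simp only [transV, mulVec_sub, mulVec_mulVec]
      simp only [← mul_assoc]
      rw [mul_assoc (D.gal g), ← D.mat_idem, ← mul_assoc, D.gal_mat])
    (fun w hw => D.eq_of_toZModPow fun k j => by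
      rw [hXv, hXv, Pi.smul_apply, smul_eq_mul, map_mul, toZModPow_classMap, toZModPow_mulVec,
        funext fun i => D.toZModPow_classMap hA k w i,
        ← kvv_mulVec hA _ (D.isVCoc_transV hA k w)]
      have e : vcoord k (D.transV (D.gal φ *ᵥ w)) j =
          fun g => vcoord k (fun g' => D.gal φ *ᵥ D.transV w g') j (φ⁻¹ * g * φ⁻¹⁻¹) := by
        funext g
        simp only [vcoord, transV, inv_inv, D.mem_eisLat.mp hw,
          D.mem_eisLat.mp (D.gal_mem_eisLat φ hw), mulVec_sub, mulVec_mulVec, ← map_mul]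
        rw [show φ * (φ⁻¹ * g * φ) = g * φ by group]
      obtain ⟨-, hconj⟩ := kv_conj hA (φ := φ⁻¹) (inv_smul_eq_iff.mpr hφA.symm)
        (isVCoc_mulVec hA (D.gal φ) (D.isVCoc_transV hA k w) j)
      show _ * kv A k _ = kv A k _
      rw [e, hconj, ← mul_assoc]
      show chiMod r k φ * chiMod r k φ⁻¹ * _ = _
      rw [← chiMod_mul, mul_inv_cancel]
      simp [chiMod])
    (D.idem_mulVec_mem v)
  funext j
  rw [← D.transV_idem v, ← D.toZModPow_classMap hA, ← hXv, hzero, Pi.zero_apply, map_zero,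
    Pi.zero_apply]

omit hA in
/-- The points of the lattice reducing to zero, inside the Eisenstein torsion. -/
def connSub (A : ValuationSubring QBar) (m : ℕ) : AddSubgroup (D.eisTors m) :=
  (D.connTors A m).addSubgroupOf (D.eisTors m)

omit hA in
/-- The reduction of the lattice reducing to zero. -/
def connProj (A : ValuationSubring QBar) (m : ℕ) : D.connLat A →+ D.connSub A m :=
  AddMonoidHom.mk' (fun v => ⟨⟨D.pm m v, D.pm_mem_eisTors m v.2.1⟩, v, v.2, rfl⟩)
    fun a b => Subtype.ext (Subtype.ext (map_add (D.pm m) (a : Fin D.d → ℤ_[r]) b))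

omit hA in
theorem connProj_smul (m : ℕ) (c : ℤ_[r]) (v : D.connLat A) :
    D.connProj A m (c • v) = (PadicInt.toZModPow m c).val • D.connProj A m v :=
  Subtype.ext (Subtype.ext (by
    simp only [AddSubmonoidClass.coe_nsmul]
    exact D.pm_smul m c v))

/-- Functions with vanishing classes give unit coboundaries under all characters. -/
theorem exists_unit {m : ℕ} (V : GQ → (Fin D.d → ℤ_[r])) (hV : IsVCoc Ir m V)
    (hVmem : ∀ g ∈ Ir, V g ∈ D.connLat A) (hzero : kvv A m V = 0)
    (c : GQ → D.eisTors m) (hc : ∀ g ∈ Ir, D.pm m (V g) = (c g : J))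
    (hmem : ∀ g : Ir, c g ∈ D.connSub A m) (χ : D.connSub A m →+ UnitsBar) :
    ∃ y ∈ unitsAt A, ∀ g : Ir, χ ⟨c g, hmem g⟩ = (g : GQ) • y - y := by
  classical
  obtain ⟨P, hP, hPX⟩ := exists_proj (D.connLat_saturated A)
  set P' : (Fin D.d → ℤ_[r]) →ₗ[ℤ_[r]] D.connLat A := P.codRestrict _ hP with hP'
  have hkill : ∀ b : D.connSub A m, r ^ m • b = 0 := fun b =>
    Subtype.ext (Subtype.ext (D.pow_smul_eisTors b.1.2))
  choose L hL using fun k : Fin D.d => exists_zexp_eq (r := r) m
    (x := uval (χ (D.connProj A m (P' (Pi.single k 1))))) (by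
      rw [← uval_nsmul, ← map_nsmul, hkill, map_zero, uval_zero])
  have hlin : ∀ w : Fin D.d → ℤ_[r], χ (D.connProj A m (P' w)) =
      zexpU r m (∑ k, L k * PadicInt.toZModPow m (w k)) := by
    intro w
    conv_lhs => rw [pi_eq_sum_univ' w, map_sum, map_sum, map_sum]
    rw [map_sum]
    refine Finset.sum_congr rfl fun k _ => ?_
    rw [map_smul, connProj_smul, map_nsmul,
      show χ (D.connProj A m (P' (Pi.single k 1))) = zexpU r m (L k) from
        uval_injective (by rw [uval_zexpU, hL]), ← map_nsmul, nsmul_eq_mul,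
      ZMod.natCast_zmod_val, mul_comm]
  set a : GQ → ZMod (r ^ m) := ∑ k, L k • vcoord m V k with ha
  have hamem : a ∈ kummerCoc Ir m := AddSubgroup.sum_mem _ fun k _ => (kv_smul hA _ (hV k)).1
  have hakv : kv A m a = 0 := by
    rw [ha, kv_sum hA _ fun k _ => (kv_smul hA _ (hV k)).1]
    refine Finset.sum_eq_zero fun k _ => ?_
    rw [(kv_smul hA _ (hV k)).2, show kv A m (vcoord m V k) = 0 from congrFun hzero k, mul_zero]
  obtain ⟨u, hu0, hu, hgu⟩ := exists_unit_of_kv_eq_zero hA hamem hakv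
  refine ⟨Additive.ofMul (Units.mk0 u hu0), hu, fun g => ?_⟩
  have e : (⟨c g, hmem g⟩ : D.connSub A m) = D.connProj A m (P' (V g)) := by
    refine Subtype.ext (Subtype.ext ?_)
    show (c g : J) = D.pm m (P (V g))
    rw [hPX _ (hVmem g g.2), hc g g.2]
  rw [e, hlin]
  refine uval_injective ?_
  rw [uval_sub, uval_zexpU, uval_smul, uval_ofMul, Units.val_mk0, hgu g g.2,
    mul_div_cancel_right₀ _ hu0, ha, Finset.sum_apply]
  rfl

/-- The Eisenstein torsion is locally good. -/
theorem isLocallyGood {Ap : ValuationSubring QBar} (m : ℕ) :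
    letI := subAction (D.eisTors m) (D.gal_mem_eisTors m)
    IsLocallyGood (galData p r Ap A) (D.connSub A m) := by
  have hr : r.Prime := Fact.out
  let := subAction (D.eisTors m) (D.gal_mem_eisTors m)
  have hquot : ∀ (g : Ir) (b : D.eisTors m), (g : GQ) • b - b ∈ D.connSub A m := by
    intro g b
    obtain ⟨v, hv, hvb⟩ := b.2
    refine ⟨_, D.inertia_sub_mem_connLat A hr D.ne hA g.2 hv, ?_⟩
    show D.pm m (D.gal g *ᵥ v - v) = (g : GQ) • (b : J) - (b : J)
    rw [map_sub, ← gal_smul_pm, hvb]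
  refine ⟨fun b => ?_, fun g hg b => ?_, hquot, fun b χ => ?_⟩
  · obtain ⟨H, hH, hfix⟩ := D.isOpen (b : J)
    exact ⟨H, hH, fun g hg => Subtype.ext (hfix g hg)⟩
  · obtain ⟨q, A', hq, hqp, hqr, hA', hσ⟩ := hg
    refine Subtype.ext (sub_eq_zero.mp (D.eq_zero_of_mem q hq hqp A' hA' (r ^ m) _
      (fun hd => hqr ((Nat.prime_dvd_prime_iff_eq hq hr).mp (hq.dvd_of_dvd_pow hd))) ?_
      (D.inertia_sub_mem q hq hqp A' hA' g hσ (b : J))))
    exact D.pow_smul_eisTors (sub_mem (D.gal_mem_eisTors m g _ b.2) b.2)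
  · obtain ⟨v, hv, hvb⟩ := b.2
    refine D.exists_unit hA (D.transV v) (D.isVCoc_transV hA m v)
      (fun g hg => D.inertia_sub_mem_connLat A hr D.ne hA hg (D.idem_mulVec_mem v))
      (D.kvv_transV_eq_zero hA m v) (fun g => g • b - b) (fun g _ => ?_) (fun g => hquot g b) χ
    show D.pm m (D.gal g *ᵥ (D.idem *ᵥ v) - D.idem *ᵥ v) = g • (b : J) - (b : J)
    rw [D.mem_eisLat.mp hv, map_sub, ← gal_smul_pm, hvb]

end EisensteinDatum

end Fermat.Agent.Mazur.Eisenstein
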