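import Fermat.Agent.Arith.Frobenius

/-!
# Valuations at places of `ℚ̄`

The rational valued valuation of `ℚ̄` at a place over `q`, normalised to be `1` at `q`.
-/

set_option autoImplicit false

noncomputable section

namespace Fermat.Agent.Mazur.Eisenstein

open Fermat.Agent.Arith
open scoped Pointwise

variable {A : ValuationSubring QBar} {q : ℕ}

/-- `x` is a unit at `A`. -/
def IsUnitAt (A : ValuationSubring QBar) (x : QBar) : Prop := A.valuation x = 1

/-- A nonzero element is a unit at a place exactly when it and its inverse are integral there. -/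
theorem isUnitAt_iff {x : QBar} (hx : x ≠ 0) : IsUnitAt A x ↔ x ∈ A ∧ x⁻¹ ∈ A := by
  rw [IsUnitAt, ← A.valuation_le_one_iff, ← A.valuation_le_one_iff, map_inv₀,
    inv_le_one₀ (zero_lt_iff.mpr (by simpa using hx))]
  exact ⟨fun h => ⟨h.le, h.ge⟩, fun h => le_antisymm h.1 h.2⟩

theorem isUnitAt_of_pow {x : QBar} {n : ℕ} (hn : n ≠ 0) (h : IsUnitAt A (x ^ n)) :
    IsUnitAt A x := by
  rw [IsUnitAt, map_pow] at h
  exact (pow_eq_one_iff.mp h).resolve_right hn

/-- An integral element outside the maximal ideal is a unit at the place. -/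
theorem isUnitAt_of_notMem_nonunits {x : QBar} (hx : x ∈ A) (h : x ∉ A.nonunits) :
    IsUnitAt A x := by
  obtain ⟨h0, hinv⟩ := notMem_nonunits_iff.mp h
  exact (isUnitAt_iff h0).mpr ⟨hx, hinv⟩

theorem valuation_ne_zero {x : QBar} (hx : x ≠ 0) : A.valuation x ≠ 0 :=
  (map_ne_zero A.valuation).mpr hx

/-- At a place over `q` the prime `q` has valuation less than one. -/
theorem valuation_prime_lt_one (hA : A.LiesOverPrime q) : A.valuation (q : QBar) < 1 :=
  (ValuationSubring.mem_nonunits_iff A).mp hA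

theorem valuation_natCast_eq_pow (hA : A.LiesOverPrime q) (hq : q.Prime) {n : ℕ} (hn : n ≠ 0) :
    ∃ k : ℕ, A.valuation (n : QBar) = A.valuation (q : QBar) ^ k := by
  obtain ⟨k, m, hm, rfl⟩ := Nat.exists_eq_pow_mul_and_not_dvd hn q hq.ne_one
  refine ⟨k, ?_⟩
  have hm1 : IsUnitAt A (m : QBar) := isUnitAt_of_notMem_nonunits (natCast_mem A m)
    fun h => hm ((natCast_mem_nonunits_iff hA hq m).mp h)
  rw [Nat.cast_mul, Nat.cast_pow, map_mul, map_pow, hm1, mul_one]

theorem valuation_intCast_eq_pow (hA : A.LiesOverPrime q) (hq : q.Prime) {z : ℤ} (hz : z ≠ 0) :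
    ∃ k : ℕ, A.valuation (z : QBar) = A.valuation (q : QBar) ^ k := by
  obtain ⟨k, hk⟩ := valuation_natCast_eq_pow hA hq (n := z.natAbs) (by omega)
  refine ⟨k, ?_⟩
  rcases Int.natAbs_eq z with h | h <;> rw [h]
  · rwa [Int.cast_natCast]
  · rwa [Int.cast_neg, Valuation.map_neg, Int.cast_natCast]

theorem valuation_ratCast_eq_zpow (hA : A.LiesOverPrime q) (hq : q.Prime) {z : ℚ} (hz : z ≠ 0) :
    ∃ k : ℤ, A.valuation (z : QBar) = A.valuation (q : QBar) ^ k := by
  obtain ⟨a, ha⟩ := valuation_intCast_eq_pow hA hq (Rat.num_ne_zero.mpr hz)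
  obtain ⟨b, hb⟩ := valuation_natCast_eq_pow hA hq z.den_ne_zero
  refine ⟨(a : ℤ) - b, ?_⟩
  rw [Rat.cast_def, map_div₀, ha, hb, zpow_sub₀ (valuation_ne_zero (by exact_mod_cast hq.ne_zero)),
    zpow_natCast, zpow_natCast]

/-- The value group of a place of `ℚ̄` over `q` is contained in the rational powers of `v q`. -/
theorem exists_pow_eq_zpow (hA : A.LiesOverPrime q) (hq : q.Prime) {x : QBar} (hx : x ≠ 0) :
    ∃ (n : ℕ) (k : ℤ), 0 < n ∧ A.valuation x ^ n = A.valuation (q : QBar) ^ k := by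
  classical
  set f := minpoly ℚ x with hf
  have hint : IsIntegral ℚ x := Algebra.IsIntegral.isIntegral x
  set t : ℕ → QBar := fun i => (f.coeff i : QBar) * x ^ i with ht
  have hsum : ∑ i ∈ f.support, t i = 0 := by
    have h := minpoly.aeval ℚ x
    rw [Polynomial.aeval_def, Polynomial.eval₂_eq_sum, Polynomial.sum_def] at h
    simpa [ht, eq_ratCast] using h
  have ht0 : ∀ i ∈ f.support, t i ≠ 0 := fun i hi =>
    mul_ne_zero (Rat.cast_ne_zero.mpr (Polynomial.mem_support_iff.mp hi)) (pow_ne_zero _ hx)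
  obtain ⟨i, hi, j, hj, hij, heq⟩ : ∃ i ∈ f.support, ∃ j ∈ f.support,
      i < j ∧ A.valuation (t i) = A.valuation (t j) := by
    by_contra hcon
    push Not at hcon
    have hne : f.support.Nonempty :=
      Polynomial.support_nonempty.mpr (minpoly.ne_zero hint)
    obtain ⟨j, hj, hmax⟩ := f.support.exists_max_image (fun i => A.valuation (t i)) hne
    have := A.valuation.map_sum_eq_of_lt hj fun i hi => by
      obtain ⟨hi1, hi2⟩ := Finset.mem_sdiff.mp hi
      refine lt_of_le_of_ne (hmax i hi1) fun he => ?_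
      rcases lt_trichotomy i j with h | h | h
      · exact hcon i hi1 j hj h he
      · exact hi2 (Finset.mem_singleton.mpr h)
      · exact hcon j hj i hi1 h he.symm
    rw [hsum, map_zero] at this
    exact valuation_ne_zero (ht0 j hj) this.symm
  obtain ⟨a, ha⟩ := valuation_ratCast_eq_zpow hA hq (Polynomial.mem_support_iff.mp hi)
  obtain ⟨b, hb⟩ := valuation_ratCast_eq_zpow hA hq (Polynomial.mem_support_iff.mp hj)
  refine ⟨j - i, a - b, by omega, ?_⟩
  simp only [ht, map_mul, map_pow, ha, hb] at heq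
  have hq0 : A.valuation (q : QBar) ≠ 0 := valuation_ne_zero (by exact_mod_cast hq.ne_zero)
  rw [zpow_sub₀ hq0, eq_div_iff (zpow_ne_zero _ hq0)]
  refine mul_left_cancel₀ (pow_ne_zero i (valuation_ne_zero (A := A) hx)) ?_
  rw [← mul_assoc, ← pow_add, Nat.add_sub_cancel' hij.le]
  calc A.valuation x ^ j * A.valuation (q : QBar) ^ b
      = A.valuation (q : QBar) ^ b * A.valuation x ^ j := mul_comm _ _
    _ = A.valuation (q : QBar) ^ a * A.valuation x ^ i := heq.symm
    _ = _ := mul_comm _ _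

open scoped Classical in
/-- The valuation at `A`, normalised to be `1` at `q`, with rational values. -/
def ordAt (A : ValuationSubring QBar) (q : ℕ) (x : QBar) : ℚ :=
  if h : ∃ nk : ℕ × ℤ, 0 < nk.1 ∧ A.valuation x ^ nk.1 = A.valuation (q : QBar) ^ nk.2 then
    (h.choose.2 : ℚ) / h.choose.1
  else 0

/-- `ordAt x = k / n` as soon as the valuation of `x ^ n` is that of `q ^ k`. -/
theorem ordAt_eq (hA : A.LiesOverPrime q) (hq : q.Prime) {x : QBar} {n : ℕ} {k : ℤ} (hn : 0 < n)
    (h : A.valuation x ^ n = A.valuation (q : QBar) ^ k) : ordAt A q x = (k : ℚ) / n := by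
  classical
  have hex : ∃ nk : ℕ × ℤ, 0 < nk.1 ∧
      A.valuation x ^ nk.1 = A.valuation (q : QBar) ^ nk.2 := ⟨(n, k), hn, h⟩
  rw [ordAt, dif_pos hex]
  obtain ⟨hm, hmk⟩ := hex.choose_spec
  generalize hex.choose = mk at hm hmk ⊢
  rw [div_eq_div_iff (by exact_mod_cast hm.ne') (by exact_mod_cast hn.ne')]
  have h2 : A.valuation (q : QBar) ^ (mk.2 * n) = A.valuation (q : QBar) ^ (k * mk.1) := by
    rw [zpow_mul, zpow_mul, ← hmk, ← h, zpow_natCast, zpow_natCast, ← pow_mul, ← pow_mul,
      mul_comm]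
  have h3 := zpow_right_injective₀
    (zero_lt_iff.mpr (valuation_ne_zero (by exact_mod_cast hq.ne_zero)))
    (valuation_prime_lt_one hA).ne h2
  exact_mod_cast h3

variable (hA : A.LiesOverPrime q) (hq : q.Prime)
include hA hq

/-- The normalised order at a place is additive on products of nonzero elements. -/
theorem ordAt_mul {x y : QBar} (hx : x ≠ 0) (hy : y ≠ 0) :
    ordAt A q (x * y) = ordAt A q x + ordAt A q y := by
  obtain ⟨n, k, hn, h⟩ := exists_pow_eq_zpow hA hq hx
  obtain ⟨m, l, hm, h'⟩ := exists_pow_eq_zpow hA hq hy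
  rw [ordAt_eq hA hq hn h, ordAt_eq hA hq hm h',
    ordAt_eq hA hq (Nat.mul_pos hn hm) (k := k * m + l * n)
      (by rw [map_mul, mul_pow, zpow_add₀ (valuation_ne_zero (by exact_mod_cast hq.ne_zero)),
        pow_mul, h, mul_comm n m, pow_mul (A.valuation y), h', ← zpow_natCast, ← zpow_mul,
        ← zpow_natCast, ← zpow_mul])]
  rw [div_add_div _ _ (by exact_mod_cast hn.ne') (by exact_mod_cast hm.ne')]
  push_cast
  ring

/-- The normalised order of `q` at a place over `q` is one. -/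
theorem ordAt_prime : ordAt A q (q : QBar) = 1 := by
  rw [ordAt_eq hA hq one_pos (k := 1) (by simp)]
  norm_num

/-- The order of a nonzero element vanishes exactly when it is a unit at the place. -/
theorem ordAt_eq_zero_iff {x : QBar} (hx : x ≠ 0) : ordAt A q x = 0 ↔ IsUnitAt A x := by
  obtain ⟨n, k, hn, h⟩ := exists_pow_eq_zpow hA hq hx
  constructor
  · intro h0
    rw [ordAt_eq hA hq hn h, div_eq_zero_iff, Int.cast_eq_zero] at h0
    have hk : k = 0 := h0.resolve_right (by exact_mod_cast hn.ne')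
    rw [hk, zpow_zero] at h
    exact (pow_eq_one_iff.mp h).resolve_right hn.ne'
  · intro hu
    rw [ordAt_eq hA hq one_pos (k := 0) (by rw [zpow_zero, pow_one]; exact hu)]
    simp

theorem ordAt_one : ordAt A q (1 : QBar) = 0 :=
  (ordAt_eq_zero_iff hA hq one_ne_zero).mpr (map_one _)

theorem ordAt_inv {x : QBar} (hx : x ≠ 0) : ordAt A q x⁻¹ = -ordAt A q x := by
  have := ordAt_mul hA hq hx (inv_ne_zero hx)
  rw [mul_inv_cancel₀ hx, ordAt_one hA hq] at this
  linarith

/-- The order of a quotient is the difference of the orders. -/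
theorem ordAt_div {x y : QBar} (hx : x ≠ 0) (hy : y ≠ 0) :
    ordAt A q (x / y) = ordAt A q x - ordAt A q y := by
  rw [div_eq_mul_inv, ordAt_mul hA hq hx (inv_ne_zero hy), ordAt_inv hA hq hy, sub_eq_add_neg]

/-- The order of a power is the multiple of the order. -/
theorem ordAt_pow {x : QBar} (hx : x ≠ 0) (n : ℕ) : ordAt A q (x ^ n) = n * ordAt A q x := by
  induction n with
  | zero => simp [ordAt_one hA hq]
  | succ n ih => rw [pow_succ, ordAt_mul hA hq (pow_ne_zero _ hx) hx, ih]; push_cast; ring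

/-- The order of an integer power is the multiple of the order. -/
theorem ordAt_zpow {x : QBar} (hx : x ≠ 0) (n : ℤ) : ordAt A q (x ^ n) = n * ordAt A q x := by
  cases n with
  | ofNat n => simp [ordAt_pow hA hq hx]
  | negSucc n =>
    rw [zpow_negSucc, ordAt_inv hA hq (pow_ne_zero _ hx), ordAt_pow hA hq hx]
    push_cast
    ring

/-- The order of `q ^ k` is `k`. -/
theorem ordAt_prime_zpow (k : ℤ) : ordAt A q ((q : QBar) ^ k) = k := by
  rw [ordAt_zpow hA hq (by exact_mod_cast hq.ne_zero), ordAt_prime hA hq, mul_one]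

/-- A root of unity has order zero. -/
theorem ordAt_root_of_unity {x : QBar} {n : ℕ} (hn : n ≠ 0) (h : x ^ n = 1) :
    ordAt A q x = 0 :=
  (ordAt_eq_zero_iff hA hq (fun h0 => by simp [h0, hn] at h)).mpr
    (isUnitAt_of_pow hn (by rw [h]; exact map_one _))

/-- A nonzero integral element has nonnegative order. -/
theorem ordAt_nonneg_of_mem {x : QBar} (hx : x ≠ 0) (hmem : x ∈ A) : 0 ≤ ordAt A q x := by
  obtain ⟨n, k, hn, h⟩ := exists_pow_eq_zpow hA hq hx
  rw [ordAt_eq hA hq hn h]
  refine div_nonneg ?_ (Nat.cast_nonneg _)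
  have hle : A.valuation x ^ n ≤ 1 := pow_le_one' ((A.valuation_le_one_iff x).mpr hmem) n
  rw [h, zpow_le_one_iff_right_of_lt_one₀ (zero_lt_iff.mpr
    (valuation_ne_zero (by exact_mod_cast hq.ne_zero))) (valuation_prime_lt_one hA)] at hle
  exact_mod_cast hle

theorem ordAt_smul {σ : GQ} (hσ : σ • A = A) {x : QBar} (hx : x ≠ 0) :
    ordAt A q (σ x) = ordAt A q x := by
  obtain ⟨n, k, hn, h⟩ := exists_pow_eq_zpow hA hq hx
  rw [ordAt_eq hA hq hn h]
  set u := x ^ n / (q : QBar) ^ k with hu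
  have hq0 : (q : QBar) ≠ 0 := by exact_mod_cast hq.ne_zero
  have hu1 : IsUnitAt A u := by
    rw [IsUnitAt, hu, map_div₀, map_pow, map_zpow₀, h,
      div_self (zpow_ne_zero _ (valuation_ne_zero hq0))]
  have hu0 : u ≠ 0 := div_ne_zero (pow_ne_zero _ hx) (zpow_ne_zero _ hq0)
  have hσu : IsUnitAt A (σ u) := by
    obtain ⟨h1, h2⟩ := (isUnitAt_iff hu0).mp hu1
    exact (isUnitAt_iff (by simpa using hu0)).mpr
      ⟨map_mem_of_mem_decomposition hσ h1, by
        rw [← map_inv₀]; exact map_mem_of_mem_decomposition hσ h2⟩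
  refine ordAt_eq hA hq hn ?_
  have e : σ x ^ n = (q : QBar) ^ k * σ u := by
    rw [hu, map_div₀, map_pow, map_zpow₀, map_natCast, mul_div_cancel₀ _ (zpow_ne_zero _ hq0)]
  rw [← map_pow, e, map_mul, hσu, mul_one, map_zpow₀]

omit hA hq in
/-- Inertia moves an element of `A` by a non-unit. -/
theorem isUnitAt_congr_sub {σ : GQ} (hσ : σ ∈ A.inertiaSubgroupIn ℚ) {u : QBar} (hu : u ∈ A) :
    σ u - u ∈ A.nonunits :=
  (mem_inertia_iff_forall_mem.mp hσ).2 u hu

end Fermat.Agent.Mazur.Eisenstein
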