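import Fermat.Agent.Arith.CyclotomicCharacter
import Fermat.Agent.Mazur.Eisenstein.DescentCore
import Fermat.Agent.Mazur.Eisenstein.Ord
import Mathlib.Algebra.Category.Grp.Injective

/-!
# Local data over `ℚ`

The local data of the descent over `ℚ` at chosen places over `p` and `r`, and the cyclotomic
character modulo `n`.
-/

set_option autoImplicit false

noncomputable section

namespace Fermat.Agent.Mazur.Eisenstein

open Fermat.Agent.Arith

/-- `ℚ̄ˣ`, written additively. -/
abbrev UnitsBar : Type := Additive QBarˣ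

scoped instance unitsBarAction : DistribMulAction GQ UnitsBar where
  smul g y := Additive.ofMul (g • Additive.toMul y)
  one_smul y := congrArg Additive.ofMul (one_smul GQ (Additive.toMul y))
  mul_smul g h y := congrArg Additive.ofMul (mul_smul g h (Additive.toMul y))
  smul_zero g := congrArg Additive.ofMul (smul_one g)
  smul_add g x y := congrArg Additive.ofMul (smul_mul' g (Additive.toMul x) (Additive.toMul y))

/-- The value in `ℚ̄` of an element of `UnitsBar`. -/
def uval (y : UnitsBar) : QBar := ((Additive.toMul y : QBarˣ) : QBar)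

@[simp] theorem uval_add (x y : UnitsBar) : uval (x + y) = uval x * uval y := rfl
@[simp] theorem uval_zero : uval (0 : UnitsBar) = 1 := rfl
@[simp] theorem uval_smul (g : GQ) (y : UnitsBar) : uval (g • y) = g (uval y) := rfl

theorem uval_ne_zero (y : UnitsBar) : uval y ≠ 0 := Units.ne_zero _

theorem uval_neg (y : UnitsBar) : uval (-y) = (uval y)⁻¹ := Units.val_inv_eq_inv_val _

/-- An element of `ℚ̄ˣ` is determined by its value. -/
theorem uval_injective : Function.Injective uval :=
  fun _ _ h => Additive.toMul.injective (Units.ext h)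

theorem uval_nsmul (n : ℕ) (y : UnitsBar) : uval (n • y) = uval y ^ n :=
  Units.val_pow_eq_pow_val _ n

theorem uval_sub (x y : UnitsBar) : uval (x - y) = uval x / uval y := by
  rw [sub_eq_add_neg, uval_add, uval_neg, div_eq_mul_inv]

theorem uval_ofMul (u : QBarˣ) : uval (Additive.ofMul u) = (u : QBar) := rfl

theorem baer_unitsBar : Module.Baer ℤ UnitsBar := by
  have hex : ∀ (y : UnitsBar) (n : ℤ), n ≠ 0 → ∃ x : UnitsBar, n • x = y := by
    intro y n hn
    obtain ⟨z, hz⟩ := IsAlgClosed.exists_pow_nat_eq (uval y)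
      (Int.natAbs_pos.mpr hn)
    have hz0 : z ≠ 0 := fun h => by
      rw [h, zero_pow (Int.natAbs_ne_zero.mpr hn)] at hz
      exact uval_ne_zero y hz.symm
    set x : UnitsBar := Additive.ofMul (Units.mk0 z hz0)
    have hx : (n.natAbs : ℤ) • x = y := by
      rw [natCast_zsmul]
      refine uval_injective ?_
      rw [uval_nsmul, uval_ofMul, Units.val_mk0, hz]
    rcases Int.natAbs_eq n with h | h
    · exact ⟨x, by rw [h]; exact hx⟩
    · exact ⟨-x, by rw [h, neg_smul, smul_neg, neg_neg]; exact hx⟩
  have : DivisibleBy UnitsBar ℤ :=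
    { div := fun y n => if h : n ≠ 0 then (hex y n h).choose else 0
      div_zero := fun y => by simp
      div_cancel := fun {n} y hn => by rw [dif_pos hn]; exact (hex y n hn).choose_spec }
  exact Module.Baer.of_divisible UnitsBar

/-- The units at a place, as a subgroup of `UnitsBar`. -/
def unitsAt (A : ValuationSubring QBar) : AddSubgroup UnitsBar where
  carrier := {y | IsUnitAt A (uval y)}
  zero_mem' := by simp [IsUnitAt]
  add_mem' {x y} hx hy := by
    simp only [Set.mem_ofPred_eq, IsUnitAt, uval_add, map_mul] at hx hy ⊢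
    rw [hx, hy, one_mul]
  neg_mem' {x} hx := by
    simp only [Set.mem_ofPred_eq, IsUnitAt, uval_neg, map_inv₀] at hx ⊢
    rw [hx, inv_one]

theorem mem_unitsAt {A : ValuationSubring QBar} {y : UnitsBar} :
    y ∈ unitsAt A ↔ IsUnitAt A (uval y) := Iff.rfl

/-- The local data of the descent, for chosen places over `p` and `r`. -/
def galData (p r : ℕ) (Ap Ar : ValuationSubring QBar) : LocalData GQ UnitsBar where
  Ip := Ap.inertiaSubgroupIn ℚ
  Ir := Ar.inertiaSubgroupIn ℚ
  unr := {σ | ∃ (q : ℕ) (A : ValuationSubring QBar),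
    q.Prime ∧ q ≠ p ∧ q ≠ r ∧ A.LiesOverPrime q ∧ σ ∈ A.inertiaSubgroupIn ℚ}
  U := unitsAt Ar

end Fermat.Agent.Mazur.Eisenstein
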