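import Fermat.Agent.Mazur.Eisenstein.Unram
import Mathlib.LinearAlgebra.LinearIndependent.Basic

/-!
# Hilbert 90 and valuation classes

Hilbert 90 for subgroups of the Galois group, and the valuation class of a cocycle with values
in roots of unity: it vanishes exactly for coboundaries of units.
-/

set_option autoImplicit false

noncomputable section

namespace Fermat.Agent.Mazur.Eisenstein

open Fermat.Agent.Arith

/-- Hilbert 90: a continuous multiplicative cocycle on a subgroup is a coboundary. -/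
theorem exists_coboundary (I : Subgroup GQ) (c : GQ → QBar) (L : IntermediateField ℚ QBar)
    [FiniteDimensional ℚ L] (h0 : ∀ g ∈ I, c g ≠ 0)
    (hcoc : ∀ g ∈ I, ∀ h ∈ I, c (g * h) = c g * g (c h))
    (hfac : ∀ g ∈ I, ∀ g' ∈ I, (∀ x ∈ L, g x = g' x) → c g = c g') :
    ∃ y : QBar, y ≠ 0 ∧ ∀ g ∈ I, g y = c g * y := by
  classical
  let res : I → (L →ₐ[ℚ] QBar) := fun g => ((g : GQ) : QBar →ₐ[ℚ] QBar).comp L.val
  set S : Finset (L →ₐ[ℚ] QBar) := Finset.univ.filter fun τ => ∃ g : I, res g = τ with hS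
  have hrep : ∀ τ ∈ S, ∃ g : I, res g = τ := fun τ hτ => (Finset.mem_filter.mp hτ).2
  choose rep hrep' using hrep
  set cbar : (L →ₐ[ℚ] QBar) → QBar := fun τ => if h : τ ∈ S then c (rep τ h) else 0 with hcbar
  have hcb : ∀ g : I, cbar (res g) = c g := fun g => by
    have hmem : res g ∈ S := Finset.mem_filter.mpr ⟨Finset.mem_univ _, g, rfl⟩
    rw [hcbar]
    simp only [hmem, dif_pos]
    exact hfac _ (rep _ hmem).2 _ g.2 fun x hx => DFunLike.congr_fun (hrep' _ hmem) ⟨x, hx⟩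
  -- a non-zero resolvent
  obtain ⟨z, hz⟩ : ∃ z : L, ∑ τ ∈ S, cbar τ * τ z ≠ 0 := by
    by_contra hcon
    push Not at hcon
    have hli : LinearIndependent QBar (fun τ : L →ₐ[ℚ] QBar => (τ : L → QBar)) :=
      (linearIndependent_monoidHom L QBar).comp
        (fun τ : L →ₐ[ℚ] QBar => ((τ : L →+* QBar) : L →* QBar))
        (fun τ τ' h => AlgHom.ext fun x => DFunLike.congr_fun h x)
    have h1 := linearIndependent_iff'.mp hli S cbar (funext fun z => by simpa using hcon z)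
    have hone : res 1 ∈ S := Finset.mem_filter.mpr ⟨Finset.mem_univ _, 1, rfl⟩
    have h2 := h1 _ hone
    rw [hcb 1] at h2
    exact h0 1 (one_mem I) h2
  set y₀ := ∑ τ ∈ S, cbar τ * τ z with hy₀
  refine ⟨y₀⁻¹, inv_ne_zero hz, fun g hg => ?_⟩
  have key : g y₀ * c g = y₀ := by
    rw [hy₀, map_sum, Finset.sum_mul]
    refine Finset.sum_bij (fun τ _ => ((g : QBar →ₐ[ℚ] QBar)).comp τ) ?_ ?_ ?_ ?_
    · intro τ hτ
      obtain ⟨h, rfl⟩ := (Finset.mem_filter.mp hτ).2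
      exact Finset.mem_filter.mpr ⟨Finset.mem_univ _, ⟨g, hg⟩ * h, rfl⟩
    · intro τ _ τ' _ h
      exact AlgHom.ext fun x => g.injective (DFunLike.congr_fun h x)
    · intro τ hτ
      obtain ⟨h, rfl⟩ := (Finset.mem_filter.mp hτ).2
      exact ⟨res (⟨g, hg⟩⁻¹ * h), Finset.mem_filter.mpr ⟨Finset.mem_univ _, _, rfl⟩,
        AlgHom.ext fun x => g.apply_symm_apply _⟩
    · intro τ hτ
      obtain ⟨h, rfl⟩ := (Finset.mem_filter.mp hτ).2
      have e : (g : QBar →ₐ[ℚ] QBar).comp (res h) = res (⟨g, hg⟩ * h) := rfl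
      rw [e, hcb, hcb, map_mul]
      show g (c h) * g _ * c g = c (g * h) * g ((h : GQ) (z : QBar))
      rw [hcoc g hg h h.2]
      show g (c h) * g ((h : GQ) (z : QBar)) * c g = c g * g (c h) * g ((h : GQ) (z : QBar))
      ring
  rw [map_inv₀]
  have hgy : g y₀ ≠ 0 := by simpa using hz
  field_simp
  linear_combination -key

variable {A : ValuationSubring QBar} {q : ℕ}

/-- `n` times the valuation, modulo `n`, of an element whose coboundary on `I` is `c`; `0` if no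
such element makes this an integer. -/
def kummerVal (A : ValuationSubring QBar) (q n : ℕ) (I : Subgroup GQ) (c : GQ → QBar) : ZMod n :=
  open scoped Classical in
  if h : ∃ k : ℤ, ∃ y : QBar, y ≠ 0 ∧ (∀ g ∈ I, g y = c g * y) ∧ (n : ℚ) * ordAt A q y = k then
    (h.choose : ZMod n)
  else 0

variable (hA : A.LiesOverPrime q) (hq : q.Prime) {n : ℕ} {c : GQ → QBar}
include hA hq

local notation "Iq" => ValuationSubring.inertiaSubgroupIn ℚ A

theorem exists_int_of_coboundary (hc : ∀ g ∈ Iq, c g ^ n = 1) {y : QBar} (hy : y ≠ 0)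
    (hgy : ∀ g ∈ Iq, g y = c g * y) : ∃ k : ℤ, (n : ℚ) * ordAt A q y = k := by
  rw [← ordAt_pow hA hq hy]
  exact exists_int_ordAt hA hq (pow_ne_zero _ hy) fun g hg => by
    rw [map_pow, hgy g hg, mul_pow, hc g hg, one_mul]

theorem kummerVal_eq (hc0 : ∀ g ∈ Iq, c g ≠ 0) {y : QBar} {k : ℤ} (hy : y ≠ 0)
    (hgy : ∀ g ∈ Iq, g y = c g * y) (hk : (n : ℚ) * ordAt A q y = k) :
    kummerVal A q n Iq c = k := by
  classical
  have hex : ∃ k : ℤ, ∃ y : QBar, y ≠ 0 ∧ (∀ g ∈ Iq, g y = c g * y) ∧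
      (n : ℚ) * ordAt A q y = k := ⟨k, y, hy, hgy, hk⟩
  rw [kummerVal, dif_pos hex]
  obtain ⟨y', hy', hgy', hk'⟩ := hex.choose_spec
  generalize hex.choose = k' at hk' ⊢
  obtain ⟨d, hd⟩ := exists_int_ordAt hA hq (div_ne_zero hy' hy) fun g hg => by
    rw [map_div₀, hgy g hg, hgy' g hg, mul_div_mul_left _ _ (hc0 g hg)]
  rw [ordAt_div hA hq hy' hy] at hd
  have h2 : (k' : ℚ) - k = n * d := by rw [← hk', ← hk, ← mul_sub, hd]
  have h3 : k' - k = n * d := by exact_mod_cast h2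
  rw [show k' = k + n * d by omega]
  simp

/-- The valuation class vanishes exactly when the cocycle is the coboundary of a unit. -/
theorem exists_unit_of_kummerVal_eq_zero (hn : n ≠ 0) (hc : ∀ g ∈ Iq, c g ^ n = 1)
    (hex : ∃ y : QBar, y ≠ 0 ∧ ∀ g ∈ Iq, g y = c g * y)
    (h0 : kummerVal A q n Iq c = 0) :
    ∃ u : QBar, u ≠ 0 ∧ IsUnitAt A u ∧ ∀ g ∈ Iq, g u = c g * u := by
  obtain ⟨y, hy, hgy⟩ := hex
  obtain ⟨k, hk⟩ := exists_int_of_coboundary hA hq hc hy hgy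
  have hc0 : ∀ g ∈ Iq, c g ≠ 0 := fun g hg h => by simpa [h, hn] using hc g hg
  rw [kummerVal_eq hA hq hc0 hy hgy hk, ZMod.intCast_zmod_eq_zero_iff_dvd] at h0
  obtain ⟨d, rfl⟩ := h0
  have hq0 : (q : QBar) ≠ 0 := by exact_mod_cast hq.ne_zero
  have hd : ordAt A q y = d :=
    mul_left_cancel₀ (show (n : ℚ) ≠ 0 by exact_mod_cast hn) (by rw [hk]; push_cast; ring)
  refine ⟨y / (q : QBar) ^ d, div_ne_zero hy (zpow_ne_zero _ hq0), ?_, fun g hg => ?_⟩
  · rw [← ordAt_eq_zero_iff hA hq (div_ne_zero hy (zpow_ne_zero _ hq0)),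
      ordAt_div hA hq hy (zpow_ne_zero _ hq0), ordAt_prime_zpow hA hq, hd, sub_self]
  · rw [map_div₀, hgy g hg, map_zpow₀, map_natCast, mul_div_assoc]

end Fermat.Agent.Mazur.Eisenstein
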