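import Fermat.Agent.Mazur.Eisenstein.Ord
import Mathlib.Data.Nat.Factorization.Basic

/-!
# Rational numbers with valuations divisible by `r`

A rational number all of whose valuations are divisible by `r` is `±` an `r`-th power.
-/

set_option autoImplicit false

noncomputable section

namespace Fermat.Agent.Mazur.Eisenstein

open Fermat.Agent.Arith

variable {A : ValuationSubring QBar} {q : ℕ}

theorem ordAt_natCast (hA : A.LiesOverPrime q) (hq : q.Prime) {n : ℕ} (hn : n ≠ 0) :
    ordAt A q (n : QBar) = (n.factorization q : ℚ) := by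
  have hdvd := Nat.ordProj_mul_ordCompl_eq_self n q
  have hm := Nat.not_dvd_ordCompl hq hn
  have hm0 : n / q ^ n.factorization q ≠ 0 := (Nat.ordCompl_pos q hn).ne'
  have hu : IsUnitAt A ((n / q ^ n.factorization q : ℕ) : QBar) :=
    isUnitAt_of_notMem_nonunits (natCast_mem A _)
      fun h => hm ((natCast_mem_nonunits_iff hA hq _).mp h)
  conv_lhs => rw [← hdvd]
  rw [Nat.cast_mul, Nat.cast_pow, ordAt_mul hA hq (pow_ne_zero _ (by exact_mod_cast hq.ne_zero))
    (by exact_mod_cast hm0), ordAt_pow hA hq (by exact_mod_cast hq.ne_zero), ordAt_prime hA hq,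
    (ordAt_eq_zero_iff hA hq (by exact_mod_cast hm0)).mpr hu, mul_one, add_zero]

theorem ordAt_ratCast (hA : A.LiesOverPrime q) (hq : q.Prime) {z : ℚ} (hz : z ≠ 0) :
    ordAt A q (z : QBar) =
      ((z.num.natAbs.factorization q : ℤ) - (z.den.factorization q : ℤ) : ℤ) := by
  have hnum : z.num.natAbs ≠ 0 := Int.natAbs_ne_zero.mpr (Rat.num_ne_zero.mpr hz)
  have hn : ordAt A q ((z.num : ℤ) : QBar) = (z.num.natAbs.factorization q : ℚ) := by
    rcases Int.natAbs_eq z.num with h | h
    · rw [h, Int.cast_natCast, ordAt_natCast hA hq hnum, Int.natAbs_natCast]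
    · have h1 : (-1 : QBar) ≠ 0 := by norm_num
      rw [h, Int.cast_neg, Int.cast_natCast, ← neg_one_mul,
        ordAt_mul hA hq h1 (by exact_mod_cast hnum),
        ordAt_root_of_unity hA hq (n := 2) (by norm_num) (by norm_num), zero_add,
        ordAt_natCast hA hq hnum, Int.natAbs_neg, Int.natAbs_natCast]
  rw [Rat.cast_def, ordAt_div hA hq (by exact_mod_cast Rat.num_ne_zero.mpr hz)
    (by exact_mod_cast z.den_ne_zero), hn, ordAt_natCast hA hq z.den_ne_zero]
  push_cast
  ring

/-- A natural number whose exponents are divisible by `r` is an `r`-th power. -/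
theorem exists_pow_eq_of_forall_dvd {n r : ℕ} (hn : n ≠ 0)
    (h : ∀ q, q.Prime → r ∣ n.factorization q) : ∃ m : ℕ, n = m ^ r := by
  refine ⟨n.factorization.prod fun q e => q ^ (e / r), ?_⟩
  rw [Finsupp.prod, ← Finset.prod_pow]
  conv_lhs => rw [← Nat.prod_factorization_pow_eq_self hn]
  refine Finset.prod_congr rfl fun q hq => ?_
  have hq' : q.Prime := Nat.prime_of_mem_primeFactors hq
  show q ^ n.factorization q = (q ^ (n.factorization q / r)) ^ r
  rw [← pow_mul, Nat.div_mul_cancel (h q hq')]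

/-- A rational number with all valuations divisible by `r` is `±` an `r`-th power. -/
theorem exists_rat_pow_of_forall_dvd {r : ℕ} {z : ℚ} (hz : z ≠ 0)
    (h : ∀ q, q.Prime → (r : ℤ) ∣ ((z.num.natAbs.factorization q : ℤ) - z.den.factorization q)) :
    ∃ w : ℚ, z = w ^ r ∨ z = -(w ^ r) := by
  have hnum : z.num.natAbs ≠ 0 := Int.natAbs_ne_zero.mpr (Rat.num_ne_zero.mpr hz)
  have hboth : ∀ q, q.Prime → r ∣ z.num.natAbs.factorization q ∧ r ∣ z.den.factorization q := by
    intro q hq
    have hd := h q hq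
    rcases Nat.eq_zero_or_pos (z.num.natAbs.factorization q) with h0 | h0
    · rw [h0, Nat.cast_zero, zero_sub, Int.dvd_neg, Int.natCast_dvd_natCast] at hd
      exact ⟨h0 ▸ dvd_zero r, hd⟩
    · have hqn : q ∣ z.num.natAbs := Nat.dvd_of_factorization_pos h0.ne'
      have hd0 : z.den.factorization q = 0 := by
        refine Nat.factorization_eq_zero_of_not_dvd fun hqd => hq.ne_one ?_
        exact Nat.Coprime.eq_one_of_dvd
          (Nat.Coprime.of_dvd_left hqn z.reduced) hqd
      rw [hd0, Nat.cast_zero, sub_zero, Int.natCast_dvd_natCast] at hd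
      exact ⟨hd, hd0 ▸ dvd_zero r⟩
  obtain ⟨a, ha⟩ := exists_pow_eq_of_forall_dvd hnum fun q hq => (hboth q hq).1
  obtain ⟨b, hb⟩ := exists_pow_eq_of_forall_dvd z.den_ne_zero fun q hq => (hboth q hq).2
  refine ⟨(a : ℚ) / b, ?_⟩
  rcases Int.natAbs_eq z.num with h1 | h1
  · left
    conv_lhs => rw [← Rat.num_div_den z, h1, Int.cast_natCast, ha, hb]
    rw [div_pow]; push_cast; rfl
  · right
    conv_lhs => rw [← Rat.num_div_den z, h1, Int.cast_neg, Int.cast_natCast, ha, hb]
    rw [div_pow, neg_div]; push_cast; rfl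

end Fermat.Agent.Mazur.Eisenstein
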