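import Fermat.Agent.Mazur.Eisenstein.DiscValue
import Fermat.Agent.Mazur.Eisenstein.Unit
import Fermat.Agent.Igusa.CuspReduction

/-!
# The two cuspidal discs of `X₀(p)` at a place of good reduction

The reductions of the two cusps are distinct; a place reduces to a cusp exactly when its
`j`-value is not integral, and the modular unit tells the two discs apart.

See `red_placeZero_ne`, `hasIntValue_jB` and `value_wBar_zero`.
-/

set_option autoImplicit false

noncomputable section

open IsLocalRing AlgebraicCurve ModularCurve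
open scoped Classical

namespace Fermat.Agent.Mazur.Eisenstein

open Fermat.Agent.FF Fermat.Agent.RedTorsion
open Fermat.Agent.EichlerShimura (hFb Kappa)
open Fermat.Agent.Genus (jB)

local notation "Qb" => AlgebraicClosure ℚ

/- The instances that resolve the algebra structures of the function fields in use, tried
first: the default order wastes seconds per query on unrelated candidates. -/
attribute [local instance high] SubalgebraClass.toAlgebra HahnSeries.powerSeriesAlgebra
  MvPowerSeries.instAlgebra Algebra.id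

/-! ## Values in the valuation ring -/

/-- `f` has a value in `A` at `P`. -/
def HasIntValue {F : Type*} [Field F] [Algebra (AlgebraicClosure ℚ) F]
    (A : ValuationSubring (AlgebraicClosure ℚ)) (P : Place (AlgebraicClosure ℚ) F) (f : F) : Prop :=
  ∃ d : A, f - algebraMap (AlgebraicClosure ℚ) F (d : AlgebraicClosure ℚ) ∈ ordGe P 1

theorem not_hasIntValue_of_ord_neg {F : Type*} [Field F] [Algebra Qb F] {A : ValuationSubring Qb}
    {P : Place Qb F} {f : F} (h : P.ord f < 0) : ¬ HasIntValue A P f := by
  rintro ⟨d, hd⟩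
  have hf : f ∈ ordGe P 0 := by
    have := add_mem (ordGe_anti P zero_le_one hd)
      (mem_ordGe_of_le P (FF.ord_algebraMap P (d : Qb)).ge)
    rwa [sub_add_cancel] at this
  rcases eq_or_ne f 0 with rfl | h0
  · simp at h
  · have := le_ord_of_mem_ordGe P h0 hf
    omega

section Level

variable {N : ℕ} [NeZero N] {A : ValuationSubring Qb} [IsAlgClosed (Kappa A)]
variable (hNA : (N : Kappa A) ≠ 0)
variable {r : Place Qb (modularFunctionFieldBar N) →
  Place (Kappa A) (modularFunctionFieldFullC (Kappa A) N)}

include hNA in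
/-- A lower bound for the order of a reduction, with an extra zero at a point of the disc. -/
theorem ord_redF_ge_of_bound (hr : IsPlaceReductionModL A N r)
    {g : sint A (modularFunctionFieldBar N)} (hg : redF hFb hNA g ≠ 0)
    (D₀ : Divisor Qb (modularFunctionFieldBar N))
    {Q : Place (Kappa A) (modularFunctionFieldFullC (Kappa A) N)}
    (h0 : ∀ P, r P = Q → -D₀ P ≤ P.ord (g : modularFunctionFieldBar N))
    {P : Place Qb (modularFunctionFieldBar N)} (hP : r P = Q)
    (h1 : -D₀ P + 1 ≤ P.ord (g : modularFunctionFieldBar N)) :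
    -(Finsupp.mapDomain r D₀ Q) + 1 ≤ Q.ord (redF hFb hNA g) := by
  rw [ord_redF_eq hNA hr hg]
  have h := one_le_mapDomain (r := r) (D := FF.div Qb (g : modularFunctionFieldBar N) + D₀) (Q := Q)
    (fun P hP => by rw [Finsupp.add_apply, FF.div_apply]; have := h0 P hP; omega) hP
    (by rw [Finsupp.add_apply, FF.div_apply]; omega)
  rw [Finsupp.mapDomain_add, Finsupp.add_apply] at h
  omega

end Level

variable {p : ℕ} [hp : Fact p.Prime] {A : ValuationSubring Qb} [IsAlgClosed (Kappa A)]
variable (hpA : (p : Kappa A) ≠ 0)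
variable {r : Place Qb (modularFunctionFieldBar p) →
  Place (Kappa A) (modularFunctionFieldFullC (Kappa A) p)}

/-! ## Reductions of `j` and of the modular unit -/

variable (p A) in
/-- `j` as an integral function. -/
def jS : sint A (modularFunctionFieldBar p) :=
  ⟨jB p, ⟨jqModC A, (coeffMap_jqModC A.subtype).trans (ModFun.coe_jBase p Qb).symm⟩⟩

variable (p A) in
/-- The modular unit as an integral function. -/
def wS : sint A (modularFunctionFieldBar p) :=
  ⟨wBar p, ⟨qExpand A p (Igusa.deltaInvSer A) * Igusa.deltaSer A, by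
    rw [map_mul, coeffMap_qExpand, Igusa.coeffMap_deltaInvSer, Igusa.coeffMap_deltaSer,
      ← modularUnit_coeffEmb]
    exact (coe_wBar p).symm⟩⟩

omit hp [IsAlgClosed (Kappa A)] in
theorem coe_jS : ((jS p A : sint A (modularFunctionFieldBar p)) : modularFunctionFieldBar p) =
    jB p :=
  rfl

omit [IsAlgClosed (Kappa A)] in
theorem coe_wS :
    ((wS p A : sint A (modularFunctionFieldBar p)) : modularFunctionFieldBar p) = wBar p := rfl

theorem coe_redF_jS : (redF hFb hpA (jS p A) : LaurentSeries (Kappa A)) = jqModC (Kappa A) := by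
  rw [coe_redF]
  have e : ((toSerInt (A := A) (F := modularFunctionFieldBar p) (jS p A) : serInt A) :
      LaurentSeries Qb) = coeffMap A.subtype (jqModC A) := by
    rw [coeffMap_jqModC]; exact ModFun.coe_jBase p Qb
  have hm : coeffMap A.subtype (jqModC A) ∈ serInt A := RingHom.mem_range.mpr ⟨_, rfl⟩
  exact (congrArg (serRed A) (Subtype.ext e :
      toSerInt (A := A) (F := modularFunctionFieldBar p) (jS p A) = ⟨_, hm⟩)).trans
    ((serRed_coeffMap _ hm).trans (coeffMap_jqModC _))

theorem redF_jS_eq : redF hFb hpA (jS p A) =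
    (jF (K := Kappa A) (N := p) (F := modularFunctionFieldFullC (Kappa A) p) rfl) :=
  Subtype.ext (coe_redF_jS hpA)

theorem redF_jS_ne_zero : redF hFb hpA (jS p A) ≠ 0 := fun h => by
  refine transcendental_jqModC (Kappa A) ?_
  rw [← coe_redF_jS hpA, h, ZeroMemClass.coe_zero]
  exact isAlgebraic_zero

theorem coe_redF_wS : (redF hFb hpA (wS p A) : LaurentSeries (Kappa A)) =
    qExpand (Kappa A) p (Igusa.deltaInvSer (Kappa A)) * Igusa.deltaSer (Kappa A) := by
  rw [coe_redF]
  have e : ((toSerInt (A := A) (F := modularFunctionFieldBar p) (wS p A) : serInt A)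
    : LaurentSeries Qb) =
      coeffMap A.subtype (qExpand A p (Igusa.deltaInvSer A) * Igusa.deltaSer A) := by
    rw [map_mul, coeffMap_qExpand, Igusa.coeffMap_deltaInvSer, Igusa.coeffMap_deltaSer,
      ← modularUnit_coeffEmb]
    exact coe_wBar p
  have hm : coeffMap A.subtype (qExpand A p (Igusa.deltaInvSer A) * Igusa.deltaSer A) ∈ serInt A :=
    RingHom.mem_range.mpr ⟨_, rfl⟩
  refine (congrArg (serRed A) (Subtype.ext e :
      toSerInt (A := A) (F := modularFunctionFieldBar p) (wS p A) = ⟨_, hm⟩)).trans
    ((serRed_coeffMap _ hm).trans ?_)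
  rw [map_mul, coeffMap_qExpand, Igusa.coeffMap_deltaInvSer, Igusa.coeffMap_deltaSer]

theorem order_redF_wS :
    (redF hFb hpA (wS p A) : LaurentSeries (Kappa A)).order = 1 - (p : ℤ) := by
  have h1 : Igusa.deltaInvSer (Kappa A) ≠ 0 := Igusa.deltaInvSer_ne_zero
  rw [coe_redF_wS, HahnSeries.order_mul ((_root_.map_ne_zero _).mpr h1) Igusa.deltaSer_ne_zero,
    Igusa.order_qExpand h1, Igusa.order_deltaInvSer, Igusa.order_deltaSer]
  ring

theorem redF_wS_ne_zero : redF hFb hpA (wS p A) ≠ 0 := fun h => by
  have := order_redF_wS hpA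
  rw [h, ZeroMemClass.coe_zero, HahnSeries.order_zero] at this
  have := hp.out.two_le
  omega

omit [IsAlgClosed (Kappa A)] in
theorem mapDomain_div_wBar :
    Finsupp.mapDomain r (FF.div Qb (wBar p)) =
      Finsupp.single (r (placeZero p)) ((p : ℤ) - 1) -
        Finsupp.single (r (placeInf p)) ((p : ℤ) - 1) := by
  rw [div_wBar, cuspDiv, smul_sub, Finsupp.smul_single, Finsupp.smul_single, smul_eq_mul, mul_one,
    ← Finsupp.mapDomain.addMonoidHom_apply, map_sub, Finsupp.mapDomain.addMonoidHom_apply,
    Finsupp.mapDomain.addMonoidHom_apply, Finsupp.mapDomain_single, Finsupp.mapDomain_single]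

include hpA in
/-- The two cusps reduce to different places. -/
theorem red_placeZero_ne (hr : IsPlaceReductionModL A p r) :
    r (placeZero p) ≠ r (placeInf p) := by
  intro h
  have := isFunctionField_full (K := Kappa A) (N := p)
    (F := modularFunctionFieldFullC (Kappa A) p) rfl hpA
  set u := redF hFb hpA (wS p A) with hu
  have h0 : ∀ Q : Place (Kappa A) (modularFunctionFieldFullC (Kappa A) p), Q.ord u = 0 :=
    fun Q => by
    rw [hu, ord_redF_eq hpA hr (redF_wS_ne_zero hpA), coe_wS, mapDomain_div_wBar, h, sub_self,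
      Finsupp.zero_apply]
  obtain ⟨Q₀⟩ := FF.exists_place (K := Kappa A) (F := modularFunctionFieldFullC (Kappa A) p)
  obtain ⟨c, hc⟩ := exists_sub_mem_ordGe_one Q₀ (mem_ordGe_of_le Q₀ (h0 Q₀).ge : u ∈ ordGe Q₀ 0)
  have heq : u - algebraMap (Kappa A) _ c = 0 := by
    refine eq_zero_of_forall_ord_nonneg (fun v => ?_) Q₀ hc
    rcases eq_or_ne (u - algebraMap (Kappa A) (modularFunctionFieldFullC (Kappa A) p) c) 0
      with he | he
    · rw [he, Place.ord_zero]
    · exact le_ord_of_mem_ordGe v he (sub_mem (mem_ordGe_of_le v (h0 v).ge)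
        (mem_ordGe_of_le v (FF.ord_algebraMap v c).ge))
  rw [sub_eq_zero] at heq
  have hord := order_redF_wS hpA
  have hp2 := hp.out.two_le
  rw [← hu, heq] at hord
  rcases eq_or_ne c 0 with rfl | hc0
  · rw [map_zero, ZeroMemClass.coe_zero, HahnSeries.order_zero] at hord
    omega
  · have he : ((algebraMap (Kappa A) (modularFunctionFieldFullC (Kappa A) p) c) :
        LaurentSeries (Kappa A)) = HahnSeries.single 0 c := algebraMap_laurentSeries_eq_single _ c
    rw [he, HahnSeries.order_single hc0] at hord
    omega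

/-! ## The poles of `j` -/

/-- The bound on the poles of `j`. -/
def jPoles (p : ℕ) [Fact p.Prime] : Divisor Qb (modularFunctionFieldBar p) :=
  Finsupp.single (placeInf p) 1 + Finsupp.single (placeZero p) (p : ℤ)

theorem neg_jPoles_le (P : Place Qb (modularFunctionFieldBar p)) :
    -jPoles p P ≤ P.ord (jB p) := by
  have hne := placeZero_ne_placeInf p
  rw [jPoles, Finsupp.add_apply]
  by_cases h : P.ord (jB p) < 0
  · rcases eq_of_ord_jB_neg p h with rfl | rfl
    · rw [Finsupp.single_eq_same, Finsupp.single_eq_of_ne hne.symm, ord_placeInf_jB]; simp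
    · rw [Finsupp.single_eq_same, Finsupp.single_eq_of_ne hne, ord_placeZero_jB]; simp
  · have h1 : (0 : ℤ) ≤ Finsupp.single (placeInf p) (1 : ℤ) P := by
      rw [Finsupp.single_apply]; split_ifs <;> norm_num
    have h2 : (0 : ℤ) ≤ Finsupp.single (placeZero p) (p : ℤ) P := by
      rw [Finsupp.single_apply]; split_ifs <;> norm_num
    omega

theorem jPoles_nonneg (P : Place Qb (modularFunctionFieldBar p)) : 0 ≤ jPoles p P := by
  rw [jPoles, Finsupp.add_apply, Finsupp.single_apply, Finsupp.single_apply]
  split_ifs <;> omega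

omit [IsAlgClosed (Kappa A)] in
theorem mapDomain_jPoles :
    Finsupp.mapDomain r (jPoles p) =
      Finsupp.single (r (placeInf p)) 1 + Finsupp.single (r (placeZero p)) (p : ℤ) := by
  rw [jPoles, Finsupp.mapDomain_add, Finsupp.mapDomain_single, Finsupp.mapDomain_single]

include hpA in
/-- The poles of the reduction of `j` are exactly the reduced cusps. -/
theorem ord_redF_jS_cusp (hr : IsPlaceReductionModL A p r) :
    (r (placeInf p)).ord (redF hFb hpA (jS p A)) = -1 ∧
      (r (placeZero p)).ord (redF hFb hpA (jS p A)) = -(p : ℤ) := by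
  have := isFunctionField_full (K := Kappa A) (N := p)
    (F := modularFunctionFieldFullC (Kappa A) p) rfl hpA
  have hne := red_placeZero_ne hpA hr
  have hu := redF_jS_ne_zero (A := A) hpA
  set u := redF hFb hpA (jS p A) with hudef
  have htr : Transcendental (Kappa A) u := by
    rw [hudef, redF_jS_eq hpA]; exact transcendental_jF rfl
  -- The reduced `j` has degree `p + 1`.
  have hdeg : Divisor.degree (FF.poles (Kappa A) u) = (p : ℤ) + 1 := by
    rw [FF.degree_poles htr, hudef, redF_jS_eq hpA, finrank_jF rfl hpA, ModFun.natCard_coset,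
      dedekindPsi_prime]
    push_cast; ring
  -- Its poles are bounded by the reduced poles of `j`, of the same degree, hence equal.
  have hle : FF.poles (Kappa A) u ≤ Finsupp.mapDomain r (jPoles p) := by
    refine Finsupp.le_def.mpr fun Q => ?_
    rw [FF.poles_apply, hudef, ord_redF_eq hpA hr hu, coe_jS]
    have h := mapDomain_nonneg_apply (r := r)
      (D := FF.div Qb (jB p) + jPoles p) (Q := Q) (fun P _ => by
        rw [Finsupp.add_apply, FF.div_apply]; have := neg_jPoles_le (p := p) P; omega)
    have h' := mapDomain_nonneg_apply (r := r) (D := jPoles p) (Q := Q)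
      (fun P _ => jPoles_nonneg P)
    rw [Finsupp.mapDomain_add, Finsupp.add_apply] at h
    omega
  have heq : FF.poles (Kappa A) u = Finsupp.mapDomain r (jPoles p) := by
    by_contra hne'
    have hpos : (0 : Divisor (Kappa A) _) ≤ Finsupp.mapDomain r (jPoles p) - FF.poles (Kappa A) u :=
      sub_nonneg.mpr hle
    obtain ⟨Q, hQ⟩ : ∃ Q, 0 < (Finsupp.mapDomain r (jPoles p) - FF.poles (Kappa A) u) Q := by
      by_contra hall
      push Not at hall
      exact hne' (Finsupp.ext fun Q => by
        have := hall Q; have := Finsupp.le_def.mp hle Q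
        rw [Finsupp.sub_apply] at *; omega)
    have hd : (0 : ℤ) < Divisor.degree (Finsupp.mapDomain r (jPoles p) - FF.poles (Kappa A) u) := by
      rw [FF.degree_eq_sum _ _ (Finset.Subset.refl _)]
      refine Finset.sum_pos' (fun Q' _ => mul_nonneg (by simpa using Finsupp.le_def.mp hpos Q')
        (Int.natCast_nonneg _)) ⟨Q, Finsupp.mem_support_iff.mpr hQ.ne', ?_⟩
      exact mul_pos hQ (by exact_mod_cast FF.deg_pos Q)
    rw [map_sub, hdeg, mapDomain_jPoles, map_add, Divisor.degree_single, Divisor.degree_single,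
      FF.deg_eq_one, FF.deg_eq_one] at hd
    simp at hd
    omega
  have e1 := DFunLike.congr_fun heq (r (placeInf p))
  have e2 := DFunLike.congr_fun heq (r (placeZero p))
  have hp2 := hp.out.two_le
  rw [FF.poles_apply, mapDomain_jPoles, Finsupp.add_apply, Finsupp.single_eq_same,
    Finsupp.single_eq_of_ne hne.symm] at e1
  rw [FF.poles_apply, mapDomain_jPoles, Finsupp.add_apply, Finsupp.single_eq_same,
    Finsupp.single_eq_of_ne hne] at e2
  constructor <;> omega

/-! ## The two discs -/

include hpA in
/-- Off the cuspidal discs, `j` has integral values. -/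
theorem hasIntValue_jB (hr : IsPlaceReductionModL A p r)
    {P : Place Qb (modularFunctionFieldBar p)}
    (hi : r P ≠ r (placeInf p)) (hz : r P ≠ r (placeZero p)) : HasIntValue A P (jB p) :=
  exists_value_of_regular hpA hr (jS p A) (Q := r P) (fun P' hP' => by
    refine mem_ordGe_of_le P' (not_lt.mp fun hneg => ?_)
    rcases eq_of_ord_jB_neg p hneg with rfl | rfl
    · exact hi hP'.symm
    · exact hz hP'.symm) rfl

include hpA in
/-- In a cuspidal disc `j` has no integral value. -/
theorem not_hasIntValue_jB (hr : IsPlaceReductionModL A p r)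
    {P : Place Qb (modularFunctionFieldBar p)}
    (hP : r P = r (placeInf p) ∨ r P = r (placeZero p)) : ¬ HasIntValue A P (jB p) := by
  by_cases hneg : P.ord (jB p) < 0
  · exact not_hasIntValue_of_ord_neg hneg
  rintro ⟨d, hd⟩
  obtain ⟨h1, h2⟩ := ord_redF_jS_cusp hpA hr
  have hne := red_placeZero_ne hpA hr
  have hp2 := hp.out.two_le
  have hu0 := redF_jS_ne_zero (A := A) hpA
  have hQneg : (r P).ord (redF hFb hpA (jS p A)) < 0 ∧
      Finsupp.mapDomain r (jPoles p) (r P) = -(r P).ord (redF hFb hpA (jS p A)) := by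
    rw [mapDomain_jPoles, Finsupp.add_apply]
    rcases hP with h | h <;> rw [h]
    · rw [Finsupp.single_eq_same, Finsupp.single_eq_of_ne hne.symm, h1]; omega
    · rw [Finsupp.single_eq_same, Finsupp.single_eq_of_ne hne, h2]; omega
  obtain ⟨hg0, hg1⟩ := FF.ord_add_eq_left (r P) (f := redF hFb hpA (jS p A))
    (g := -algebraMap (Kappa A) _ (residue A d)) hu0 (by
      rcases eq_or_ne (residue A d) 0 with h | h
      · left; rw [h, map_zero, neg_zero]
      · right; rw [FF.ord_neg, FF.ord_algebraMap]; exact hQneg.1)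
  rw [← sub_eq_add_neg] at hg0 hg1
  set g : sint A (modularFunctionFieldBar p) := jS p A - cS d
  have hgr : redF hFb hpA g = redF hFb hpA (jS p A) - algebraMap (Kappa A) _ (residue A d) := by
    rw [map_sub, redF_cS hpA]
  have hgc : (g : modularFunctionFieldBar p) = jB p - algebraMap Qb _ (d : Qb) := rfl
  have hgne : (g : modularFunctionFieldBar p) ≠ 0 :=
    coe_ne_zero_of_redF hpA (by rw [hgr]; exact hg0)
  have hPz : jPoles p P = 0 := by
    have hPi : P ≠ placeInf p := fun h => hneg (by rw [h, ord_placeInf_jB]; norm_num)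
    have hPz : P ≠ placeZero p := fun h => hneg (by rw [h, ord_placeZero_jB]; omega)
    rw [jPoles, Finsupp.add_apply, Finsupp.single_eq_of_ne hPi, Finsupp.single_eq_of_ne hPz,
      add_zero]
  have h := ord_redF_ge_of_bound hpA hr (g := g) (by rw [hgr]; exact hg0) (jPoles p) (Q := r P)
    (fun P' _ => le_ord_of_mem_ordGe P' hgne (by
      rw [hgc]
      refine sub_mem (mem_ordGe_of_le P' (neg_jPoles_le P')) ?_
      exact ordGe_anti P' (by have := jPoles_nonneg (p := p) P'; omega)
        (mem_ordGe_of_le P' (FF.ord_algebraMap P' (d : Qb)).ge))) rfl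
    (by rw [hPz]; simpa using le_ord_of_mem_ordGe P hgne (by rw [hgc]; exact hd))
  rw [hgr, hg1, hQneg.2] at h
  omega

include hpA in
/-- On the disc of the cusp `∞` the modular unit has no integral value. -/
theorem not_hasIntValue_wBar (hr : IsPlaceReductionModL A p r)
    {P : Place Qb (modularFunctionFieldBar p)} (hP : r P = r (placeInf p)) :
    ¬ HasIntValue A P (wBar p) := by
  have hne := red_placeZero_ne hpA hr
  have hp2 := hp.out.two_le
  by_cases hneg : P.ord (wBar p) < 0
  · exact not_hasIntValue_of_ord_neg hneg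
  rintro ⟨d, hd⟩
  set D₀ : Divisor Qb (modularFunctionFieldBar p) :=
    Finsupp.single (placeInf p) ((p : ℤ) - 1) with hD₀
  have hD₀nn : ∀ P', 0 ≤ D₀ P' := fun P' => by
    rw [hD₀, Finsupp.single_apply]; split_ifs <;> omega
  have hmd : Finsupp.mapDomain r D₀ (r (placeInf p)) = (p : ℤ) - 1 := by
    rw [hD₀, Finsupp.mapDomain_single, Finsupp.single_eq_same]
  have hu0 := redF_wS_ne_zero (A := A) hpA
  -- The reduced unit has a pole of order `p - 1` at the reduced cusp.
  have hord : (r (placeInf p)).ord (redF hFb hpA (wS p A)) = -((p : ℤ) - 1) := by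
    rw [ord_redF_eq hpA hr hu0, coe_wS, mapDomain_div_wBar, Finsupp.sub_apply,
      Finsupp.single_eq_same, Finsupp.single_eq_of_ne hne.symm, zero_sub]
  obtain ⟨hg0, hg1⟩ := FF.ord_add_eq_left (r (placeInf p)) (f := redF hFb hpA (wS p A))
    (g := -algebraMap (Kappa A) _ (residue A d)) hu0 (by
      rcases eq_or_ne (residue A d) 0 with h | h
      · left; rw [h, map_zero, neg_zero]
      · right; rw [FF.ord_neg, FF.ord_algebraMap, hord]; omega)
  rw [← sub_eq_add_neg] at hg0 hg1
  set g : sint A (modularFunctionFieldBar p) := wS p A - cS d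
  have hgr : redF hFb hpA g = redF hFb hpA (wS p A) - algebraMap (Kappa A) _ (residue A d) := by
    rw [map_sub, redF_cS hpA]
  have hgc : (g : modularFunctionFieldBar p) = wBar p - algebraMap Qb _ (d : Qb) := rfl
  have hgne : (g : modularFunctionFieldBar p) ≠ 0 :=
    coe_ne_zero_of_redF hpA (by rw [hgr]; exact hg0)
  have hwb : ∀ P', -D₀ P' ≤ P'.ord (wBar p) := fun P' => by
    have hdiv := DFunLike.congr_fun (div_wBar p) P'
    rw [FF.div_apply, cuspDiv, smul_sub, Finsupp.smul_single, Finsupp.smul_single, smul_eq_mul,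
      mul_one, Finsupp.sub_apply] at hdiv
    rw [hdiv, hD₀]
    have : (0 : ℤ) ≤ Finsupp.single (placeZero p) ((p : ℤ) - 1) P' := by
      rw [Finsupp.single_apply]; split_ifs <;> omega
    omega
  have hPD : D₀ P = 0 := by
    rw [hD₀]
    exact Finsupp.single_eq_of_ne fun h => hneg (by rw [h, ord_placeInf_wBar]; omega)
  -- With a value `d` at `P`, `w - d` would leave a smaller pole there.
  have h := ord_redF_ge_of_bound hpA hr (g := g) (by rw [hgr]; exact hg0) D₀ (Q := r (placeInf p))
    (fun P' _ => le_ord_of_mem_ordGe P' hgne (by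
      rw [hgc]
      refine sub_mem (mem_ordGe_of_le P' (hwb P')) ?_
      exact ordGe_anti P' (by have := hD₀nn P'; omega)
        (mem_ordGe_of_le P' (FF.ord_algebraMap P' (d : Qb)).ge))) hP
    (by rw [hPD]; simpa using le_ord_of_mem_ordGe P hgne (by rw [hgc]; exact hd))
  rw [hgr, hg1, hmd, hord] at h
  omega

include hpA in
/-- On the disc of the cusp `0` the modular unit has values in the maximal ideal. -/
theorem value_wBar_zero (hr : IsPlaceReductionModL A p r)
    {P : Place Qb (modularFunctionFieldBar p)} (hP : r P = r (placeZero p)) :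
    ∃ d : A, wBar p - algebraMap Qb _ (d : Qb) ∈ ordGe P 1 ∧ residue A d = 0 := by
  have hne := red_placeZero_ne hpA hr
  have hp2 := hp.out.two_le
  have hreg : ∀ P', r P' = r (placeZero p) → wBar p ∈ ordGe P' 0 := fun P' hP' => by
    refine mem_ordGe_of_le P' ?_
    have hdiv := DFunLike.congr_fun (div_wBar p) P'
    rw [FF.div_apply, cuspDiv, smul_sub, Finsupp.smul_single, Finsupp.smul_single, smul_eq_mul,
      mul_one, Finsupp.sub_apply,
      Finsupp.single_eq_of_ne (show P' ≠ placeInf p from fun h => hne (h ▸ hP'.symm)), sub_zero]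
      at hdiv
    rw [hdiv, Finsupp.single_apply]
    split_ifs <;> omega
  obtain ⟨d, hd⟩ := exists_value_of_regular hpA hr (wS p A) hreg hP
  refine ⟨d, hd, by_contra fun hd0 => ?_⟩
  have hu0 := redF_wS_ne_zero (A := A) hpA
  have hord : (r (placeZero p)).ord (redF hFb hpA (wS p A)) = (p : ℤ) - 1 := by
    rw [ord_redF_eq hpA hr hu0, coe_wS, mapDomain_div_wBar, Finsupp.sub_apply,
      Finsupp.single_eq_same, Finsupp.single_eq_of_ne hne, sub_zero]
  obtain ⟨hg0, hg1⟩ := FF.ord_add_eq_left (r (placeZero p))
    (f := -algebraMap (Kappa A) (modularFunctionFieldFullC (Kappa A) p) (residue A d))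
    (g := redF hFb hpA (wS p A)) (neg_ne_zero.mpr ((_root_.map_ne_zero _).mpr hd0))
    (Or.inr (by rw [FF.ord_neg, FF.ord_algebraMap, hord]; omega))
  rw [neg_add_eq_sub] at hg0 hg1
  set g : sint A (modularFunctionFieldBar p) := wS p A - cS d
  have hgr : redF hFb hpA g = redF hFb hpA (wS p A) - algebraMap (Kappa A) _ (residue A d) := by
    rw [map_sub, redF_cS hpA]
  have h := ord_redF_gain hpA hr (g := g) (w := 1) (by rw [hgr]; exact hg0)
    (by rw [map_one]; exact one_ne_zero) (e := wBar p - algebraMap Qb _ (d : Qb))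
    (by rw [OneMemClass.coe_one, one_mul]; rfl)
    (fun P' hP' => sub_mem (hreg P' hP') (mem_ordGe_of_le P' (FF.ord_algebraMap P' (d : Qb)).ge))
    hP hd
  rw [hgr, hg1, map_one, Place.ord_one, FF.ord_neg, FF.ord_algebraMap] at h
  omega

end Fermat.Agent.Mazur.Eisenstein
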