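import Fermat.Agent.RedTorsion.TraceVal
import Fermat.Agent.FF.Along
import Mathlib.RingTheory.Norm.Transitivity

/-!
# The value of a norm at a place

The norm of a function regular over a place takes there the product of its values, counted with
ramification indices.
-/

set_option autoImplicit false

noncomputable section

open AlgebraicCurve
open scoped Classical

namespace Fermat.Agent.Mazur.Eisenstein

open Fermat.Agent.FF Fermat.Agent.RedTorsion

section Products

variable {Ω : Type*} [Field Ω] (W : ValuationSubring Ω)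

/-- Products of congruent integral families are congruent. -/
theorem valuation_prod_sub_prod_lt_one {ι : Type*} (S : Finset ι) {a b : ι → Ω}
    (ha : ∀ i ∈ S, W.valuation (a i) ≤ 1) (hb : ∀ i ∈ S, W.valuation (b i) ≤ 1)
    (hab : ∀ i ∈ S, W.valuation (a i - b i) < 1) :
    W.valuation (∏ i ∈ S, a i - ∏ i ∈ S, b i) < 1 := by
  induction S using Finset.induction_on with
  | empty => simp
  | @insert x S hx ih =>
    have hS : ∀ i ∈ S, i ∈ insert x S := fun i hi => Finset.mem_insert_of_mem hi
    have h1 := ih (fun i hi => ha i (hS i hi)) (fun i hi => hb i (hS i hi))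
      (fun i hi => hab i (hS i hi))
    rw [Finset.prod_insert hx, Finset.prod_insert hx,
      show a x * ∏ i ∈ S, a i - b x * ∏ i ∈ S, b i =
        a x * (∏ i ∈ S, a i - ∏ i ∈ S, b i) + (a x - b x) * ∏ i ∈ S, b i by ring]
    refine lt_of_le_of_lt (W.valuation.map_add _ _) (max_lt ?_ ?_)
    · rw [map_mul]
      exact lt_of_le_of_lt (mul_le_of_le_one_left' (ha x (Finset.mem_insert_self _ _))) h1
    · rw [map_mul]
      refine lt_of_le_of_lt (mul_le_of_le_one_right' ?_) (hab x (Finset.mem_insert_self _ _))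
      rw [map_prod]
      exact Finset.prod_le_one' fun i hi => hb i (hS i hi)

end Products

variable {K G F : Type*} [Field K] [IsAlgClosed K] [Field G] [Field F] [Algebra K G] [Algebra K F]
  [Algebra G F] [IsScalarTower K G F] [IsFunctionField K G] [IsFunctionField K F]
  [FiniteDimensional G F] [Algebra.IsSeparable G F]

/-- The embeddings giving a place `P` above `Q` are as many as its ramification index. -/
private theorem card_embeddings_over (Q : Place K G) (W : ValuationSubring (AlgebraicClosure F))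
    (pl : (F →ₐ[G] AlgebraicClosure F) → Place K F) (hpl : ∀ σ, (pl σ).restrict G = Q)
    (hlt : ∀ (σ : F →ₐ[G] AlgebraicClosure F) (f : F),
      f ∈ ordGe (pl σ) 1 → W.valuation (σ f) < 1)
    (hunit : ∀ (σ : F →ₐ[G] AlgebraicClosure F) (f : F),
      f ≠ 0 → (pl σ).ord f = 0 → W.valuation (σ f) = 1)
    {P : Place K F} (hP : P ∈ Q.fiber F) :
    (Finset.univ.filter fun σ : F →ₐ[G] AlgebraicClosure F => pl σ = P).card =
      P.ramificationIndex G := by
  let Ω := AlgebraicClosure F
  obtain ⟨t, ht⟩ := exists_approx_ord (Q.fiber F) (fun P' => if P' = P then 1 else 0)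
  obtain ⟨π, hπ0, hπ⟩ := exists_ord_eq Q 1
  have ht0 := (ht P hP).1
  set e := P.ramificationIndex G with he
  set S := Finset.univ.filter fun σ : F →ₐ[G] Ω => pl σ = P with hS
  have hπF : algebraMap G F π ≠ 0 := (_root_.map_ne_zero _).mpr hπ0
  set v := W.valuation (algebraMap G Ω π) with hv
  have hv0 : v ≠ 0 := W.valuation.ne_zero_iff.mpr ((_root_.map_ne_zero _).mpr hπ0)
  have hv1 : v < 1 := by
    have := hlt (IsScalarTower.toAlgHom G F Ω) (algebraMap G F π)
      (mem_ordGe_of_le _ (by
        rw [Place.ord_restrict, hpl, hπ, mul_one]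
        exact_mod_cast Place.ramificationIndex_pos _))
    rwa [AlgHom.commutes] at this
  have hmem : ∀ σ ∈ S, W.valuation (σ t) ^ e = v := by
    intro σ hσ
    have hσP : pl σ = P := (Finset.mem_filter.mp hσ).2
    have h := hunit σ (t ^ e / algebraMap G F π) (div_ne_zero (pow_ne_zero _ ht0) hπF) (by
      rw [hσP, FF.ord_div P (pow_ne_zero _ ht0) hπF, FF.ord_pow, (ht P hP).2, if_pos rfl,
        Place.ord_restrict, Place.mem_fiber.mp hP, hπ, he, sub_self])
    rw [map_div₀, map_div₀, map_pow, map_pow, AlgHom.commutes] at h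
    exact (div_eq_one_iff_eq hv0).mp h
  have hnot : ∀ σ ∉ S, W.valuation (σ t) = 1 := fun σ hσ => hunit σ t ht0 (by
    rw [(ht _ (Place.mem_fiber.mpr (hpl σ))).2,
      if_neg fun h => hσ (Finset.mem_filter.mpr ⟨Finset.mem_univ _, h⟩)])
  have hN0 : Algebra.norm G t ≠ 0 := Algebra.norm_ne_zero_iff.mpr ht0
  have hordN : Q.ord (Algebra.norm G t) = 1 := by
    rw [FF.ord_norm Q ht0, Finset.sum_eq_single P]
    · have h1 := P.deg_restrict_mul_inertiaDeg (F := G)
      rw [FF.deg_eq_one, FF.deg_eq_one, one_mul] at h1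
      rw [(ht P hP).2, if_pos rfl, h1]; simp
    · intro P' hP' hne
      rw [(ht P' hP').2, if_neg hne, zero_mul]
    · exact fun h => absurd hP h
  have hNv : W.valuation (algebraMap G Ω (Algebra.norm G t)) = v := by
    obtain ⟨σ⟩ : Nonempty (F →ₐ[G] Ω) := ⟨IsScalarTower.toAlgHom G F Ω⟩
    have h := hunit σ (algebraMap G F (Algebra.norm G t / π))
      ((_root_.map_ne_zero _).mpr (div_ne_zero hN0 hπ0)) (by
        rw [Place.ord_restrict, hpl, FF.ord_div Q hN0 hπ0, hordN, hπ, sub_self, mul_zero])
    rw [AlgHom.commutes, map_div₀, map_div₀] at h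
    exact (div_eq_one_iff_eq hv0).mp h
  have hprod : v = ∏ σ ∈ S, W.valuation (σ t) := by
    rw [← hNv, Algebra.norm_eq_prod_embeddings G Ω t, map_prod]
    exact (Finset.prod_subset (Finset.subset_univ S) fun σ _ hσ => hnot σ hσ).symm
  have hpow : v ^ e = v ^ S.card := by
    rw [← Finset.prod_const (s := S) v, Finset.prod_congr rfl fun σ hσ => (hmem σ hσ).symm,
      Finset.prod_pow, ← hprod]
  exact (pow_right_strictAnti₀ (zero_lt_iff.mpr hv0) hv1).injective hpow.symm

/-- The norm of `g` is congruent at `Q` to the product of the values of `g` above `Q`. -/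
theorem norm_sub_prod_mem (Q : Place K G) {g : F} (val : Place K F → K)
    (hval : ∀ P : Place K F, P.restrict G = Q → g - algebraMap K F (val P) ∈ ordGe P 1) :
    Algebra.norm G g - algebraMap K G (∏ P ∈ Q.fiber F, val P ^ P.ramificationIndex G)
      ∈ ordGe Q 1 := by
  obtain ⟨P₀, hP₀⟩ := FF.exists_restrict_eq (F' := F) Q
  let Ω := AlgebraicClosure F
  obtain ⟨W, hW⟩ := exists_valuationSubring_over (algebraMap F Ω) P₀
  have hWG : W.comap (algebraMap G Ω) = Q.toValuationSubring := by
    rw [← hP₀, Place.restrict_toValuationSubring, ← hW, ValuationSubring.comap_comap,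
      ← IsScalarTower.algebraMap_eq]
  have hK : ∀ a : K, algebraMap G Ω (algebraMap K G a) ∈ W := fun a =>
    ValuationSubring.mem_comap.mp (hWG.symm ▸ Q.algebraMap_mem' a)
  obtain ⟨pl, hpl, hplv, hlt⟩ := exists_places_of_embeddings (F := F) Q W hWG
  have hle : ∀ (σ : F →ₐ[G] Ω) (f : F), f ∈ ordGe (pl σ) 0 → W.valuation (σ f) ≤ 1 := by
    intro σ f hf
    have h := (mem_ordGe_zero (pl σ)).mp hf
    rw [hplv σ, ValuationSubring.mem_comap] at h
    exact (W.valuation_le_one_iff _).mpr h
  have hunit : ∀ (σ : F →ₐ[G] Ω) (f : F), f ≠ 0 → (pl σ).ord f = 0 → W.valuation (σ f) = 1 := by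
    intro σ f hf0 hf
    have h1 := hle σ f (mem_ordGe_of_le _ hf.ge)
    have h2 := hle σ f⁻¹ (mem_ordGe_of_le _ (by rw [Place.ord_inv, hf, neg_zero]))
    rw [map_inv₀, map_inv₀] at h2
    have hpos : (0 : W.ValueGroup) < W.valuation (σ f) :=
      zero_lt_iff.mpr (W.valuation.ne_zero_iff.mpr ((_root_.map_ne_zero _).mpr hf0))
    exact le_antisymm h1 ((inv_le_one₀ hpos).mp h2)
  -- the values at infinity of the constants
  let c : K → Ω := fun a => algebraMap G Ω (algebraMap K G a)
  have hc : ∀ (σ : F →ₐ[G] Ω) (a : K), σ (algebraMap K F a) = c a := fun σ a => by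
    rw [IsScalarTower.algebraMap_apply K G F, AlgHom.commutes]
  -- the number of embeddings over a place is its ramification index
  have hcard : ∀ P ∈ Q.fiber F,
      (Finset.univ.filter fun σ : F →ₐ[G] Ω => pl σ = P).card = P.ramificationIndex G :=
    fun _ hP => card_embeddings_over Q W pl hpl hlt hunit hP
  -- the product
  have key : W.valuation (algebraMap G Ω (Algebra.norm G g -
      algebraMap K G (∏ P ∈ Q.fiber F, val P ^ P.ramificationIndex G))) < 1 := by
    rw [map_sub, Algebra.norm_eq_prod_embeddings G Ω g]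
    have h2 : algebraMap G Ω (algebraMap K G (∏ P ∈ Q.fiber F, val P ^ P.ramificationIndex G)) =
        ∏ σ : F →ₐ[G] Ω, c (val (pl σ)) := by
      rw [← Finset.prod_fiberwise_of_maps_to (g := pl) (t := Q.fiber F)
        (fun σ _ => Place.mem_fiber.mpr (hpl σ)), map_prod, map_prod]
      refine Finset.prod_congr rfl fun P hP => ?_
      rw [Finset.prod_congr rfl fun σ hσ => by rw [(Finset.mem_filter.mp hσ).2],
        Finset.prod_const, hcard P hP, map_pow, map_pow]
    rw [h2]
    have hd : ∀ σ : F →ₐ[G] Ω, W.valuation (σ g - c (val (pl σ))) < 1 := fun σ => by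
      have := hlt σ _ (hval (pl σ) (hpl σ))
      rwa [map_sub, hc] at this
    have hc1 : ∀ a : K, W.valuation (c a) ≤ 1 := fun a => (W.valuation_le_one_iff _).mpr (hK a)
    refine valuation_prod_sub_prod_lt_one W _ (fun σ _ => ?_) (fun σ _ => hc1 _) fun σ _ => hd σ
    have := W.valuation.map_add (σ g - c (val (pl σ))) (c (val (pl σ)))
    rw [sub_add_cancel] at this
    exact this.trans (max_le (hd σ).le (hc1 _))
  rw [← ValuationSubring.mem_nonunits_iff, ValuationSubring.mem_nonunits_iff_or] at key
  rw [mem_ordGe_one_iff, ValuationSubring.mem_nonunits_iff_or]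
  rcases key with h | h
  · exact Or.inl ((map_eq_zero _).mp h)
  · refine Or.inr fun hmem => h ?_
    rw [← map_inv₀]
    exact ValuationSubring.mem_comap.mp (hWG.symm ▸ hmem)

end Fermat.Agent.Mazur.Eisenstein
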