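import Fermat.Agent.Mazur.Eisenstein.CuspDisc
import Fermat.Agent.Mazur.Eisenstein.NormValue
import Fermat.Agent.Mazur.Eisenstein.CuspHecke
import Fermat.Agent.Semistable.ModRel

/-!
# Hecke correspondences on the cuspidal discs

A point reducing to a cusp is sent by every `T_l` (`U_p` included) to points reducing to cusps,
with the same multiplicities as the cusp itself. Hence the classes of divisors supported in the
cuspidal discs with zero reduction form a Hecke-stable subgroup.

The subgroup is stable by `smul_mem_discKer`; see also `reductionModL_smul_eq_zero`.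
-/

set_option autoImplicit false

noncomputable section

open IsLocalRing AlgebraicCurve ModularCurve
open scoped Classical

namespace Fermat.Agent.Mazur.Eisenstein

open Fermat.Agent.FF Fermat.Agent.RedTorsion
open Fermat.Agent.EichlerShimura (hFb Kappa)
open Fermat.Agent.Genus (jB)

local notation "Qb" => AlgebraicClosure ℚ

/- The instances that resolve the algebra structures of the function fields in use, tried
first: the default order wastes seconds per query on unrelated candidates. -/
attribute [local instance high] SubalgebraClass.toAlgebra HahnSeries.powerSeriesAlgebra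
  MvPowerSeries.instAlgebra Algebra.id


/-! ## Values at places -/

section Values

variable {F : Type*} [Field F] [Algebra Qb F]

/-- The quotient of two congruences. -/
theorem div_sub_mem_ordGe_one {P : Place Qb F} {f h : F} {a b : Qb} (hb : b ≠ 0)
    (hf : f - algebraMap Qb F a ∈ ordGe P 1) (hh : h - algebraMap Qb F b ∈ ordGe P 1) :
    f / h - algebraMap Qb F (a / b) ∈ ordGe P 1 := by
  have hb' : algebraMap Qb F b ≠ 0 := (_root_.map_ne_zero _).mpr hb
  obtain ⟨hh0, hord⟩ := FF.ord_add_eq_left P (f := algebraMap Qb F b)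
    (g := h - algebraMap Qb F b) hb' (by
      rcases eq_or_ne (h - algebraMap Qb F b) 0 with h0 | h0
      · exact Or.inl h0
      · right
        have := le_ord_of_mem_ordGe P h0 hh
        rw [FF.ord_algebraMap]
        omega)
  rw [add_sub_cancel] at hh0 hord
  rw [FF.ord_algebraMap] at hord
  have e : f / h - algebraMap Qb F (a / b) =
      (algebraMap Qb F b * h)⁻¹ *
        (algebraMap Qb F b * (f - algebraMap Qb F a)
            - algebraMap Qb F a * (h - algebraMap Qb F b)) := by
    rw [map_div₀]
    field_simp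
    ring
  have hc : ∀ c : Qb, algebraMap Qb F c ∈ ordGe P 0 := fun c =>
    mem_ordGe_of_le P (FF.ord_algebraMap P c).ge
  have hinv : (algebraMap Qb F b * h)⁻¹ ∈ ordGe P 0 := mem_ordGe_of_le P (by
    rw [Place.ord_inv, P.ord_mul hb' hh0, FF.ord_algebraMap, hord]
    norm_num)
  rw [e]
  simpa using mul_mem_ordGe P hinv
    (sub_mem (by simpa using mul_mem_ordGe P (hc b) hf) (by simpa using mul_mem_ordGe P (hc a) hh))

theorem value_unique {P : Place Qb F} {f : F} {a b : Qb} (ha : f - algebraMap Qb F a ∈ ordGe P 1)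
    (hb : f - algebraMap Qb F b ∈ ordGe P 1) : a = b := by
  have := sub_mem hb ha
  rw [sub_sub_sub_cancel_left, ← map_sub] at this
  exact sub_eq_zero.mp ((algebraMap_mem_ordGe_one_iff P).mp this)

variable {F' : Type*} [Field F'] [Algebra Qb F'] [FF.IsFunctionField Qb F]
    [FF.IsFunctionField Qb F']

/-- Membership in the maximal ideal along a morphism. -/
theorem map_mem_ordGe_one_iff (φ : F →ₐ[Qb] F') (w : Place Qb F') (f : F) :
    φ f ∈ ordGe w 1 ↔ f ∈ ordGe (w.restrictAlong φ (FF.isIntegralAlong φ)) 1 := by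
  rcases eq_or_ne f 0 with rfl | hf
  · simp
  have hφf : φ f ≠ 0 := (map_ne_zero_iff _ φ.toRingHom.injective).mpr hf
  have hpos := ramificationIndexAlong_pos φ w
  constructor
  · intro h
    have := le_ord_of_mem_ordGe w hφf h
    rw [Place.ord_restrictAlong φ (FF.isIntegralAlong φ)] at this
    refine mem_ordGe_of_le _ ?_
    nlinarith
  · intro h
    have := le_ord_of_mem_ordGe _ hf h
    refine mem_ordGe_of_le _ ?_
    rw [Place.ord_restrictAlong φ (FF.isIntegralAlong φ)]
    nlinarith

theorem hasIntValue_map_iff (A : ValuationSubring Qb) (φ : F →ₐ[Qb] F') (w : Place Qb F') (f : F) :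
    HasIntValue A w (φ f) ↔ HasIntValue A (w.restrictAlong φ (FF.isIntegralAlong φ)) f := by
  refine exists_congr fun d => ?_
  rw [← map_mem_ordGe_one_iff φ w, map_sub, φ.commutes]

end Values

/-! ## Integrality along a monic relation -/

section Relation

variable (p l : ℕ) [hp : Fact p.Prime] [hl : Fact l.Prime] (A : ValuationSubring Qb)

open Polynomial in
/-- If one of `x, y` with a monic relation with coefficients in `A[x]` has an integral value,
so has the other. -/
theorem hasIntValue_of_rel {F : Type*} [Field F] [Algebra Qb F] [FF.IsFunctionField Qb F]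
    (w : Place Qb F) {x y : F} {Φ : Qb[X][X]} (hΦ : Φ.Monic)
    (hA : ∀ k i, (Φ.coeff k).coeff i ∈ A)
    (hrel : Φ.eval₂ (aeval x).toRingHom y = 0) (hx : HasIntValue A w x) : HasIntValue A w y := by
  obtain ⟨a, ha⟩ := hx
  set R := w.toValuationSubring
  have hxR : x ∈ R := by
    refine (mem_ordGe_zero w).mp ?_
    have := add_mem (ordGe_anti w zero_le_one ha)
      (mem_ordGe_of_le w (FF.ord_algebraMap w (a : Qb)).ge)
    rwa [sub_add_cancel] at this
  let ι : Qb →+* R := (algebraMap Qb F).codRestrict R w.algebraMap_mem'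
  let ψ : Qb[X] →+* R := eval₂RingHom ι ⟨x, hxR⟩
  have hψ : R.subtype.comp ψ = (aeval x).toRingHom :=
    Polynomial.ringHom_ext (fun c => by simp [ψ, ι]) (by simp [ψ])
  have hint : IsIntegral R y := ⟨Φ.map ψ, hΦ.map ψ, by
    rw [eval₂_map]
    exact (congrArg (fun h => Φ.eval₂ h y) hψ).trans hrel⟩
  obtain ⟨y₀, hy₀⟩ := (IsIntegrallyClosed.isIntegral_iff (R := R) (K := F)).mp hint
  have hy0 : y ∈ ordGe w 0 := (mem_ordGe_zero w).mpr (hy₀ ▸ y₀.2)
  obtain ⟨c, hc⟩ := exists_sub_mem_ordGe_one w hy0
  -- reduce the relation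
  have hres : ∀ (f : R) (v : Qb), (f : F) - algebraMap Qb F v ∈ ordGe w 1 →
      residue R f = residue R (ι v) := fun f v h => by
    rw [← sub_eq_zero, ← map_sub, FF.residue_eq_zero_iff w]
    exact h
  have hψ' : (residue R).comp ψ =
      ((residue R).comp ι).comp (aeval (a : Qb)).toRingHom :=
    Polynomial.ringHom_ext (fun v => by simp [ψ]) (by simp [ψ, hres ⟨x, hxR⟩ a ha])
  have h0 : Φ.eval₂ ψ (⟨y, hy₀ ▸ y₀.2⟩ : R) = 0 := by
    apply R.subtype_injective
    rw [hom_eval₂, map_zero]
    exact (congrArg (fun h => Φ.eval₂ h y) hψ).trans hrel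
  have h1 := congrArg (residue R) h0
  rw [hom_eval₂, hψ', hres ⟨y, hy₀ ▸ y₀.2⟩ c hc, map_zero] at h1
  rw [show residue R (ι c) = ((residue R).comp ι) c from rfl, ← hom_eval₂] at h1
  have h2 : Φ.eval₂ (aeval (a : Qb)).toRingHom c = 0 :=
    ((residue R).comp ι).injective (h1.trans (map_zero _).symm)
  let Ψ : A[X] := ∑ k ∈ Finset.range (Φ.natDegree + 1),
    Polynomial.C (∑ i ∈ Finset.range ((Φ.coeff k).natDegree + 1), (⟨_, hA k i⟩ : A) * a ^ i) * X ^ k
  refine ⟨⟨c, ?_⟩, hc⟩
  have hcoe : ∀ k, (((∑ i ∈ Finset.range ((Φ.coeff k).natDegree + 1),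
      (⟨_, hA k i⟩ : A) * a ^ i) : A) : Qb) = (Φ.coeff k).eval (a : Qb) := fun k => by
    rw [eval_eq_sum_range, AddSubmonoidClass.coe_finsetSum]
    simp
  have hlead : ∑ i ∈ Finset.range ((Φ.coeff Φ.natDegree).natDegree + 1),
      (⟨_, hA Φ.natDegree i⟩ : A) * a ^ i = 1 := Subtype.ext (by
    rw [hcoe, hΦ.coeff_natDegree, eval_one]; rfl)
  have hmon : Ψ.Monic := by
    refine monic_of_natDegree_le_of_coeff_eq_one Φ.natDegree
      (natDegree_sum_le_of_forall_le _ _ fun k hk => (natDegree_C_mul_X_pow_le _ _).trans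
        (Nat.lt_succ_iff.mp (Finset.mem_range.mp hk))) ?_
    rw [finsetSum_coeff, Finset.sum_eq_single Φ.natDegree]
    · rw [coeff_C_mul_X_pow, if_pos rfl, hlead]
    · intro k _ hne
      rw [coeff_C_mul_X_pow, if_neg hne.symm]
    · intro h
      exact absurd (Finset.self_mem_range_succ _) h
  have hroot : Ψ.eval₂ (algebraMap A Qb) c = 0 := by
    rw [← h2, eval₂_eq_sum_range (p := Φ), eval₂_finsetSum]
    refine Finset.sum_congr rfl fun k _ => ?_
    rw [eval₂_mul, eval₂_C, eval₂_X_pow]
    exact congrArg (· * c ^ k) ((hcoe k).trans (by rw [AlgHom.toRingHom_eq_coe, RingHom.coe_coe,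
      coe_aeval_eq_eval]))
  obtain ⟨z, hz⟩ := (IsIntegrallyClosed.isIntegral_iff (R := A) (K := Qb)).mp ⟨Ψ, hmon, hroot⟩
  exact hz ▸ z.2

/-- Along both degeneracy maps simultaneously, `j` has an integral value or none. -/
theorem hasIntValue_alpha_iff (w : Place Qb (modularFunctionFieldBar (p * l))) :
    HasIntValue A w (heckeAlphaBar Qb p l (jB p)) ↔
      HasIntValue A w (heckeBetaBar Qb p l (jB p)) := by
  obtain ⟨Φ, hΦ, -, hA, -, h1, h2⟩ := Semistable.exists_modRel (q := l) (A := A)
  have key : ∀ x y : modularFunctionFieldBar (p * l),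
      Semistable.ev2 (x : LaurentSeries Qb) (y : LaurentSeries Qb) Φ = 0 →
        Φ.eval₂ (Polynomial.aeval x).toRingHom y = 0 := fun x y h => by
    apply (modularFunctionFieldBar (p * l)).val.toRingHom.injective
    rw [Polynomial.hom_eval₂, map_zero, ← h, Semistable.ev2]
    congr 1
    exact Polynomial.ringHom_ext (fun c => by simp) (by simp)
  have hx : ((heckeAlphaBar Qb p l (jB p) : modularFunctionFieldBar (p * l)) : LaurentSeries Qb) =
      jqModC Qb := by rw [coe_heckeAlphaBar]; exact ModFun.coe_jBase p Qb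
  have hy : ((heckeBetaBar Qb p l (jB p) : modularFunctionFieldBar (p * l)) : LaurentSeries Qb) =
      qExpand Qb l (jqModC Qb) := by
    rw [coe_heckeBetaBar]; exact congrArg (qExpand Qb l) (ModFun.coe_jBase p Qb)
  exact ⟨hasIntValue_of_rel A w hΦ hA (key _ _ (by rw [hx, hy]; exact h1)),
    hasIntValue_of_rel A w hΦ hA (key _ _ (by rw [hx, hy]; exact h2))⟩

end Relation

/-! ## The correspondence on the cuspidal discs -/

section Correspondence

variable {p : ℕ} [hp : Fact p.Prime] {A : ValuationSubring Qb} [IsAlgClosed (Kappa A)]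
variable (hpA : (p : Kappa A) ≠ 0)
variable {r : Place Qb (modularFunctionFieldBar p) →
  Place (Kappa A) (modularFunctionFieldFullC (Kappa A) p)}
variable (l : ℕ) [hl : Fact l.Prime]

/-- A place lies in one of the two cuspidal discs. -/
def InCuspDisc (r : Place Qb (modularFunctionFieldBar p) →
    Place (Kappa A) (modularFunctionFieldFullC (Kappa A) p))
    (P : Place Qb (modularFunctionFieldBar p)) : Prop :=
  r P = r (placeInf p) ∨ r P = r (placeZero p)

include hpA in
theorem hasIntValue_jB_iff (hr : IsPlaceReductionModL A p r)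
    (P : Place Qb (modularFunctionFieldBar p)) : HasIntValue A P (jB p) ↔ ¬ InCuspDisc r P :=
  ⟨fun h hP => not_hasIntValue_jB hpA hr hP h, fun h =>
    hasIntValue_jB hpA hr (fun hi => h (Or.inl hi)) (fun hz => h (Or.inr hz))⟩

include hpA in
/-- Above a cuspidal disc there are only cuspidal discs. -/
theorem inCuspDisc_alpha (hr : IsPlaceReductionModL A p r)
    (w : Place Qb (modularFunctionFieldBar (p * l)))
    (hw : InCuspDisc r (w.restrictAlong (heckeBetaBar Qb p l) (FF.isIntegralAlong _))) :
    InCuspDisc r (w.restrictAlong (heckeAlphaBar Qb p l) (FF.isIntegralAlong _)) := by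
  by_contra h
  rw [← hasIntValue_jB_iff hpA hr, ← hasIntValue_map_iff, hasIntValue_alpha_iff,
    hasIntValue_map_iff, hasIntValue_jB_iff hpA hr] at h
  exact h hw

theorem wBar_sub_ne_zero (c : Qb) : wBar p - algebraMap Qb (modularFunctionFieldBar p) c ≠ 0 := by
  intro h
  rw [sub_eq_zero] at h
  have := ord_placeInf_wBar p
  rw [h, FF.ord_algebraMap] at this
  have := hp.out.two_le
  omega

include hpA in
/-- On a cuspidal disc the order of `w - c` does not depend on the unit `c`. -/
theorem ord_wBar_sub (hr : IsPlaceReductionModL A p r) {u : Place Qb (modularFunctionFieldBar p)}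
    (hu : InCuspDisc r u) {c : A} (hc : residue A c ≠ 0) :
    u.ord (wBar p - algebraMap Qb (modularFunctionFieldBar p) (c : Qb)) =
      min 0 (u.ord (wBar p)) := by
  by_cases hneg : u.ord (wBar p) < 0
  · rw [min_eq_right hneg.le, sub_eq_add_neg]
    exact (FF.ord_add_eq_left u (wBar_ne_zero p) (Or.inr (by
      rw [FF.ord_neg, FF.ord_algebraMap]; exact hneg))).2
  rw [min_eq_left (not_lt.mp hneg)]
  have h0 : wBar p - algebraMap Qb (modularFunctionFieldBar p) (c : Qb) ∈ ordGe u 0 :=
    sub_mem (mem_ordGe_of_le u (not_lt.mp hneg))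
      (mem_ordGe_of_le u (FF.ord_algebraMap u (c : Qb)).ge)
  have hge := le_ord_of_mem_ordGe u (wBar_sub_ne_zero (p := p) _) h0
  refine le_antisymm (not_lt.mp fun hpos => ?_) hge
  have h1 : wBar p - algebraMap Qb (modularFunctionFieldBar p) (c : Qb) ∈ ordGe u 1 :=
    mem_ordGe_of_le u (by omega)
  rcases hu with h | h
  · exact not_hasIntValue_wBar hpA hr h ⟨c, h1⟩
  · obtain ⟨d, hd, hd0⟩ := value_wBar_zero hpA hr h
    exact hc (by rw [Subtype.ext (value_unique h1 hd), hd0])

variable (p) in
/-- `(w - c)/(w - 1)`. -/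
def wQuot (c : Qb) : modularFunctionFieldBar p :=
  (wBar p - algebraMap Qb _ c) / (wBar p - algebraMap Qb _ (1 : Qb))

include hpA in
theorem ord_wQuot (hr : IsPlaceReductionModL A p r) {u : Place Qb (modularFunctionFieldBar p)}
    (hu : InCuspDisc r u) {c : A} (hc : residue A c ≠ 0) : u.ord (wQuot p (c : Qb)) = 0 := by
  rw [wQuot, FF.ord_div u (wBar_sub_ne_zero _) (wBar_sub_ne_zero _), ord_wBar_sub hpA hr hu hc]
  have := ord_wBar_sub hpA hr hu (c := 1) (by rw [map_one]; exact one_ne_zero)
  rw [OneMemClass.coe_one] at this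
  rw [this, sub_self]

include hpA in
theorem value_wQuot (hr : IsPlaceReductionModL A p r) {u : Place Qb (modularFunctionFieldBar p)}
    (hu : InCuspDisc r u) (c : A) :
    ∃ d : A, wQuot p (c : Qb) - algebraMap Qb _ (d : Qb) ∈ ordGe u 1 ∧
      residue A d = if r u = r (placeZero p) then residue A c else 1 := by
  have hne := red_placeZero_ne hpA hr
  rcases hu with h | h
  -- Disc of `∞`: `w` is not integral at `u`, and the quotient reduces to one.
  · rw [if_neg fun h' => hne (h'.symm.trans h)]
    by_cases hneg : u.ord (wBar p) < 0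
    · refine ⟨1, ?_, map_one _⟩
      have e : wQuot p (c : Qb) - algebraMap Qb _ ((1 : A) : Qb) =
          algebraMap Qb _ (1 - (c : Qb)) / (wBar p - algebraMap Qb _ (1 : Qb)) := by
        rw [OneMemClass.coe_one, wQuot, map_sub, eq_div_iff (wBar_sub_ne_zero _), sub_mul,
          div_mul_cancel₀ _ (wBar_sub_ne_zero _), map_one]
        ring
      rw [e]
      rcases eq_or_ne (1 - (c : Qb)) 0 with h1 | h1
      · rw [h1, map_zero, zero_div]; exact zero_mem _
      refine mem_ordGe_of_le u ?_
      have hw := (FF.ord_add_eq_left u (wBar_ne_zero p)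
        (g := -algebraMap Qb (modularFunctionFieldBar p) (1 : Qb)) (Or.inr (by
          rw [FF.ord_neg, FF.ord_algebraMap]; exact hneg))).2
      rw [← sub_eq_add_neg] at hw
      rw [FF.ord_div u ((_root_.map_ne_zero _).mpr h1) (wBar_sub_ne_zero _), FF.ord_algebraMap, hw]
      omega
    obtain ⟨b, hb⟩ := exists_sub_mem_ordGe_one u
      (mem_ordGe_of_le u (not_lt.mp hneg) : wBar p ∈ ordGe u 0)
    have hbA : b ∉ A := fun hb' => not_hasIntValue_wBar hpA hr h ⟨⟨b, hb'⟩, hb⟩
    have hb1 : b - 1 ∉ A := fun h' => hbA (by simpa using add_mem h' A.one_mem)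
    have hb10 : b - 1 ≠ 0 := fun h' => hb1 (h' ▸ A.zero_mem)
    have hi : (b - 1)⁻¹ ∈ A := (A.mem_or_inv_mem _).resolve_left hb1
    refine ⟨1 + (1 - c) * ⟨_, hi⟩, ?_, ?_⟩
    · have := div_sub_mem_ordGe_one hb10
        (f := wBar p - algebraMap Qb _ (c : Qb)) (h := wBar p - algebraMap Qb _ (1 : Qb))
        (a := b - (c : Qb)) (by rw [map_sub, sub_sub_sub_cancel_right]; exact hb)
        (by rw [map_sub, sub_sub_sub_cancel_right]; exact hb)
      have e : (((1 + (1 - c) * ⟨_, hi⟩ : A) : A) : Qb) = (b - (c : Qb)) / (b - 1) := by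
        push_cast
        field_simp
        ring
      rw [e, wQuot]
      exact this
    · rw [map_add, map_mul, map_one, Arith.residue_inv_eq_zero hb1 hi, mul_zero, add_zero]
  · rw [if_pos h]
    -- Disc of `0`: `w` reduces to zero, and the quotient to `c`.
    obtain ⟨d, hd, hd0⟩ := value_wBar_zero hpA hr h
    have hu1 : residue A (d - 1) ≠ 0 := by
      rw [map_sub, hd0, map_one, zero_sub]; exact neg_ne_zero.mpr one_ne_zero
    obtain ⟨v, hv⟩ := ((residue_ne_zero_iff_isUnit _).mp hu1).exists_right_inv
    have hv' : ((d : Qb) - 1) * (v : Qb) = 1 := congrArg Subtype.val hv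
    have h10 : (d : Qb) - 1 ≠ 0 := left_ne_zero_of_mul_eq_one hv'
    refine ⟨(d - c) * v, ?_, ?_⟩
    · have := div_sub_mem_ordGe_one h10
        (f := wBar p - algebraMap Qb _ (c : Qb)) (h := wBar p - algebraMap Qb _ (1 : Qb))
        (a := (d : Qb) - (c : Qb)) (by rw [map_sub, sub_sub_sub_cancel_right]; exact hd)
        (by rw [map_sub, sub_sub_sub_cancel_right]; exact hd)
      have e : (((d - c) * v : A) : Qb) = ((d : Qb) - (c : Qb)) / ((d : Qb) - 1) := by
        push_cast
        rw [eq_div_iff h10, mul_assoc, mul_comm (v : Qb), hv', mul_one]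
      rw [e, wQuot]
      exact this
    · have hres := congrArg (residue A) hv
      rw [map_mul, map_sub, hd0, map_one, zero_sub] at hres
      rw [map_mul, map_sub, hd0, zero_sub]
      linear_combination (residue A c) * hres

/-- The multiplicity with which the correspondence sends `y` into the disc of the cusp `0`. -/
def zeroMult (r : Place Qb (modularFunctionFieldBar p) →
    Place (Kappa A) (modularFunctionFieldFullC (Kappa A) p))
    (y : Place Qb (modularFunctionFieldBar p)) : ℕ :=
  ∑ w ∈ Place.fiberAlong (heckeBetaBar Qb p l) (FF.isIntegralAlong _) y,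
    if r (w.restrictAlong (heckeAlphaBar Qb p l) (FF.isIntegralAlong _)) = r (placeZero p)
    then w.ramificationIndexAlong (heckeBetaBar Qb p l) else 0

include hpA in
theorem mapDomain_cuspCorr_single (hr : IsPlaceReductionModL A p r)
    (y : Place Qb (modularFunctionFieldBar p)) (hy : InCuspDisc r y) :
    Finsupp.mapDomain r (cuspCorr p l (Finsupp.single y 1)) =
      Finsupp.single (r (placeInf p)) (finrankAlong Qb (heckeBetaBar Qb p l) : ℤ) +
        (zeroMult l r y : ℤ) • (Finsupp.single (r (placeZero p)) 1 -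
          Finsupp.single (r (placeInf p)) 1) := by
  have : HasPrincipalDivisors Qb (modularFunctionFieldBar (p * l)) := FF.hasPrincipalDivisors
  rw [cuspCorr, correspondence_single, ← Finsupp.mapDomain.addMonoidHom_apply, map_sum,
    ← sum_ramification_eq (heckeBetaBar Qb p l) (FF.isIntegralAlong _) y, Finsupp.single_finsetSum,
    zeroMult, Nat.cast_sum, Finset.sum_smul, ← Finset.sum_add_distrib]
  refine Finset.sum_congr rfl fun w hw => ?_
  rw [Finsupp.mapDomain.addMonoidHom_apply, Finsupp.mapDomain_single]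
  have hdisc := inCuspDisc_alpha hpA l hr w (by
    rw [Place.mem_fiberAlong.mp hw]; exact hy)
  have hne := red_placeZero_ne hpA hr
  rcases hdisc with h | h
  · rw [h, if_neg fun h' => hne h'.symm, Nat.cast_zero, zero_smul, add_zero]
  · rw [h, if_pos rfl, smul_sub, Finsupp.smul_single, Finsupp.smul_single, smul_eq_mul, mul_one,
      add_sub_cancel]

include hpA in
/-- The value of the norm of `(w - c)/(w - 1)` on a cuspidal disc. -/
theorem exists_norm_value (hr : IsPlaceReductionModL A p r)
    {y : Place Qb (modularFunctionFieldBar p)} (hy : InCuspDisc r y) {c : A}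
    (hc : residue A c ≠ 0) :
    letI := algebraAlong (heckeBetaBar Qb p l)
    Algebra.norm (modularFunctionFieldBar p) (heckeAlphaBar Qb p l (wQuot p (c : Qb))) ≠ 0 ∧
    y.ord (Algebra.norm (modularFunctionFieldBar p) (heckeAlphaBar Qb p l (wQuot p (c : Qb)))) = 0 ∧
    ∃ d : A,
      Algebra.norm (modularFunctionFieldBar p) (heckeAlphaBar Qb p l (wQuot p (c : Qb))) -
          algebraMap Qb _ (d : Qb) ∈ ordGe y 1 ∧
        residue A d = residue A c ^ zeroMult l r y := by
  let := algebraAlong (heckeBetaBar Qb p l)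
  have := isScalarTower_along (heckeBetaBar Qb p l)
  let : Module (modularFunctionFieldBar p) (modularFunctionFieldBar (p * l)) := Algebra.toModule
  have : Module.Finite (modularFunctionFieldBar p) (modularFunctionFieldBar (p * l)) :=
    FF.finiteAlong (heckeBetaBar Qb p l)
  have : CharZero (modularFunctionFieldBar p) :=
    charZero_of_injective_algebraMap (algebraMap Qb (modularFunctionFieldBar p)).injective
  set α := heckeAlphaBar Qb p l
  have hαi := FF.isIntegralAlong α
  set g := α (wQuot p (c : Qb)) with hg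
  have hw0 : wQuot p (c : Qb) ≠ 0 := div_ne_zero (wBar_sub_ne_zero _) (wBar_sub_ne_zero _)
  have hg0 : g ≠ 0 := (map_ne_zero_iff _ α.toRingHom.injective).mpr hw0
  -- The places over `y` map into cuspidal discs.
  have hdisc : ∀ w : Place Qb (modularFunctionFieldBar (p * l)),
      w.restrict (modularFunctionFieldBar p) = y → InCuspDisc r (w.restrictAlong α hαi) :=
    fun w hw => inCuspDisc_alpha hpA l hr w (by
      rw [show w.restrictAlong (heckeBetaBar Qb p l) (FF.isIntegralAlong _) =
        w.restrict (modularFunctionFieldBar p) from rfl, hw]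
      exact hy)
  refine ⟨Algebra.norm_ne_zero_iff.mpr hg0, ?_, ?_⟩
  · rw [FF.ord_norm y hg0]
    refine Finset.sum_eq_zero fun w hw => ?_
    rw [hg, Place.ord_restrictAlong α hαi,
      ord_wQuot hpA hr (hdisc w (Place.mem_fiber.mp hw)) hc, mul_zero,
      zero_mul]
  -- The norm takes the product of the values over the fibre.
  · have hex : ∀ w : Place Qb (modularFunctionFieldBar (p * l)), ∃ d : A,
        w.restrict (modularFunctionFieldBar p) = y →
          g - algebraMap Qb _ (d : Qb) ∈ ordGe w 1 ∧ residue A d =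
            if r (w.restrictAlong α hαi) = r (placeZero p) then residue A c else 1 := fun w => by
      by_cases hw : w.restrict (modularFunctionFieldBar p) = y
      · obtain ⟨d, hd, hd'⟩ := value_wQuot hpA hr (hdisc w hw) c
        refine ⟨d, fun _ => ⟨?_, hd'⟩⟩
        rw [hg, ← α.commutes, ← map_sub]
        exact (map_mem_ordGe_one_iff α w _).mpr hd
      · exact ⟨0, fun h => absurd h hw⟩
    choose d hd using hex
    refine ⟨∏ w ∈ y.fiber (modularFunctionFieldBar (p * l)),
      d w ^ w.ramificationIndex (modularFunctionFieldBar p), ?_, ?_⟩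
    · have := norm_sub_prod_mem y (g := g) (fun w => (d w : Qb)) fun w hw => (hd w hw).1
      convert this using 3
      push_cast
      rfl
    · rw [map_prod, zeroMult, ← Finset.prod_pow_eq_pow_sum]
      refine Finset.prod_congr rfl fun w hw => ?_
      rw [map_pow, (hd w (Place.mem_fiber.mp hw)).2]
      show _ = residue A c ^ (if _ then w.ramificationIndex (modularFunctionFieldBar p) else 0)
      split_ifs with h
      · rfl
      · rw [one_pow, pow_zero]

include hpA in
/-- The multiplicity only depends on the disc. -/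
theorem zeroMult_eq (hr : IsPlaceReductionModL A p r)
    {y y' : Place Qb (modularFunctionFieldBar p)} (hy : InCuspDisc r y) (hyy' : r y = r y') :
    zeroMult l r y = zeroMult l r y' := by
  have hy' : InCuspDisc r y' := by unfold InCuspDisc at hy ⊢; rwa [← hyy']
  have key : ∀ t : Kappa A, t ≠ 0 → t ^ zeroMult l r y = t ^ zeroMult l r y' := by
    intro t ht
    obtain ⟨c, rfl⟩ := residue_surjective (R := A) t
    obtain ⟨hf, -, d, hd, hdr⟩ := exists_norm_value hpA l hr hy ht
    obtain ⟨-, -, d', hd', hdr'⟩ := exists_norm_value hpA l hr hy' ht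
    obtain ⟨c₀, e, e', hc₀, he, he', hee, he0⟩ := exists_disc_values hpA hr hf (Q := r y)
      (fun P hP => (exists_norm_value hpA l hr (y := P) (c := c)
        (by unfold InCuspDisc at hy ⊢; rwa [hP]) ht).2.1) (P := y) rfl hyy'.symm
    have h1 : (d : Qb) = c₀ * (e : Qb) := value_unique hd he
    have h2 : (d' : Qb) = c₀ * (e' : Qb) := value_unique hd' he'
    obtain ⟨v, hv⟩ := ((residue_ne_zero_iff_isUnit _).mp he0).exists_right_inv
    have hv' : (e : Qb) * (v : Qb) = 1 := congrArg Subtype.val hv
    have hc₀' : c₀ = ((d * v : A) : Qb) := by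
      push_cast
      rw [h1, mul_assoc, hv', mul_one]
    have h3 : d' = d * v * e' := Subtype.ext (by push_cast [hc₀'] at h2; exact h2)
    rw [← hdr, ← hdr', h3, map_mul, map_mul, ← hee, mul_assoc, ← map_mul,
      mul_comm v e, hv, map_one, mul_one]
  wlog hle : zeroMult l r y ≤ zeroMult l r y' generalizing y y'
  · exact (this hy' hyy'.symm hy (fun t ht => (key t ht).symm) (le_of_not_ge hle)).symm
  obtain ⟨k, hk⟩ := Nat.exists_eq_add_of_le hle
  by_contra hne
  have hk0 : 0 < k := by omega
  obtain ⟨t, ht⟩ := Infinite.exists_notMem_finset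
    (insert (0 : Kappa A) (Polynomial.nthRoots k (1 : Kappa A)).toFinset)
  rw [Finset.mem_insert, not_or, Multiset.mem_toFinset, Polynomial.mem_nthRoots hk0] at ht
  have := key t ht.1
  rw [hk, pow_add] at this
  exact ht.2 (mul_left_cancel₀ (pow_ne_zero _ ht.1) (by rw [mul_one]; exact this.symm))

end Correspondence

/-! ## The Hecke-stable subgroup -/

section Kernel

variable {p : ℕ} [hp : Fact p.Prime] {A : ValuationSubring Qb} [IsAlgClosed (Kappa A)]
variable (hpA : (p : Kappa A) ≠ 0)

/-- Divisors supported in the cuspidal discs with zero reduction. -/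
def discDiv (r : Place Qb (modularFunctionFieldBar p) →
    Place (Kappa A) (modularFunctionFieldFullC (Kappa A) p)) :
    AddSubgroup (Divisor Qb (modularFunctionFieldBar p)) where
  carrier := {D | (∀ P ∈ D.support, InCuspDisc r P) ∧ Finsupp.mapDomain r D = 0}
  zero_mem' := ⟨fun P hP => absurd hP (by simp), Finsupp.mapDomain_zero⟩
  add_mem' := fun {D E} hD hE => ⟨fun P hP => (Finset.mem_union.mp
      (Finsupp.support_add hP)).elim (hD.1 P) (hE.1 P), by
    rw [Finsupp.mapDomain_add, hD.2, hE.2, add_zero]⟩
  neg_mem' := fun {D} hD => ⟨fun P hP => hD.1 P (by rwa [Finsupp.support_neg] at hP), by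
    rw [← Finsupp.mapDomain.addMonoidHom_apply, map_neg, Finsupp.mapDomain.addMonoidHom_apply, hD.2,
      neg_zero]⟩

variable {r : Place Qb (modularFunctionFieldBar p) →
  Place (Kappa A) (modularFunctionFieldFullC (Kappa A) p)}

include hpA in
theorem cuspCorr_mem_discDiv (l : ℕ) [Fact l.Prime] (hr : IsPlaceReductionModL A p r)
    {D : Divisor Qb (modularFunctionFieldBar p)} (hD : D ∈ discDiv r) :
    cuspCorr p l D ∈ discDiv r := by
  have : HasPrincipalDivisors Qb (modularFunctionFieldBar (p * l)) := FF.hasPrincipalDivisors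
  have hsum : cuspCorr p l D =
      ∑ P ∈ D.support, D P • cuspCorr p l (Finsupp.single P 1) := by
    conv_lhs => rw [← Finsupp.sum_single D, Finsupp.sum, map_sum]
    refine Finset.sum_congr rfl fun P _ => ?_
    rw [← map_zsmul, Finsupp.smul_single, smul_eq_mul, mul_one]
  constructor
  · intro P hP
    by_contra hPd
    have h0 : cuspCorr p l D P = 0 := by
      rw [hsum, Finsupp.finsetSum_apply]
      refine Finset.sum_eq_zero fun y hy => ?_
      rw [Finsupp.smul_apply, cuspCorr, correspondence_single, Finsupp.finsetSum_apply,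
        Finset.sum_eq_zero, smul_zero]
      intro w hw
      refine Finsupp.single_eq_of_ne fun h => hPd ?_
      rw [h]
      exact inCuspDisc_alpha hpA l hr w (by rw [Place.mem_fiberAlong.mp hw]; exact hD.1 y hy)
    exact (Finsupp.mem_support_iff.mp hP) h0
  · let y₀ : Place (Kappa A) (modularFunctionFieldFullC (Kappa A) p) →
        Divisor (Kappa A) (modularFunctionFieldFullC (Kappa A) p) := fun Q =>
      if h : ∃ y, InCuspDisc r y ∧ r y = Q then
        Finsupp.mapDomain r (cuspCorr p l (Finsupp.single h.choose 1)) else 0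
    have hy₀ : ∀ y, InCuspDisc r y →
        Finsupp.mapDomain r (cuspCorr p l (Finsupp.single y 1)) = y₀ (r y) := fun y hy => by
      have h : ∃ y', InCuspDisc r y' ∧ r y' = r y := ⟨y, hy, rfl⟩
      rw [show y₀ (r y) = Finsupp.mapDomain r (cuspCorr p l (Finsupp.single h.choose 1)) from
        dif_pos h, mapDomain_cuspCorr_single hpA l hr y hy,
        mapDomain_cuspCorr_single hpA l hr _ h.choose_spec.1,
        zeroMult_eq hpA l hr hy h.choose_spec.2.symm]
    rw [hsum, ← Finsupp.mapDomain.addMonoidHom_apply, map_sum]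
    calc ∑ y ∈ D.support, Finsupp.mapDomain.addMonoidHom r (D y • cuspCorr p l (Finsupp.single y 1))
        = D.sum fun y n => n • y₀ (r y) := Finset.sum_congr rfl fun y hy => by
          rw [map_zsmul, Finsupp.mapDomain.addMonoidHom_apply, hy₀ y (hD.1 y hy)]
      _ = (Finsupp.mapDomain r D).sum fun Q n => n • y₀ Q :=
          (Finsupp.sum_mapDomain_index (h := fun Q n => n • y₀ Q) (fun _ => zero_smul ℤ _)
            fun _ _ _ => add_smul _ _ _).symm
      _ = 0 := by rw [hD.2, Finsupp.sum_zero_index]

/-- Classes of divisors supported in the cuspidal discs with zero reduction. -/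
def discKer (r : Place Qb (modularFunctionFieldBar p) →
    Place (Kappa A) (modularFunctionFieldFullC (Kappa A) p)) : AddSubgroup (JZero p) :=
  ((discDiv r).addSubgroupOf
    (Divisor.degZero (K := Qb) (F := modularFunctionFieldBar p))).map
      (QuotientAddGroup.mk' _)

omit [IsAlgClosed (Kappa A)] in
theorem mk_mem_discKer {D : Divisor.degZero (K := Qb) (F := modularFunctionFieldBar p)}
    (hD : (D : Divisor Qb (modularFunctionFieldBar p)) ∈ discDiv r) :
    Pic0.mk D ∈ discKer r :=
  ⟨D, AddSubgroup.mem_addSubgroupOf.mpr hD, rfl⟩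

omit [IsAlgClosed (Kappa A)] in
theorem discKer_le_ker (h : ReductionInputsModL A p) :
    discKer (placeReductionModL h) ≤ (reductionModL A p).ker := by
  rintro _ ⟨D, hD, rfl⟩
  rw [AddMonoidHom.mem_ker]
  show reductionModL A p (Pic0.mk D) = 0
  rw [reductionModL_mk h]
  refine (congrArg Pic0.mk (Subtype.ext ?_)).trans (map_zero (QuotientAddGroup.mk' _))
  exact (coe_reductionDegZeroAlong _ _ D).trans (AddSubgroup.mem_addSubgroupOf.mp hD).2

include hpA in
theorem heckeOperatorBar_mem_discKer (hr : IsPlaceReductionModL A p r) (l : Nat.Primes)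
    {x : JZero p} (hx : x ∈ discKer r) : heckeOperatorBar p l x ∈ discKer r := by
  have : Fact (l : ℕ).Prime := ⟨l.2⟩
  obtain ⟨D, hD, rfl⟩ := hx
  rw [heckeOperatorBar_apply, heckeOperatorAlong_eq (L := Qb) (N := p) (ℓ := (l : ℕ))
    (FF.isIntegralAlong (heckeAlphaBar Qb p (l : ℕ)))
    (FF.isIntegralAlong (heckeBetaBar Qb p (l : ℕ)))
    (FF.fundamentalIdentityAlong (heckeBetaBar Qb p (l : ℕ)) _)
    (FF.finiteAlong (heckeAlphaBar Qb p (l : ℕ)))
    (FF.normFormulaAlong (heckeAlphaBar Qb p (l : ℕ)) _)]
  unfold heckePic0Bar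
  show Pic0.correspondence _ _ _ _ _ _ _ (Pic0.mk D) ∈ _
  rw [Pic0.correspondence_mk]
  refine mk_mem_discKer ?_
  rw [Pic0.coe_degZeroCorrespondence]
  exact cuspCorr_mem_discDiv hpA l hr (AddSubgroup.mem_addSubgroupOf.mp hD)

include hpA in
/-- The classes are stable under the Hecke algebra. -/
theorem smul_mem_discKer (hr : IsPlaceReductionModL A p r) (t : HeckeAlg) :
    letI := heckeModuleBar p
    ∀ {x : JZero p}, x ∈ discKer r → t • x ∈ discKer r := by
  let := heckeModuleBar p
  induction t using MvPolynomial.induction_on with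
  | C a => intro x hx; rw [heckeModuleBar_C_smul]; exact zsmul_mem hx a
  | add f g hf hg => intro x hx; rw [add_smul]; exact add_mem (hf hx) (hg hx)
  | mul_X f l hf =>
    intro x hx
    rw [mul_smul]
    refine hf ?_
    by_cases h : HeckeOperatorsCommuteBar p
    · rw [show (MvPolynomial.X l : HeckeAlg) = heckeGen l from rfl, heckeModuleBar_heckeGen_smul h]
      exact heckeOperatorBar_mem_discKer hpA hr l hx
    · rw [show (MvPolynomial.X l : HeckeAlg) = heckeGen l from rfl,
        heckeModuleBar_heckeGen_smul_of_not h]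
      exact zero_mem _

include hpA in
/-- Hecke operators keep the reduction of a class supported in cuspidal discs with zero
reduction zero. -/
theorem reductionModL_smul_eq_zero (h : ReductionInputsModL A p) (t : HeckeAlg) {x : JZero p}
    (hx : x ∈ discKer (placeReductionModL h)) :
    letI := heckeModuleBar p
    reductionModL A p (t • x) = 0 :=
  AddMonoidHom.mem_ker.mp (discKer_le_ker h
    (smul_mem_discKer hpA (isPlaceReductionModL_placeReductionModL h) t hx))

end Kernel

end Fermat.Agent.Mazur.Eisenstein
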