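import Fermat.Agent.Mazur.Eisenstein.AtP
import Fermat.Agent.Mazur.Eisenstein.CocR
import Fermat.Agent.Mazur.Eisenstein.Base

/-!
# The Eisenstein descent

A bounded power of `r` times the Eisenstein idempotent takes every fixed point to one divisible
by all powers of `r` among the fixed points (`exists_descent`).
-/

set_option autoImplicit false

noncomputable section

namespace Fermat.Agent.Mazur.Eisenstein

open Fermat.Agent.Arith Module Matrix

variable {p r : ℕ} [Fact r.Prime] {J : Type} [AddCommGroup J] [DistribMulAction GQ J]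
variable {T : Type} [CommRing T] [Module T J]

/-- If `x r ^ a ≤ r ^ b` and `y ≤ r ^ c` with `b + c ≤ d + a`, then `x y ≤ r ^ d`. -/
private theorem mul_le_pow_of_le {r x y a b c d : ℕ} (hr : 0 < r) (hx : x * r ^ a ≤ r ^ b)
    (hy : y ≤ r ^ c) (h : b + c ≤ d + a) : x * y ≤ r ^ d := by
  refine Nat.le_of_mul_le_mul_right ?_ (pow_pos hr a)
  calc x * y * r ^ a = x * r ^ a * y := by ring
    _ ≤ r ^ b * r ^ c := Nat.mul_le_mul hx hy
    _ ≤ r ^ d * r ^ a := by
      rw [← pow_add, ← pow_add]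
      exact Nat.pow_le_pow_right hr h

/-- A fixed `r ^ m`-th root of `N • x` with `0 < N ≤ r ^ C` gives one of `r ^ C • x`: the part of
`N` prime to `r` is invertible modulo `r ^ m`. -/
private theorem exists_fixed_pow_smul_eq {m C N : ℕ} (hN0 : N ≠ 0) (hN : N ≤ r ^ C) {x z : J}
    (hx : ∀ σ : GQ, σ • x = x) (hz : ∀ σ : GQ, σ • z = z) (h : r ^ m • z = N • x) :
    ∃ z' : J, (∀ σ : GQ, σ • z' = z') ∧ r ^ C • x = r ^ m • z' := by
  have hr : r.Prime := Fact.out
  obtain ⟨s, u, hu, hNsu⟩ := Nat.exists_eq_pow_mul_and_not_dvd hN0 r hr.ne_one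
  have hs : s ≤ C := by
    refine (Nat.pow_le_pow_iff_right hr.one_lt).mp (le_trans ?_ hN)
    exact hNsu ▸ Nat.le_mul_of_pos_right _ (Nat.pos_of_ne_zero fun h => hu (h ▸ dvd_zero r))
  obtain ⟨a, a', haa⟩ : IsCoprime (u : ℤ) ((r : ℤ) ^ m) := by
    have : Nat.Coprime u (r ^ m) := (Nat.Coprime.pow_left m (hr.coprime_iff_not_dvd.mpr hu)).symm
    have h2 := Nat.isCoprime_iff_coprime.mpr this
    rwa [Nat.cast_pow] at h2
  set z₁ := a • z + ((r : ℤ) ^ s * a') • x with hz₁
  obtain ⟨d', hd'⟩ := Nat.exists_eq_add_of_le hs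
  refine ⟨r ^ d' • z₁, fun σ => ?_, ?_⟩
  · rw [SMulCommClass.smul_comm σ (r ^ d'), hz₁, smul_add, SMulCommClass.smul_comm σ a,
      SMulCommClass.smul_comm σ ((r : ℤ) ^ s * a'), hz, hx]
  · have h1 : r ^ m • z₁ = r ^ s • x := by
      simp only [← natCast_zsmul] at h ⊢
      rw [hz₁, smul_add, SMulCommClass.smul_comm _ a, h, smul_smul, smul_smul, ← add_smul]
      congr 1
      rw [hNsu]
      push_cast
      linear_combination ((r : ℤ) ^ s) * haa
    rw [hd', pow_add, mul_comm, mul_smul, ← h1, SMulCommClass.smul_comm (r ^ d') (r ^ m)]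

omit [Fact r.Prime] in
/-- If `N` times the Kummer cocycle of `w` is the coboundary of some `b` killed by `r ^ m`, then
`N • w - b` is a fixed `r ^ m`-th root of `N • r ^ m • w`. -/
private theorem exists_fixed_of_nsmul_eq_coboundary {m N : ℕ} {w b : J} (hb : r ^ m • b = 0)
    (h : ∀ σ : GQ, σ • b - b = N • (σ • w - w)) :
    ∃ z : J, (∀ σ : GQ, σ • z = z) ∧ r ^ m • z = N • r ^ m • w := by
  refine ⟨N • w - b, fun σ => ?_, ?_⟩
  · have h' := h σ
    rw [smul_sub] at h'
    rw [smul_sub, SMulCommClass.smul_comm σ N]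
    linear_combination (norm := abel) -h'
  · rw [smul_sub, hb, sub_zero, SMulCommClass.smul_comm (r ^ m) N w]

namespace EisensteinDatum

variable (D : EisensteinDatum p r J T)

include D in
theorem exists_pow_smul_eq (m : ℕ) (y : J) : ∃ x : J, r ^ m • x = y := by
  induction m generalizing y with
  | zero => exact ⟨y, by rw [pow_zero, one_smul]⟩
  | succ m ih =>
    obtain ⟨z, hz⟩ := D.divisible y
    obtain ⟨x, hx⟩ := ih z
    exact ⟨x, by rw [pow_succ', mul_smul, hx, hz]⟩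

/-- The fixed Eisenstein torsion is bounded. -/
theorem exists_fixed_bound : ∃ c : ℕ, ∀ m : ℕ,
    letI := subAction (D.eisTors m) (D.gal_mem_eisTors m)
    Nat.card (fixedBy (D.eisTors m) (⊤ : Subgroup GQ)) ≤ r ^ c := by
  classical
  have hr : r.Prime := Fact.out
  obtain ⟨q, hq, hqp, hqr⟩ : ∃ q : ℕ, q.Prime ∧ q ≠ p ∧ q ≠ r := by
    have h5 := D.five_le
    by_cases h2 : r = 2
    · exact ⟨3, Nat.prime_three, by omega, by omega⟩
    · exact ⟨2, Nat.prime_two, by omega, fun h => h2 h.symm⟩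
  obtain ⟨A, hA⟩ := exists_liesOverPrime hq
  obtain ⟨φ, hφ⟩ := exists_isFrobeniusAt hA hq
  obtain ⟨δ, hδ, hδ'⟩ := D.exists_bound q hq hqp A hA
  obtain ⟨a, δ', hδd, rfl⟩ := Nat.exists_eq_pow_mul_and_not_dvd hδ r hr.ne_one
  refine ⟨a * D.d, fun m => ?_⟩
  let := subAction (D.eisTors m) (D.gal_mem_eisTors m)
  have hkill : ∀ b : fixedBy (D.eisTors m) (⊤ : Subgroup GQ),
      r ^ a • ((b : D.eisTors m) : J) = 0 := by
    intro b
    have hfix : ∀ g : GQ, g • ((b : D.eisTors m) : J) = ((b : D.eisTors m) : J) := fun g =>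
      congrArg Subtype.val ((mem_fixedBy (D.eisTors m)).mp b.2 g trivial)
    have htor : r ^ m • ((b : D.eisTors m) : J) = 0 := D.pow_smul_eisTors (b : D.eisTors m).2
    have hmem := hδ' φ hφ ((b : D.eisTors m) : J) (by rw [hfix, hfix, sub_self]; exact zero_mem _)
    have hzero : (r ^ a * δ') • ((b : D.eisTors m) : J) = 0 :=
      D.eq_zero_of_mem q hq hqp A hA (r ^ m) _
        (fun hd => hqr ((Nat.prime_dvd_prime_iff_eq hq hr).mp (hq.dvd_of_dvd_pow hd)))
        (by rw [← mul_smul, mul_comm (r ^ m), mul_smul, htor, smul_zero]) hmem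
    rw [← addOrderOf_dvd_iff_nsmul_eq_zero] at hzero htor ⊢
    exact (Nat.Coprime.pow_left m ((hr.coprime_iff_not_dvd).mpr hδd)).coprime_dvd_left htor
      |>.dvd_of_dvd_mul_right hzero
  choose f hf using fun b => D.exists_ι_eq a _ (hkill b)
  refine (Nat.card_le_card_of_injective f fun b b' h => Subtype.ext (Subtype.ext
    (by rw [← hf b, ← hf b', h]))).trans (le_of_eq ?_)
  rw [Nat.card_fun, Nat.card_zmod, Nat.card_eq_fintype_card, Fintype.card_fin, ← pow_mul]

/-- The Kummer cocycle of an `r ^ m`-th root `w₀` of a fixed point, moved by `t₀ ^ r ^ m`, takes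
values in the Eisenstein torsion. -/
private theorem smul_sub_mem_eisTors_of_fixed (m : ℕ) {y w₀ : J} (hy : ∀ σ : GQ, σ • y = y)
    (hw₀ : r ^ m • w₀ = y) (σ : GQ) :
    σ • ((D.t₀ ^ r ^ m) • w₀) - (D.t₀ ^ r ^ m) • w₀ ∈ D.eisTors m := by
  rw [D.smul_comm, ← smul_sub]
  refine D.t₀_smul_mem_eisTors m _ ?_
  rw [smul_sub, ← SMulCommClass.smul_comm σ (r ^ m), hw₀, hy, sub_self]

/-- `σ ↦ σ • w - w` is a continuous cocycle with values in the Eisenstein torsion. -/
private theorem kummer_mem_cocycles (m : ℕ) {w : J}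
    (hκ : ∀ σ : GQ, σ • w - w ∈ D.eisTors m) :
    letI := subAction (D.eisTors m) (D.gal_mem_eisTors m)
    (fun σ => ⟨σ • w - w, hκ σ⟩ : GQ → D.eisTors m) ∈ cocycles (G := GQ) (D.eisTors m) := by
  let := subAction (D.eisTors m) (D.gal_mem_eisTors m)
  obtain ⟨H, hH, hfix⟩ := D.isOpen w
  refine ⟨fun a b => Subtype.ext ?_, H, hH, fun a b hb => Subtype.ext ?_⟩
  · show (a * b) • w - w = a • w - w + a • (b • w - w)
    rw [mul_smul, smul_sub]; abel
  · show (a * b) • w - w = a • w - w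
    rw [mul_smul, hfix b hb]

/-- The Kummer cocycle is unramified away from `p` and `r`. -/
private theorem smul_sub_eq_zero_of_mem_unr {Ap Ar : ValuationSubring QBar} (m : ℕ) {w : J}
    (hκ : ∀ σ : GQ, σ • w - w ∈ D.eisTors m) {σ : GQ}
    (hσ : σ ∈ (galData p r Ap Ar).unr) : σ • w - w = 0 := by
  obtain ⟨q, A', hq, hqp, hqr, hA', hσ'⟩ := hσ
  exact D.eq_zero_of_mem q hq hqp A' hA' (r ^ m) _
    (fun hd => hqr ((Nat.prime_dvd_prime_iff_eq hq Fact.out).mp (hq.dvd_of_dvd_pow hd)))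
    (D.pow_smul_eisTors (hκ σ)) (D.inertia_sub_mem q hq hqp A' hA' σ hσ' w)

/-- The Eisenstein descent. -/
theorem exists_descent : ∃ C : ℕ, ∀ y : J, (∀ σ : GQ, σ • y = y) → ∀ m : ℕ,
    ∃ z : J, (∀ σ : GQ, σ • z = z) ∧ r ^ C • ((D.t₀ ^ r ^ m) • y) = r ^ m • z := by
  classical
  have hr : r.Prime := Fact.out
  obtain ⟨Ap, hAp⟩ := exists_liesOverPrime D.prime
  obtain ⟨Ar, hAr⟩ := exists_liesOverPrime hr
  obtain ⟨rN, rS, Cp, hNS, hS2, hatP⟩ := D.exists_atP hAp
  obtain ⟨e, hunit⟩ := D.exists_unit_multiple hAr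
  obtain ⟨CB, hCB⟩ := D.exists_index_bounds (Y := ⊥) bot_le
  obtain ⟨C0, hC0⟩ := D.exists_index_bounds (D.connLat_le Ar)
  obtain ⟨cG, hcG⟩ := D.exists_fixed_bound
  set g := D.eisRank with hg
  refine ⟨cG + CB + Cp + 1 + e, fun y hy m => ?_⟩
  let := subAction (D.eisTors m) (D.gal_mem_eisTors m)
  have : NeZero r := ⟨hr.ne_zero⟩
  obtain ⟨hfixIp, k, hk0, hkle, hkb⟩ := hatP m
  -- the Selmer bound: the order of the Selmer group times `k` is bounded independently of `m`
  obtain ⟨hsel0, hsel⟩ := descentBound_of_admissible (galData p r Ap Ar) baer_unitsBar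
    (cyclotomicHom r)
    (fun A _ _ _ A0 hcard hact hgood => descentBound_line D.prime D.ne hAp hAr hcard hgood hact)
    (D.eisTors m) (D.connSub Ar m) (D.isAdmissible_eisTors m) (D.isLocallyGood hAr m)
  set sel := selCard (galData p r Ap Ar) (D.connSub Ar m) with hseldef
  have hB : Nat.card (D.eisTors m) ≤ r ^ (m * (2 * g) + CB) := by
    have := (hCB m).2
    rwa [D.index_imTors_bot, finrank_bot, Nat.sub_zero] at this
  have hB0 : r ^ (m * g) ≤ (D.connSub Ar m).index := by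
    have := (hC0 m).1
    rwa [D.imTors_connLat, D.finrank_connLat hAr, show 2 * g - g = g by omega] at this
  have hprod : sel * k ≤ r ^ (cG + CB + Cp) := by
    have hchain : sel * r ^ (m * g) * r ^ (m * (2 * g - rN)) ≤
        r ^ cG * r ^ (m * (2 * g) + CB) :=
      (Nat.mul_le_mul (Nat.mul_le_mul le_rfl hB0) hfixIp).trans
        (hsel.trans (Nat.mul_le_mul (hcG m) hB))
    rw [mul_assoc, ← pow_add, ← pow_add] at hchain
    refine mul_le_pow_of_le hr.pos hchain hkle ?_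
    have h1 : m * (2 * g + (2 * g - rS)) ≤ m * (g + (2 * g - rN)) :=
      Nat.mul_le_mul_left m (by omega)
    rw [mul_add, mul_add] at h1
    omega
  -- the Kummer cocycle of `y`; a bounded multiple lies in the Selmer group
  obtain ⟨w₀, hw₀⟩ := D.exists_pow_smul_eq m y
  set t := D.t₀ ^ r ^ m with ht
  set w := t • w₀ with hw
  set ty := t • y with hty
  have hwy : r ^ m • w = ty := by
    rw [hw, hty, ← hw₀, SMulCommClass.smul_comm (r ^ m) t w₀]
  have hfixty : ∀ σ : GQ, σ • ty = ty := fun σ => by rw [hty, D.smul_comm, hy]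
  have hκ : ∀ σ : GQ, σ • w - w ∈ D.eisTors m := D.smul_sub_mem_eisTors_of_fixed m hy hw₀
  let c : GQ → D.eisTors m := fun σ => ⟨σ • w - w, hκ σ⟩
  set n := 2 * r ^ e with hn
  have hkc : k • c ∈ cocycles (G := GQ) (D.eisTors m) :=
    AddSubgroup.nsmul_mem _ (D.kummer_mem_cocycles m hκ) k
  obtain ⟨hmem, hchar⟩ := hunit m (k • c) hkc fun σ hσ => by
    show k • (σ • w - w) ∈ D.ker Ar
    exact AddSubgroup.nsmul_mem _ (D.inertia_sub_mem r hr D.ne Ar hAr σ hσ w) k
  have hselmer : n • (k • c) ∈ selmer (galData p r Ap Ar) (D.connSub Ar m) := by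
    refine ⟨AddSubgroup.nsmul_mem _ hkc n, fun σ hσ => Subtype.ext ?_, ?_, hmem, hchar⟩
    · show n • k • (σ • w - w) = 0
      rw [D.smul_sub_eq_zero_of_mem_unr m hκ hσ, smul_zero, smul_zero]
    · obtain ⟨b, hb, hb'⟩ := hkb w hκ
      refine ⟨n • ⟨b, hb⟩, fun σ hσ => Subtype.ext ?_⟩
      show n • k • (σ • w - w) = σ • (n • b) - n • b
      rw [hb' σ hσ, smul_sub, SMulCommClass.smul_comm σ n]
  obtain ⟨b, hb⟩ : sel • (n • (k • c)) ∈ (dB (G := GQ) (D.eisTors m)).range :=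
    AddSubgroup.nsmul_index_mem
      ((dB (G := GQ) (D.eisTors m)).range.addSubgroupOf
        (selmer (galData p r Ap Ar) (D.connSub Ar m)))
      ⟨_, hselmer⟩
  -- killed by `sel`, it gives a fixed `r ^ m`-th root of `N • ty`; then only the `r`-part of `N`
  -- remains
  set N := sel * (n * k) with hN
  obtain ⟨z₀, hz₀fix, hz₀y⟩ := exists_fixed_of_nsmul_eq_coboundary (N := N) (w := w)
    (D.pow_smul_eisTors b.2) fun σ => by
      have h : σ • (b : J) - b = sel • n • k • (σ • w - w) := congrArg Subtype.val (congrFun hb σ)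
      rwa [← mul_smul, ← mul_smul, mul_assoc, ← hN] at h
  rw [hwy] at hz₀y
  have hN0 : N ≠ 0 := Nat.mul_ne_zero hsel0
    (Nat.mul_ne_zero (Nat.mul_ne_zero two_ne_zero (pow_ne_zero _ hr.ne_zero)) hk0)
  refine exists_fixed_pow_smul_eq hN0 ?_ hfixty hz₀fix hz₀y
  calc N = sel * k * n := by rw [hN]; ring
    _ ≤ r ^ (cG + CB + Cp) * (r * r ^ e) :=
        Nat.mul_le_mul hprod (Nat.mul_le_mul hr.two_le le_rfl)
    _ = _ := by rw [← pow_succ', ← pow_add]; congr 1; omega

end EisensteinDatum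

end Fermat.Agent.Mazur.Eisenstein
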