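import Fermat.Agent.Mazur.Eisenstein.Datum
import Fermat.Agent.GaloisReps.Rep
import Fermat.Agent.GaloisReps.CoeffExt

/-!
# The determinant on an eigenplane of the Tate module is the cyclotomic character
-/

set_option autoImplicit false

noncomputable section

open Module Matrix
open Fermat.Agent.GaloisReps

namespace Fermat.Agent.Mazur.Eisenstein

variable {N r : ℕ} [NeZero N] [Fact r.Prime] (D : HeckeGaloisModel N r)

section Adic

variable {O : Type} [CommRing O] [IsDomain O] [IsDiscreteValuationRing O] [CharZero O]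
  (ι : ℤ_[r] →+* O) (θ : FullHecke N →+* O) (hp : (r : O) ∈ IsLocalRing.maximalIdeal O)

include hp in
theorem det_eigenAction_eq_chi (g : AbsGal) :
    LinearMap.det (D.eigenAction ι θ g) = ι (chi r g : ℤ_[r]) := by
  refine sub_eq_zero.mp (HeckeGaloisModel.eq_zero_of_forall_pow_dvd hp fun n => ?_)
  have hr : r.Prime := Fact.out
  have : NeZero (r ^ n) := ⟨pow_ne_zero _ hr.ne_zero⟩
  obtain ⟨ζ, hζ⟩ := exists_primitiveRoot (r ^ n)
  obtain ⟨L₁, hL₁, h₁⟩ := D.gal_continuous n
  have : FiniteDimensional ℚ (IntermediateField.adjoin ℚ {ζ}) :=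
    IntermediateField.adjoin.finiteDimensional (Algebra.IsIntegral.isIntegral ζ)
  obtain ⟨ℓ, hℓ, hℓS, A, hA, σ, hσ, i, hi⟩ :=
    frobeniusDensity (L₁ ⊔ IntermediateField.adjoin ℚ {ζ}) inferInstance g (N * r).primeFactors
  have hℓN : ¬ ℓ ∣ N * r := fun hdvd => hℓS (Nat.mem_primeFactors.mpr
    ⟨hℓ, hdvd, mul_ne_zero (NeZero.ne N) hr.ne_zero⟩)
  have hfix := inv_mul_fixes (fun x hx => (hi x hx).symm)
  have hdetσ : LinearMap.det (D.eigenAction ι θ σ) = (ℓ : O) := by
    have hc := D.charpoly_eigenAction_frobenius ι θ hp hℓ hℓN hA hσ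
    rw [LinearMap.det_eq_sign_charpoly_coeff, hc, D.finrank_eigenspace_domain θ]
    simp
  have h1 := D.det_congr ι θ (g := σ ^ i) (h := g)
    (h₁ _ fun x hx => hfix x (le_sup_left (b := IntermediateField.adjoin ℚ {ζ}) hx))
  rw [map_pow, map_pow, hdetσ] at h1
  have hgζ : g ζ = ζ ^ (ℓ ^ i) := by
    rw [hi ζ (le_sup_right (a := L₁) (IntermediateField.mem_adjoin_simple_self ℚ ζ))]
    exact pow_apply_root (Arith.frobenius_root hA hℓ hσ hζ.pow_eq_one fun hdvd =>
      hℓN (dvd_mul_of_dvd_right (hℓ.dvd_of_dvd_pow hdvd) N)) i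
  have hchi : PadicInt.toZModPow n (chi r g : ℤ_[r]) = ((ℓ ^ i : ℕ) : ZMod (r ^ n)) := by
    refine toZModPow_chi_eq g fun x hx => ?_
    obtain ⟨k, -, rfl⟩ := hζ.eq_pow_of_pow_eq_one hx
    rw [map_pow, hgζ, ← pow_mul, ← pow_mul, mul_comm]
  have h2 : (r : O) ^ n ∣ ι (chi r g : ℤ_[r]) - ((ℓ : O) ^ i) := by
    have hmem : (chi r g : ℤ_[r]) - ((ℓ ^ i : ℕ) : ℤ_[r]) ∈ Ideal.span {(r : ℤ_[r]) ^ n} := by
      rw [← PadicInt.ker_toZModPow, RingHom.mem_ker, map_sub, hchi, map_natCast, sub_self]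
    obtain ⟨z, hz⟩ := Ideal.mem_span_singleton'.mp hmem
    refine ⟨ι z, ?_⟩
    have := congrArg ι hz
    rw [map_mul, map_pow, map_natCast, map_sub, map_natCast, Nat.cast_pow] at this
    rw [← this, mul_comm]
  have h := dvd_sub h1 h2
  rwa [sub_sub_sub_cancel_right] at h

include hp in
/-- An adapted pair of vectors in an eigenplane over `Kr r`. -/
theorem exists_plane_pair_adic (f : O →+* Kr r) (hf : Function.Injective f)
    (hfι : f.comp ι = toK r) :
    ∃ b : Fin 2 → (Fin D.d → Kr r), LinearIndependent (Kr r) b ∧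
      (∀ j, b j ∈ eigenspace D.hecke (f.comp θ)) ∧
      ∀ g : AbsGal, ∃ G : Matrix (Fin 2) (Fin 2) (Kr r),
        (∀ j, (D.gal g).map (toK r) *ᵥ b j = ∑ k, G k j • b k) ∧
        G.det = toK r (chi r g : ℤ_[r]) := by
  classical
  set B := Module.finBasisOfFinrankEq O (eigenspace D.hecke θ) (D.finrank_eigenspace_domain θ)
  let b : Fin 2 → (Fin D.d → Kr r) := fun j k => f ((B j : Fin D.d → O) k)
  set E := FractionRing O
  let g₀ := algebraMap O E
  let F : E →+* Kr r := IsFractionRing.lift hf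
  have hF : ∀ x : O, F (g₀ x) = f x := fun x => IsFractionRing.lift_algebraMap hf x
  let L : (Fin D.d → O) →ₗ[O] (Fin D.d → E) :=
    { toFun := fun v i => g₀ (v i)
      map_add' := fun x y => funext fun i => map_add g₀ _ _
      map_smul' := fun c x => funext fun i => by simp [g₀, Algebra.smul_def] }
  have hLker : LinearMap.ker L = ⊥ :=
    LinearMap.ker_eq_bot.mpr fun x y h => funext fun i =>
      IsFractionRing.injective O E (congrFun h i)
  have hliE : LinearIndependent E fun a => L (B a : Fin D.d → O) := by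
    rw [← LinearIndependent.iff_fractionRing O E]
    exact ((B.linearIndependent.map' (eigenspace D.hecke θ).subtype
      (Submodule.ker_subtype _)).map' L hLker)
  have hli : LinearIndependent (Kr r) b := by
    have := linearIndependent_comp_fieldHom F hliE
    convert this using 1
    funext a i
    exact (hF _).symm
  refine ⟨b, hli, fun j => D.map_mem_eigenspace f θ (B j).2, fun g => ?_⟩
  let M := LinearMap.toMatrix B B (D.eigenAction ι θ g)
  refine ⟨M.map f, fun j => ?_, ?_⟩
  · have h := congrArg Subtype.val (B.sum_repr (D.eigenAction ι θ g (B j))).symm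
    rw [Submodule.coe_sum, HeckeGaloisModel.coe_eigenAction] at h
    funext k
    have hk := congrArg f (congrFun h k)
    simp only [Finset.sum_apply, map_sum, Pi.smul_apply, smul_eq_mul, map_mul,
      SetLike.val_smul] at hk ⊢
    simp only [M, Matrix.map_apply, LinearMap.toMatrix_apply]
    rw [← hk, RingHom.map_mulVec f _ _ k, Matrix.map_map, ← RingHom.coe_comp, hfι]
    rfl
  · rw [show M.map f = f.mapMatrix M from rfl, ← RingHom.map_det, LinearMap.det_toMatrix,
      det_eigenAction_eq_chi D ι θ hp, ← RingHom.comp_apply, hfι]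

end Adic

/-- The chosen map from the field of fractions of `ℤ_r` to `Kr r`. -/
def fracToKr (r : ℕ) [Fact r.Prime] : FractionRing ℤ_[r] →+* Kr r :=
  IsFractionRing.lift (g := toK r) toK_injective

/-- The chosen embedding of `ℚ̄` into `Kr r`. -/
def qbarToKr (r : ℕ) [Fact r.Prime] : AlgebraicClosure ℚ →+* Kr r :=
  haveI : CharZero (FractionRing ℤ_[r]) :=
    charZero_of_injective_algebraMap (IsFractionRing.injective ℤ_[r] (FractionRing ℤ_[r]))
  letI := (fracToKr r).toAlgebra
  (IsAlgClosed.lift : AlgebraicClosure (FractionRing ℤ_[r]) →ₐ[FractionRing ℤ_[r]]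
    Kr r).toRingHom.comp
    (IsAlgClosed.lift : AlgebraicClosure ℚ →ₐ[ℚ] AlgebraicClosure (FractionRing ℤ_[r])).toRingHom

/-- An adapted pair of vectors in every eigenplane over `Kr r`. -/
theorem exists_plane_pair (θ₀ : FullHecke N →+* AlgebraicClosure ℚ) :
    ∃ b : Fin 2 → (Fin D.d → Kr r), LinearIndependent (Kr r) b ∧
      (∀ j, b j ∈ eigenspace D.hecke ((qbarToKr r).comp θ₀)) ∧
      ∀ g : AbsGal, ∃ G : Matrix (Fin 2) (Fin 2) (Kr r),
        (∀ j, (D.gal g).map (toK r) *ᵥ b j = ∑ k, G k j • b k) ∧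
        G.det = toK r (chi r g : ℤ_[r]) := by
  have : CharZero (FractionRing ℤ_[r]) :=
    charZero_of_injective_algebraMap (IsFractionRing.injective ℤ_[r] (FractionRing ℤ_[r]))
  let := (fracToKr r).toAlgebra
  set f0 := (IsAlgClosed.lift :
    AlgebraicClosure (FractionRing ℤ_[r]) →ₐ[FractionRing ℤ_[r]] Kr r)
  set eA := (IsAlgClosed.lift : AlgebraicClosure ℚ →ₐ[ℚ] AlgebraicClosure (FractionRing ℤ_[r]))
  have : Module.Finite ℤ (FullHecke N) := IntegralStructure.heckeAlgebra_finite N 2 ∅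
  have : Finite (IsLocalRing.ResidueField ℤ_[r]) :=
    Finite.of_equiv (ZMod r) PadicInt.residueField.toEquiv.symm
  obtain ⟨O', i1, i2, i3, i4, i5, i6, i7, i8, i9, j, θ', hinj, hjinj, hcomm, hθ'⟩ :=
    exists_coeffExt ℤ_[r] (eA.toRingHom.comp θ₀)
  have hpO : (r : O') ∈ IsLocalRing.maximalIdeal O' := by
    rw [← map_natCast (algebraMap ℤ_[r] O') r]
    refine map_nonunit (algebraMap ℤ_[r] O') _ ?_
    rw [PadicInt.maximalIdeal_eq_span_p]
    exact Ideal.mem_span_singleton_self _
  have hcompat : (f0.toRingHom.comp j).comp (algebraMap ℤ_[r] O') = toK r := by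
    rw [RingHom.comp_assoc, hcomm]
    refine RingHom.ext fun x => ?_
    rw [RingHom.comp_apply,
      IsScalarTower.algebraMap_apply ℤ_[r] (FractionRing ℤ_[r])
      (AlgebraicClosure (FractionRing ℤ_[r]))]
    exact (f0.commutes _).trans (IsFractionRing.lift_algebraMap toK_injective x)
  obtain ⟨b, hb, hmem, hgal⟩ := exists_plane_pair_adic D (algebraMap ℤ_[r] O') θ' hpO
    (f0.toRingHom.comp j) (f0.toRingHom.injective.comp hjinj) hcompat
  refine ⟨b, hb, fun k => ?_, hgal⟩
  have e : (f0.toRingHom.comp j).comp θ' = (qbarToKr r).comp θ₀ := by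
    rw [RingHom.comp_assoc, hθ', ← RingHom.comp_assoc]
    rfl
  rw [← e]
  exact hmem k

end Fermat.Agent.Mazur.Eisenstein

end
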