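import Fermat.Agent.Newforms.Semisimple
import Fermat.Agent.GaloisReps.LatticeHecke
import Fermat.Agent.Patching.SmallLevel
import Fermat.Agent.Newforms.MainLemma

/-!
# Semisimplicity of the full Hecke algebra at prime level

At prime level there are no old forms of weight two, so the first coefficient separates the
eigenspaces of the operators away from the level and the full algebra is diagonalisable.
-/

set_option autoImplicit false

noncomputable section

open CongruenceSubgroup ModularFormClass
open Fermat.Agent.Newforms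

namespace Fermat.Agent.Mazur.Eisenstein

variable {N : ℕ} [hN : Fact N.Prime]

/-- A form of prime level and weight two whose coefficients prime to the level vanish is zero. -/
theorem eq_zero_of_coprime_coeff {f : CuspForm (Gamma0 N) 2}
    (hf : ∀ n : ℕ, n.Coprime N → qCoeff f n = 0) : f = 0 := by
  obtain ⟨g, hg⟩ := exists_eq_sum_levelRaise f hf
  rw [hg]
  refine Finset.sum_eq_zero fun q _ => ?_
  have hq : (q : ℕ) = N :=
    (Nat.prime_dvd_prime_iff_eq (Nat.prime_of_mem_primeFactors q.2) hN.out).mp
      (Nat.dvd_of_mem_primeFactors q.2)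
  have h1 : N / (q : ℕ) = 1 := by rw [hq, Nat.div_self hN.out.pos]
  have h0 : ∀ (M : ℕ), M = 1 → ∀ u : CuspForm (Gamma0 M) 2, u = 0 := by
    rintro M rfl u
    exact Patching.cuspForm_two_eq_zero_of_le_two 1 (by norm_num) u
  rw [h0 _ h1 (g q), map_zero]

theorem qCoeff_one_ne_zero {f : CuspForm (Gamma0 N) 2} (hf0 : f ≠ 0) {lam : ℕ → ℂ}
    (hf : ∀ l (hl : l.Prime), ¬ l ∣ N → hOp N hl f = lam l • f) : qCoeff f 1 ≠ 0 := by
  exact fun h1 => hf0 (eq_zero_of_coprime_coeff (qCoeff_eq_zero_of_coprime hf h1))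

/-- Multiplicity one at prime level. -/
theorem eq_smul_of_common_eigen {f g : CuspForm (Gamma0 N) 2} (hf0 : f ≠ 0) {lam : ℕ → ℂ}
    (hf : ∀ l (hl : l.Prime), ¬ l ∣ N → hOp N hl f = lam l • f)
    (hg : ∀ l (hl : l.Prime), ¬ l ∣ N → hOp N hl g = lam l • g) :
    g = (qCoeff g 1 / qCoeff f 1) • f := by
  set a := qCoeff g 1 / qCoeff f 1 with ha
  by_contra hne
  refine qCoeff_one_ne_zero (sub_ne_zero.mpr hne) (lam := lam) (fun l hl hlN => ?_) ?_
  · rw [map_sub, map_smul, hf l hl hlN, hg l hl hlN, smul_sub, smul_comm]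
  · have h := (coeffLin (N := N) (k := 2) 1).map_sub g (a • f)
    simp only [map_smul, coeffLin_apply, smul_eq_mul] at h
    rw [h, ha, div_mul_cancel₀ _ (qCoeff_one_ne_zero hf0 hf), sub_self]

/-- The weight two forms of prime level are spanned by eigenvectors of the full Hecke algebra. -/
theorem span_full_eigenvectors_eq_top :
    Submodule.span ℂ {f : CuspForm (Gamma0 N) 2 |
      ∃ θ : GaloisReps.FullHecke N →+* ℂ, f ∈ GaloisReps.formEigen θ} = ⊤ := by
  rw [eq_top_iff, ← span_eigenvectors_eq_top, Submodule.span_le]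
  intro f hf
  by_cases hf0 : f = 0
  · rw [hf0]; exact zero_mem _
  choose c hc using fun l (hl : l.Prime) (hlN : ¬ l ∣ N) => hf l hl hlN
  classical
  set lam : ℕ → ℂ := fun l => if h : l.Prime ∧ ¬ l ∣ N then c l h.1 h.2 else 0 with hlam
  have hfl : ∀ l (hl : l.Prime), ¬ l ∣ N → hOp N hl f = lam l • f := fun l hl hlN => by
    rw [hlam]
    simp only [dif_pos (And.intro hl hlN)]
    exact hc l hl hlN
  have h1 := qCoeff_one_ne_zero hf0 hfl
  have key : ∀ t : GaloisReps.FullHecke N, t.1 f = (qCoeff (t.1 f) 1 / qCoeff f 1) • f := by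
    intro t
    refine eq_smul_of_common_eigen hf0 hfl fun l hl hlN => ?_
    have hcomm : hOp N hl * t.1 = t.1 * hOp N hl := by
      rw [hOp_eq_heckeTLin hl hlN,
        ← CuspForm.heckeAlgebra.coe_T (S := ∅) hl hlN (Set.notMem_empty _),
        ← Subalgebra.coe_mul, ← Subalgebra.coe_mul, mul_comm]
    rw [← Module.End.mul_apply, hcomm, Module.End.mul_apply, hfl l hl hlN, map_smul]
  have e : ∀ {a b : ℂ}, a • f = b • f → a = b := fun h => smul_left_injective ℂ hf0 h
  refine Submodule.subset_span ⟨
    { toFun := fun t => qCoeff (t.1 f) 1 / qCoeff f 1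
      map_one' := div_self h1
      map_zero' := e (by rw [← key, zero_smul]; rfl)
      map_add' := fun s t => e (by rw [← key, add_smul, ← key, ← key]; rfl)
      map_mul' := fun s t => e (by
        rw [← key, mul_smul, ← key, ← map_smul, ← key, mul_comm s t]; rfl) },
    (GaloisReps.mem_formEigen _ f).mpr key⟩

end Fermat.Agent.Mazur.Eisenstein

end
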