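import Fermat.Agent.GaloisReps.EigenPlane
import Fermat.Agent.Mazur.Eisenstein.PrimeLevel

/-!
# The lattice of prime level over a field is the sum of the eigenplanes
-/

set_option autoImplicit false

noncomputable section

open Module Matrix
open Fermat.Agent.GaloisReps

namespace Fermat.Agent.Mazur.Eisenstein

section Generic

variable {A : Type*} [CommRing A] {d : ℕ} (h : A →+* Matrix (Fin d) (Fin d) ℤ) {K : Type*} [Field K]

/-- Eigenvectors of distinct characters are independent. -/
theorem eq_zero_of_sum_eigen {κ : Type*} [Fintype κ] {θ : κ → A →+* K} (hθ : Function.Injective θ)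
    {v : κ → Fin d → K} (hv : ∀ i, v i ∈ eigenspace h (θ i)) (hsum : ∑ i, v i = 0) (i : κ) :
    v i = 0 := by
  funext j
  have hli : LinearIndependent K fun i => ((θ i).toMonoidHom : A → K) :=
    (linearIndependent_monoidHom A K).comp (fun i => (θ i).toMonoidHom)
      fun a b hab => hθ (RingHom.ext fun x => DFunLike.congr_fun hab x)
  refine Fintype.linearIndependent_iff.mp hli (fun i => v i j) (funext fun a => ?_) i
  have hzero : (matIn h K a) *ᵥ (∑ i, v i) = 0 := by rw [hsum, mulVec_zero]
  rw [mulVec_sum] at hzero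
  have hj := congrFun hzero j
  rw [Finset.sum_apply, Pi.zero_apply] at hj
  rw [Finset.sum_apply, Pi.zero_apply, ← hj]
  refine Finset.sum_congr rfl fun i _ => ?_
  rw [(mem_eigenspace h _ _).mp (hv i) a, Pi.smul_apply, Pi.smul_apply, smul_eq_mul, smul_eq_mul,
    mul_comm]
  rfl

theorem linearIndependent_eigen {κ : Type*} [Fintype κ] {m : ℕ} {θ : κ → A →+* K}
    (hθ : Function.Injective θ) {b : κ → Fin m → Fin d → K}
    (hb : ∀ i, LinearIndependent K (b i)) (hmem : ∀ i j, b i j ∈ eigenspace h (θ i)) :
    LinearIndependent K fun x : κ × Fin m => b x.1 x.2 := by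
  rw [Fintype.linearIndependent_iff]
  intro c hc x
  rw [Fintype.sum_prod_type] at hc
  have h0 := eq_zero_of_sum_eigen h hθ
    (v := fun i => ∑ j, c (i, j) • b i j)
    (fun i => Submodule.sum_mem _ fun j _ => Submodule.smul_mem _ _ (hmem i j)) hc x.1
  exact Fintype.linearIndependent_iff.mp (hb x.1) (fun j => c (x.1, j)) h0 x.2

theorem card_le_of_planes {κ : Type*} [Fintype κ] {θ : κ → A →+* K} (hθ : Function.Injective θ)
    (hrank : ∀ i, finrank K (eigenspace h (θ i)) = 2) : 2 * Fintype.card κ ≤ d := by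
  let B : κ → Fin 2 → (Fin d → K) := fun i j => Submodule.subtype _
    (Module.finBasisOfFinrankEq K (eigenspace h (θ i)) (hrank i) j)
  have hB : ∀ i, LinearIndependent K (B i) := fun i =>
    (Module.finBasisOfFinrankEq K (eigenspace h (θ i)) (hrank i)).linearIndependent.map'
      (eigenspace h (θ i)).subtype (Submodule.ker_subtype _)
  have hBmem : ∀ i j, B i j ∈ eigenspace h (θ i) := fun i j => Submodule.coe_mem _
  have hli := linearIndependent_eigen h hθ hB hBmem
  have := hli.fintype_card_le_finrank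
  rwa [Fintype.card_prod, Fintype.card_fin, Module.finrank_fin_fun, mul_comm] at this

theorem finite_of_planes (hrank : ∀ θ : A →+* K, finrank K (eigenspace h θ) = 2) :
    Finite (A →+* K) := by
  classical
  by_contra hinf
  have : Infinite (A →+* K) := not_finite_iff_infinite.mp hinf
  obtain ⟨s, hs⟩ := Infinite.exists_subset_card_eq (A →+* K) (d + 1)
  have := card_le_of_planes h (θ := fun i : s => i.1) Subtype.val_injective fun i => hrank i.1
  rw [Fintype.card_coe, hs] at this
  omega

end Generic

section Prime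

variable {N : ℕ} [hN : Fact N.Prime] [NeZero N]

local notation "QB" => AlgebraicClosure ℚ

omit hN in
/-- Every character in characteristic zero takes algebraic values. -/
theorem exists_factor_qBar {L : Type} [Field L] (e : QB →+* L)
    (θ : FullHecke N →+* L) : ∃ θ₀ : FullHecke N →+* QB, e.comp θ₀ = θ := by
  have hr : ∀ t, θ t ∈ e.range := by
    intro t
    obtain ⟨q, hq, hq0⟩ := Algebra.IsIntegral.isIntegral (R := ℤ) t
    set q' := q.map (Int.castRingHom QB) with hq'
    have hsplit : q'.Splits := IsAlgClosed.splits q'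
    have hroot : (q'.map e).IsRoot (θ t) := by
      rw [Polynomial.IsRoot, hq', Polynomial.map_map, Polynomial.eval_map,
        RingHom.ext_int (e.comp (Int.castRingHom QB)) (θ.comp (algebraMap ℤ (FullHecke N))),
        ← Polynomial.hom_eval₂, hq0, map_zero]
    have hne : q'.map e ≠ 0 := Polynomial.map_ne_zero (hq.map _).ne_zero
    have hmem : θ t ∈ (q'.map e).roots := (Polynomial.mem_roots hne).mpr hroot
    rw [hsplit.roots_map e, Multiset.mem_map] at hmem
    obtain ⟨a, -, ha⟩ := hmem
    exact ⟨a, ha⟩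
  let g := (RingEquiv.ofBijective e.rangeRestrict
    ⟨fun a b hab => e.injective (congrArg Subtype.val hab), e.rangeRestrict_surjective⟩)
  refine ⟨g.symm.toRingHom.comp (θ.codRestrict e.range hr), RingHom.ext fun t => ?_⟩
  exact congrArg Subtype.val (g.apply_symm_apply ⟨θ t, hr t⟩)

/-- Over `ℂ` the eigenplanes span. -/
theorem iSup_eigenspace_eq_top :
    ⨆ θ : FullHecke N →+* ℂ, eigenspace (latticeMat N) θ = ⊤ := by
  set W := ⨆ θ : FullHecke N →+* ℂ, eigenspace (latticeMat N) θ
  let inl := LinearMap.inl ℂ (CuspForm (CongruenceSubgroup.Gamma0 N) 2)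
    (CuspForm (CongruenceSubgroup.Gamma0 N) 2)
  let inr := LinearMap.inr ℂ (CuspForm (CongruenceSubgroup.Gamma0 N) 2)
    (CuspForm (CongruenceSubgroup.Gamma0 N) 2)
  have hl : ⊤ ≤ W.comap ((periodCoord N).toLinearMap.comp inl) := by
    rw [← span_full_eigenvectors_eq_top (N := N), Submodule.span_le]
    rintro f ⟨θ, hf⟩
    exact Submodule.mem_iSup_of_mem θ ((periodCoord_mem_eigenspace θ f 0).mpr ⟨hf, zero_mem _⟩)
  have hr : ⊤ ≤ W.comap ((periodCoord N).toLinearMap.comp inr) := by
    rw [← span_full_eigenvectors_eq_top (N := N), Submodule.span_le]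
    rintro f ⟨θ, hf⟩
    exact Submodule.mem_iSup_of_mem θ ((periodCoord_mem_eigenspace θ 0 f).mpr ⟨zero_mem _, hf⟩)
  rw [eq_top_iff]
  intro v _
  obtain ⟨⟨f, g⟩, rfl⟩ := (periodCoord N).surjective v
  rw [show (f, g) = inl f + inr g by simp [inl, inr], map_add]
  exact add_mem (hl (Submodule.mem_top (x := f))) (hr (Submodule.mem_top (x := g)))

/-- There are finitely many systems of eigenvalues, half as many as the rank. -/
theorem exists_card_eigen
    (hrank : ∀ θ : FullHecke N →+* QB, finrank QB (eigenspace (latticeMat N) θ) = 2) :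
    Finite (FullHecke N →+* QB) ∧
      2 * Nat.card (FullHecke N →+* QB) = 2 * Gamma0.genus N := by
  classical
  have hfin : Finite (FullHecke N →+* QB) := finite_of_planes (latticeMat N) hrank
  have := Fintype.ofFinite (FullHecke N →+* QB)
  refine ⟨hfin, le_antisymm ?_ ?_⟩
  · rw [Nat.card_eq_fintype_card]
    exact card_le_of_planes (latticeMat N) (θ := id) Function.injective_id hrank
  have : Algebra.IsAlgebraic ℚ QB := AlgebraicClosure.isAlgebraic ℚ
  obtain ⟨e⟩ : Nonempty (QB →+* ℂ) := ⟨(IsAlgClosed.lift : QB →ₐ[ℚ] ℂ).toRingHom⟩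
  let B := fun θ : FullHecke N →+* QB => Module.finBasisOfFinrankEq ℂ _
    (finrank_eigenspace_latticeMat (e.comp θ))
  let vec : (FullHecke N →+* QB) × Fin 2 → (Fin (2 * Gamma0.genus N) → ℂ) :=
    fun x => (B x.1 x.2 : Fin (2 * Gamma0.genus N) → ℂ)
  have hspan : ⊤ ≤ Submodule.span ℂ (Set.range vec) := by
    rw [← iSup_eigenspace_eq_top (N := N), iSup_le_iff]
    intro θ v hv
    obtain ⟨θ₀, rfl⟩ := exists_factor_qBar e θ
    have := congrArg Subtype.val ((B θ₀).sum_repr ⟨v, hv⟩)
    rw [Submodule.coe_sum] at this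
    change v ∈ _
    rw [show v = _ from this.symm]
    exact Submodule.sum_mem _ fun j _ =>
      Submodule.smul_mem _ _ (Submodule.subset_span ⟨(θ₀, j), rfl⟩)
  have h := finrank_range_le_card (R := ℂ) vec
  rw [Set.finrank, top_le_iff.mp hspan, finrank_top, Module.finrank_fin_fun, Fintype.card_prod,
    Fintype.card_fin, mul_comm] at h
  rw [Nat.card_eq_fintype_card]
  omega

end Prime

end Fermat.Agent.Mazur.Eisenstein

end
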