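import Fermat.Agent.HeckeDuality.EisensteinIndex
import Fermat.Agent.Mazur.Eisenstein.Determinant
import Fermat.Agent.Mazur.Eisenstein.EigenBasis
import Fermat.Agent.Mazur.Eisenstein.HeckeCommute
import Fermat.Agent.Mazur.Eisenstein.Inputs
import Fermat.Agent.Mazur.Eisenstein.RedKernel
import Fermat.Agent.GaloisReps.Models
import Fermat.Prelude.Def_CuspForm_HeckeEvalForms

/-!
# The Eisenstein datum of `J₀(N)`, `N` prime

A rational Eisenstein class of order `r` gives the datum of the descent at `r`
(`exists_eisensteinDatum`).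
-/

set_option autoImplicit false

noncomputable section

open Module Matrix ModularCurve AlgebraicCurve
open Fermat.Agent.GaloisReps Fermat.Agent.Arith

namespace Fermat.Agent.Mazur.Eisenstein

variable (N : ℕ) [hN : Fact N.Prime] [NeZero N] (r : ℕ) [hr : Fact r.Prime]

/-! ## The torsion points and their actions -/

/-- The identifications of the `r`-power torsion of `J₀(N)`. -/
def torsIso : TorsionIso N r := torsionIso N r (conjProperty N)

/-- The integral matrix of a Hecke word. -/
def latMat : HeckeAlg →+*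
    Matrix (Fin (2 * Gamma0.genus N)) (Fin (2 * Gamma0.genus N)) ℤ :=
  (latticeMat N).comp (CuspForm.heckeEvalForms N 2)

omit hN in
theorem heckeEvalForms_gen (q : Nat.Primes) :
    CuspForm.heckeEvalForms N 2 (heckeGen q) = HeckeDuality.heckeOp N 2 q q.2 := by
  rw [CuspForm.heckeEvalForms_heckeGen]
  rfl

omit hN in
theorem latMat_gen (q : Nat.Primes) : latMat N (heckeGen q) = opMat N q q.2 := by
  rw [latMat, RingHom.comp_apply, heckeEvalForms_gen, latticeMat_heckeOp]

/-- The torsion points attached to coordinate vectors. -/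
def torsPoint (m : ℕ) : (Fin (2 * Gamma0.genus N) → ZMod (r ^ m)) →+ JZero N :=
  (JTors N r m).subtype.comp ((torsIso N r).psi m).symm.toAddMonoidHom

variable {N r}

omit hN in
theorem torsPoint_psi (m : ℕ) (x : JTors N r m) :
    torsPoint N r m ((torsIso N r).psi m x) = (x : JZero N) := by
  simp [torsPoint]

omit hN in
theorem torsPoint_injective (m : ℕ) : Function.Injective (torsPoint N r m) :=
  fun _ _ h => ((torsIso N r).psi m).symm.injective (Subtype.ext h)

omit hN in
theorem exists_torsPoint_eq (m : ℕ) (x : JZero N) (hx : r ^ m • x = 0) :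
    ∃ v, torsPoint N r m v = x :=
  ⟨_, torsPoint_psi m ⟨x, Pic0.mem_torsion.mpr (by rw [natCast_zsmul]; exact hx)⟩⟩

omit hN in
theorem torsPoint_compat (m : ℕ) (v : Fin (2 * Gamma0.genus N) → ℤ_[r]) :
    r • torsPoint N r (m + 1) (redVec r _ (m + 1) v) = torsPoint N r m (redVec r _ m v) := by
  set E := torsIso N r
  set x : JTors N r (m + 1) := (E.psi (m + 1)).symm (redVec r _ (m + 1) v) with hx
  have hmem : r • (x : JZero N) ∈ JTors N r m := by
    rw [Pic0.mem_torsion, ← Nat.cast_smul_eq_nsmul ℤ, smul_smul, ← Nat.cast_mul, ← pow_succ]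
    exact Pic0.mem_torsion.mp x.2
  have key : E.psi m ⟨_, hmem⟩ = redVec r _ m v := by
    funext i
    have h1 := congrArg (fun φ => coord N (ZMod (r ^ m)) φ i) (E.compat m x ⟨_, hmem⟩ rfl)
    have h2 : E.psi (m + 1) x = redVec r _ (m + 1) v := AddEquiv.apply_symm_apply _ _
    rw [E.psi_apply] at h2 ⊢
    refine h1.trans ?_
    rw [coord_apply, AddMonoidHom.comp_apply, ← coord_apply, h2]
    exact RingHom.congr_fun (cast_castRingHom (p := r) m) (v i)
  show r • (x : JZero N) = _
  rw [← key, torsPoint_psi]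

theorem redVec_mulVec {d : ℕ} (m : ℕ) (M : Matrix (Fin d) (Fin d) ℤ_[r]) (v : Fin d → ℤ_[r]) :
    redVec r d m (M *ᵥ v) = M.map (PadicInt.toZModPow m) *ᵥ redVec r d m v := by
  funext i
  exact RingHom.map_mulVec (PadicInt.toZModPow m) M v i

theorem map_intMat {d : ℕ} (m : ℕ) (M : Matrix (Fin d) (Fin d) ℤ) :
    (intMat r M).map (PadicInt.toZModPow m) = M.map (Int.castRingHom (ZMod (r ^ m))) :=
  map_intCast_toZModPow m M

omit hN in
theorem hecke_torsPoint (m : ℕ) (q : Nat.Primes)
    (w : Fin (2 * Gamma0.genus N) → ZMod (r ^ m)) :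
    heckeOperatorBar N q (torsPoint N r m w) =
      torsPoint N r m ((opMat N q q.2).map (Int.castRingHom (ZMod (r ^ m))) *ᵥ w) := by
  obtain ⟨x, rfl⟩ := ((torsIso N r).psi m).surjective w
  rw [torsPoint_psi, ← (torsIso N r).mat_heckeTors m q q.2, (torsIso N r).mat_mulVec, torsPoint_psi]
  rfl

theorem smul_torsPoint (t : HeckeAlg) (m : ℕ) :
    letI := heckeModuleBar N
    ∀ w : Fin (2 * Gamma0.genus N) → ZMod (r ^ m), t • torsPoint N r m w =
      torsPoint N r m ((latMat N t).map (Int.castRingHom (ZMod (r ^ m))) *ᵥ w) := by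
  let := heckeModuleBar N
  let H : HeckeAlg →+*
      Matrix (Fin (2 * Gamma0.genus N)) (Fin (2 * Gamma0.genus N)) (ZMod (r ^ m)) :=
    (Int.castRingHom (ZMod (r ^ m))).mapMatrix.comp (latMat N)
  show ∀ w, t • torsPoint N r m w = torsPoint N r m (H t *ᵥ w)
  induction t using MvPolynomial.induction_on with
  | C a =>
    intro w
    rw [heckeModuleBar_C_smul, ← RingHom.comp_apply H MvPolynomial.C, eq_intCast, ← zsmul_one,
      smul_mulVec, one_mulVec, map_zsmul]
  | add f g hf hg => intro w; rw [add_smul, hf, hg, map_add H, add_mulVec, map_add]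
  | mul_X f q hf =>
    intro w
    have hq : H (MvPolynomial.X q) = (opMat N q q.2).map (Int.castRingHom (ZMod (r ^ m))) := by
      rw [show (MvPolynomial.X q : HeckeAlg) = heckeGen q from rfl]
      simp only [H, RingHom.comp_apply, latMat_gen, RingHom.mapMatrix_apply]
    rw [mul_smul, show (MvPolynomial.X q : HeckeAlg) • torsPoint N r m w
      = heckeOperatorBar N q (torsPoint N r m w) from
        heckeModuleBar_heckeGen_smul (heckeOperatorsCommuteBar N) q _,
      hecke_torsPoint, hf, map_mul, ← mulVec_mulVec, hq]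

omit hN in
theorem galois_torsPoint (m : ℕ) (g : GQ) (v : Fin (2 * Gamma0.genus N) → ℤ_[r]) :
    g • torsPoint N r m (redVec r _ m v) =
      torsPoint N r m (redVec r _ m ((torsIso N r).gal g *ᵥ v)) := by
  rw [redVec_mulVec, (torsIso N r).map_gal]
  obtain ⟨x, hx⟩ := ((torsIso N r).psi m).surjective (redVec r _ m v)
  rw [← hx, torsPoint_psi, (torsIso N r).galLvl_mulVec, torsPoint_psi]
  rfl

variable (N r)

/-! ## The Eisenstein system -/

/-- The Eisenstein system extended from values at two places. -/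
def epsMod (ε : HeckeAlg →+* ℤ) : HeckeAlg →+* ℤ :=
  (MvPolynomial.aeval fun q : Nat.Primes =>
    if (q : ℕ) = N ∨ (q : ℕ) = r then ε (heckeGen q) else 1 + (q : ℤ)).toRingHom

omit hN [NeZero N] hr in
theorem epsMod_gen (ε : HeckeAlg →+* ℤ) (q : Nat.Primes) :
    epsMod N r ε (heckeGen q) =
      if (q : ℕ) = N ∨ (q : ℕ) = r then ε (heckeGen q) else 1 + (q : ℤ) :=
  MvPolynomial.aeval_X _ q

variable {N r}

theorem epsMod_congr (ε : HeckeAlg →+* ℤ)
    {c : JZero N} (hc : ∀ σ : GQ, σ • c = c)
    (hεc : ∀ t : HeckeAlg, (letI := heckeModuleBar N; t • c) = ε t • c)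
    (hord : addOrderOf c = r) (t : HeckeAlg) :
    (epsMod N r ε t : ZMod r) = (ε t : ZMod r) := by
  suffices h : (Int.castRingHom (ZMod r)).comp (epsMod N r ε) = (Int.castRingHom (ZMod r)).comp ε
    from RingHom.congr_fun h t
  refine MvPolynomial.ringHom_ext (fun a => ?_) fun q => ?_
  · rw [eq_intCast MvPolynomial.C a, map_intCast, map_intCast]
  rw [RingHom.comp_apply, RingHom.comp_apply, show (MvPolynomial.X q : HeckeAlg) =
    heckeGen q from rfl, epsMod_gen]
  split_ifs with h
  · rfl
  rw [not_or] at h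
  obtain ⟨A, hA⟩ := exists_liesOverPrime q.2
  obtain ⟨σ, hσ⟩ := exists_isFrobeniusAt hA q.2
  have hqN : ¬ (q : ℕ) ∣ N := fun hd => h.1 ((Nat.prime_dvd_prime_iff_eq q.2 hN.out).mp hd)
  have hqr : ¬ (q : ℕ) ∣ r := fun hd => h.2 ((Nat.prime_dvd_prime_iff_eq q.2 hr.out).mp hd)
  have hrc : r • c = 0 := by rw [← hord]; exact addOrderOf_nsmul_eq_zero c
  have hq0 := EichlerShimura.frobenius_smul_torsion (EichlerShimura.injectiveOnTorsion N) q.2 hqN hA
    hσ hqr hrc
  have hTc : heckeOperatorBar N (⟨(q : ℕ), q.2⟩ : Nat.Primes) c = ε (heckeGen q) • c := by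
    rw [← hεc, heckeModuleBar_heckeGen_smul (heckeOperatorsCommuteBar N)]
    rfl
  rw [hc, hc, hTc] at hq0
  have h0 : ((1 + (q : ℤ)) - ε (heckeGen q)) • c = 0 := by
    rw [sub_smul, add_smul, one_smul, natCast_zsmul]
    linear_combination (norm := abel) hq0
  rw [← addOrderOf_dvd_iff_zsmul_eq_zero, hord] at h0
  simp only [eq_intCast]
  exact ((ZMod.intCast_eq_intCast_iff_dvd_sub _ _ r).mpr h0).symm

omit [NeZero N] hr in
/-- A prime other than the level does not divide it. -/
private theorem not_dvd_level {q : ℕ} (hq : q.Prime) (hqN : q ≠ N) : ¬ q ∣ N :=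
  fun h => hqN ((Nat.prime_dvd_prime_iff_eq hq hN.out).mp h)

omit hN in
/-- A point of order `r` forces positive genus. -/
private theorem genus_pos_of_order {c : JZero N} (hcord : addOrderOf c = r) :
    0 < Gamma0.genus N := by
  by_contra hg
  obtain ⟨v, hv⟩ := exists_torsPoint_eq (r := r) 1 c
    (by rw [pow_one, ← hcord]; exact addOrderOf_nsmul_eq_zero c)
  have hc0 : c = 0 := by
    rw [← hv, show v = 0 from funext fun i => absurd i.2 (by omega), map_zero]
  exact hr.out.ne_one (by rw [← hcord, hc0, addOrderOf_zero])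

/-- The rational Tate module has a basis made of eigenplanes of distinct Hecke characters, stable
under Galois with the cyclotomic determinant. -/
private theorem exists_planeBasis (G : TorsionGalois N r) (hg : 0 < Gamma0.genus N) :
    ∃ (n : ℕ) (theta : Fin n → HeckeAlg →+* Kr r)
      (B : Basis (Fin n × Fin 2) (Kr r) (Fin (2 * Gamma0.genus N) → Kr r)),
      Function.Injective theta ∧
      (∀ (t : HeckeAlg) (x : Fin n × Fin 2),
        (latMat N t).map (Int.castRingHom (Kr r)) *ᵥ B x = theta x.1 t • B x) ∧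
      ∀ (g : GQ) (i : Fin n), ∃ G' : Matrix (Fin 2) (Fin 2) (Kr r),
        (∀ j, ((torsIso N r).gal g).map (toK r) *ᵥ B (i, j) = ∑ k, G' k j • B (i, k)) ∧
          G'.det = toK r (chi r g) := by
  set M := (torsIso N r).toModel G with hM
  obtain ⟨hfin, hcard⟩ := exists_card_eigen (N := N) fun θ => M.finrank_eigenspace θ
  set n := Nat.card (FullHecke N →+* QBar) with hn
  let idx : Fin n ≃ (FullHecke N →+* QBar) := (Finite.equivFin _).symm
  choose b hb hbmem hbgal using fun i : Fin n => exists_plane_pair M (idx i)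
  have hθinj : Function.Injective fun i : Fin n => (qbarToKr r).comp (idx i) := fun i j h =>
    idx.injective (RingHom.ext fun x => (qbarToKr r).injective (RingHom.congr_fun h x))
  have hli : LinearIndependent (Kr r) fun x : Fin n × Fin 2 => b x.1 x.2 :=
    linearIndependent_eigen M.hecke hθinj hb hbmem
  have : Nonempty (Fin n × Fin 2) := ⟨⟨⟨0, by omega⟩, 0⟩⟩
  let B : Basis (Fin n × Fin 2) (Kr r) (Fin (2 * Gamma0.genus N) → Kr r) :=
    basisOfLinearIndependentOfCardEqFinrank hli (by
      rw [Fintype.card_prod, Fintype.card_fin, Fintype.card_fin, Module.finrank_fin_fun, mul_comm,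
        hcard])
  have hB : ∀ x, B x = b x.1 x.2 := fun x =>
    congrFun (coe_basisOfLinearIndependentOfCardEqFinrank hli _) x
  refine ⟨n, fun i => ((qbarToKr r).comp (idx i)).comp (CuspForm.heckeEvalForms N 2), B,
    fun i j h => hθinj (RingHom.ext fun x => ?_), fun t x => ?_, fun g i => ?_⟩
  · obtain ⟨t, rfl⟩ := HeckeDuality.heckeEvalForms_surjective N 2 x
    exact RingHom.congr_fun h t
  · rw [hB]
    exact (mem_eigenspace M.hecke _ _).mp (hbmem x.1 x.2) _
  · obtain ⟨G', h1, h2⟩ := hbgal i g
    exact ⟨G', fun j => by simp only [hB]; exact h1 j, h2⟩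

/-- The class gives an eigenvector modulo `r` with the Eisenstein values. -/
private theorem exists_eigen_vector
    (ε : HeckeAlg →+* ℤ) {c : JZero N} (hc : ∀ σ : GQ, σ • c = c)
    (hεc : ∀ t : HeckeAlg, (letI := heckeModuleBar N; t • c) = ε t • c)
    (hcord : addOrderOf c = r) :
    ∃ v : Fin (2 * Gamma0.genus N) → ZMod r, v ≠ 0 ∧ ∀ t,
      (latMat N t).map (Int.castRingHom (ZMod r)) *ᵥ v = (epsMod N r ε t : ZMod r) • v := by
  let := heckeModuleBar N
  obtain ⟨v₁, hv₁⟩ := exists_torsPoint_eq (r := r) 1 c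
    (by rw [pow_one, ← hcord]; exact addOrderOf_nsmul_eq_zero c)
  let π : ZMod (r ^ 1) ≃+* ZMod r := ZMod.ringEquivCongr (pow_one r)
  refine ⟨fun i => π (v₁ i), fun h0 => hr.out.ne_one (by
    rw [← hcord, ← hv₁, show v₁ = 0 from funext fun i => π.injective (by
      rw [show π (v₁ i) = 0 from congrFun h0 i, Pi.zero_apply, map_zero]), map_zero,
      addOrderOf_zero]), fun t => ?_⟩
  have h1 := smul_torsPoint (r := r) t 1 v₁
  rw [hv₁, hεc t, ← hv₁, ← map_zsmul] at h1
  have h2 := (torsPoint_injective 1 h1).symm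
  funext i
  have h3 := congrArg π (congrFun h2 i)
  have h4 := RingHom.map_mulVec π.toRingHom
    ((latMat N t).map (Int.castRingHom (ZMod (r ^ 1)))) v₁ i
  have e : ((latMat N t).map (Int.castRingHom (ZMod (r ^ 1)))).map π.toRingHom =
      (latMat N t).map (Int.castRingHom (ZMod r)) := by
    ext a a'
    exact map_intCast π.toRingHom _
  rw [e] at h4
  refine Eq.trans h4.symm (h3.trans ?_)
  rw [Pi.smul_apply, Pi.smul_apply, smul_eq_mul, zsmul_eq_mul, map_mul, map_intCast,
    epsMod_congr ε hc hεc hcord t]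

/-- At an auxiliary prime the Frobenius satisfies the Hecke polynomial, and the Eisenstein system
takes the value `1 + q`. -/
private theorem exists_eps_frobenius (G : TorsionGalois N r) (ε : HeckeAlg →+* ℤ) {q : ℕ}
    (hq : q.Prime) (hqN : q ≠ N) (hqr : q ≠ r) {A : ValuationSubring QBar}
    (hA : A.LiesOverPrime q) {σ : GQ} (hσ : A.IsFrobeniusAt σ q) :
    ∃ t : HeckeAlg, epsMod N r ε t = 1 + q ∧
      (torsIso N r).gal σ * (torsIso N r).gal σ - intMat r (latMat N t) * (torsIso N r).gal σ +
        (q : ℤ_[r]) • 1 = 0 := by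
  refine ⟨heckeGen ⟨q, hq⟩, ?_, ?_⟩
  · exact (epsMod_gen N r ε _).trans (if_neg fun h => h.elim hqN hqr)
  · have hq' : ¬ q ∣ N * r := fun h => (hq.dvd_mul.mp h).elim (not_dvd_level hq hqN)
      (fun h => hqr ((Nat.prime_dvd_prime_iff_eq hq hr.out).mp h))
    rw [latMat, RingHom.comp_apply]
    rw [heckeEvalForms_gen N (⟨q, hq⟩ : Nat.Primes)]
    exact ((torsIso N r).toModel G).gal_frobenius q hq hq' A hA σ hσ

/-! ## The datum -/

/-- The datum of the Eisenstein descent on `J₀(N)` at `r`, from a rational Eisenstein class of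
order `r`. -/
theorem exists_eisensteinDatum (hN5 : 5 ≤ N) (hrN : r ≠ N)
    (hord : OrderProperty N)
    (hss : SemistableProperty N N) (ε : HeckeAlg →+* ℤ) {c : JZero N}
    (hc : ∀ σ : GQ, σ • c = c)
    (hεc : ∀ t : HeckeAlg, (letI := heckeModuleBar N; t • c) = ε t • c)
    (hcord : addOrderOf c = r) :
    letI := heckeModuleBar N
    ∃ D : EisensteinDatum N r (JZero N) HeckeAlg, D.eps = epsMod N r ε := by
  classical
  let := heckeModuleBar N
  have G : TorsionGalois N r := torsionGalois N r (eichlerShimuraCongruence N r)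
  -- The planes of the lattice, and an eigenvector from `c`.
  obtain ⟨n, theta, B, htheta, hBmat, hBgal⟩ :=
    exists_planeBasis (r := r) G (genus_pos_of_order hcord)
  obtain ⟨v₁, hv₁, hv₁t⟩ := exists_eigen_vector ε hc hεc hcord
  refine ⟨{
    prime := hN.out
    five_le := hN5
    ne := hrN
    smul_comm := fun g t x => galois_smul_hecke (N := N) g t x
    isOpen := fun x => by
      obtain ⟨L, hL, hfix⟩ := (MordellWeil.x0GalAct N).exists_field_fix x
      exact ⟨L.fixingSubgroup, L.fixingSubgroup_isOpen, fun σ hσ =>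
        hfix σ ((IntermediateField.mem_fixingSubgroup_iff _ _).mp hσ)⟩
    divisible := fun x => MordellWeil.jZero_exists_nsmul_eq N r hr.out.pos x
    -- The lattice with its Hecke and Galois actions.
    d := 2 * Gamma0.genus N
    mat := latMat N
    gal := (torsIso N r).gal
    gal_mat := fun g t => ((torsIso N r).toModel G).gal_comm g _
    ι := torsPoint N r
    ι_injective := torsPoint_injective
    exists_ι_eq := exists_torsPoint_eq
    ι_compat := torsPoint_compat
    ι_mat := fun m t v => by rw [smul_torsPoint, redVec_mulVec, map_intMat]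
    ι_gal := galois_torsPoint
    -- The kernels of reduction.
    ker := kerRed N
    inertia_sub_mem := fun q hq hqN A hA σ hσ x => by
      have := residueField_isAlgClosed A
      exact inertia_sub_mem_kerRed
        (EichlerShimura.natCast_ne_zero hq (not_dvd_level hq hqN) hA) hσ x
    eq_zero_of_mem := fun q hq hqN A hA m x hqm hmx hx =>
      eq_zero_of_mem_kerRed hq (not_dvd_level hq hqN) hA hqm hmx hx
    smul_mem := fun q hq hqN A hA σ hσ x hx => by
      have := residueField_isAlgClosed A
      exact smul_mem_kerRed (EichlerShimura.natCast_ne_zero hq (not_dvd_level hq hqN) hA) hσ hx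
    hecke_mem := fun _ _ _ _ _ t x hx => hecke_mem_kerRed t hx
    exists_bound := fun q hq hqN A hA => by
      have := residueField_isAlgClosed A
      exact exists_bound_kerRed
        (EichlerShimura.natCast_ne_zero hq (not_dvd_level hq hqN) hA) hq hA
    exists_order := fun A hA m => by
      obtain ⟨X, i1, i2, i3, i, O, h1, h2, h3, h4⟩ :=
        hord r hr.out (not_dvd_level hr.out hrN) A hA m
      exact ⟨X, i1, i2, i3, i, O, h1, h2, h3, fun f hf x hx =>
        h4 f hf x (reductionModL_eq_zero_of_mem hx)⟩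
    semistable := fun A hA σ hσ m x hx =>
      hss A hA σ hσ (r ^ m) x (fun hd => hrN ((Nat.prime_dvd_prime_iff_eq hN.out hr.out).mp
        (hN.out.dvd_of_dvd_pow hd)).symm) hx
    -- The Eisenstein character and its planes.
    eps := epsMod N r ε
    v₁ := v₁
    v₁_ne := hv₁
    mat_v₁ := hv₁t
    eps_frobenius := fun q hq hqN hqr A hA σ hσ =>
      exists_eps_frobenius G ε hq hqN hqr hA hσ
    n := n
    theta := theta
    theta_injective := htheta
    planeBasis := B
    mat_planeBasis := hBmat
    gal_planeBasis := hBgal }, rfl⟩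

end Fermat.Agent.Mazur.Eisenstein

end
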