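import Fermat.Agent.Mazur.Eisenstein.Assembly
import Fermat.Agent.Mazur.Eisenstein.TorsionDatum
import Fermat.Agent.Mazur.Eisenstein.Descent

/-!
# The Eisenstein descent on `J₀(p)`

`descentProperty`: a multiple of the eigenclass `c` of order `r` gives an `EisensteinDatum` on
`J₀(p)` (`TorsionDatum`), whose descent (`Descent`) is the one asked for by `DescentProperty`.
-/

set_option autoImplicit false

noncomputable section

open ModularCurve
open Fermat.Agent.Arith

namespace Fermat.Agent.Mazur.Eisenstein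

variable {N : ℕ} [hN : Fact N.Prime] [NeZero N]

theorem descentProperty (hN5 : 5 ≤ N) (hord : OrderProperty N) (hss : SemistableProperty N N) :
    DescentProperty N := by
  intro r hr c ε hc hεc hpos hrc hrN
  have : Fact r.Prime := ⟨hr⟩
  let := heckeModuleBar N
  obtain ⟨k, hk⟩ := hrc
  have hk0 : k ≠ 0 := fun h => by rw [h, mul_zero] at hk; omega
  have hord' : addOrderOf (k • c) = r := by
    rw [addOrderOf_nsmul_of_dvd hk0 ⟨r, by rw [hk, mul_comm]⟩, hk,
      Nat.mul_div_cancel r (Nat.pos_of_ne_zero hk0)]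
  have hkc : ∀ σ : GQ, σ • (k • c) = k • c := fun σ => by
    rw [EichlerShimura.galois_smul_nsmul, hc]
  have hεk : ∀ t : HeckeAlg, t • (k • c) = ε t • (k • c) := fun t => by
    rw [smul_comm t k c, hεc, smul_comm]
  obtain ⟨D, hD⟩ := exists_eisensteinDatum (r := r) hN5 hrN hord hss ε hkc hεk hord'
  obtain ⟨C, hC⟩ := D.exists_descent
  refine ⟨C, D.t₀, ?_, fun y hy m => hC y hy m⟩
  have h1 := D.eps_t₀
  rw [hD, epsMod_congr ε hkc hεk hord'] at h1
  exact (ZMod.intCast_eq_intCast_iff_dvd_sub 1 (ε D.t₀) r).mp (by rw [Int.cast_one]; exact h1.symm)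

end Fermat.Agent.Mazur.Eisenstein

end
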