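import Fermat.Agent.EichlerShimura.GlobalRed
import Fermat.Agent.RedTorsion.TraceVal
import Fermat.Agent.Arith.ResidueLift

/-!
# Values of functions on a residue disc of a place reduction

A function without zeros and poles in a residue disc has constant nonzero residual value there,
namely the value of its reduction at the reduced place.
-/

set_option autoImplicit false

noncomputable section

open IsLocalRing AlgebraicCurve ModularCurve
open scoped Classical

namespace Fermat.Agent.Mazur.Eisenstein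

open Fermat.Agent.FF Fermat.Agent.RedTorsion
open Fermat.Agent.EichlerShimura (hFb Kappa)

local notation "Qb" => AlgebraicClosure ℚ

/- The instances that resolve the algebra structures of the function fields in use, tried
first: the default order wastes seconds per query on unrelated candidates. -/
attribute [local instance high] SubalgebraClass.toAlgebra HahnSeries.powerSeriesAlgebra
  MvPowerSeries.instAlgebra Algebra.id

variable {N : ℕ} [NeZero N] {A : ValuationSubring Qb}

local notation "Fb" => modularFunctionFieldBar N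
local notation "Fk" => modularFunctionFieldFullC (Kappa A) N

variable [IsAlgClosed (Kappa A)] (hNA : (N : Kappa A) ≠ 0)
variable {r : Place Qb (modularFunctionFieldBar N) →
  Place (Kappa A) (modularFunctionFieldFullC (Kappa A) N)}

/-- A constant of `A` as an integral function. -/
def cS (a : A) : sint A Fb :=
  ⟨algebraMap Qb Fb (a : Qb), by
    show ((algebraMap Qb Fb (a : Qb) : Fb) : LaurentSeries Qb) ∈ serInt A
    exact algebraMap_mem_serInt a.2⟩

theorem redF_cS (a : A) :
    redF hFb hNA (cS (N := N) a) = algebraMap (Kappa A) Fk (residue A a) :=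
  Subtype.ext (by
    rw [coe_redF]
    exact serRed_algebraMap a.2)

theorem coe_ne_zero_of_redF {u : sint A Fb} (hu : redF hFb hNA u ≠ 0) : (u : Fb) ≠ 0 :=
  fun h => hu (by rw [show u = 0 from Subtype.ext h, map_zero])

/-- An integral function with nonzero reduction: the order of the reduction counts the zeros and
poles in the disc. -/
theorem ord_redF_eq (hr : IsPlaceReductionModL A N r) {u : sint A Fb}
    (hu : redF hFb hNA u ≠ 0) (Q : Place (Kappa A) Fk) :
    Q.ord (redF hFb hNA u) = Finsupp.mapDomain r (FF.div Qb (u : Fb)) Q := by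
  obtain ⟨y, hy⟩ := u.2
  have hy' : coeffMap A.subtype y = ((u : Fb) : LaurentSeries Qb) := hy
  have hr' : coeffMap (residue A) y = (redF hFb hNA u : LaurentSeries (Kappa A)) := by
    rw [coe_redF, ← serRed_coeffMap y ⟨y, rfl⟩]
    exact congrArg (serRed A) (Subtype.ext hy')
  have h := hr.2 y (hy' ▸ (u : Fb).2) (hr' ▸ (redF hFb hNA u).2)
    (fun h => hu (Subtype.ext (hr'.symm.trans h))) (FF.div Qb (u : Fb))
    (fun P => by rw [FF.div_apply]; exact congrArg P.ord (Subtype.ext hy'.symm)) Q
  rw [h]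
  exact congrArg Q.ord (Subtype.ext hr'.symm)

omit [NeZero N] [IsAlgClosed (Kappa A)] in
theorem mapDomain_apply_eq_sum (D : Divisor Qb Fb) (Q : Place (Kappa A) Fk) :
    Finsupp.mapDomain r D Q = ∑ P ∈ D.support.filter (fun P => r P = Q), D P := by
  rw [Finsupp.mapDomain, Finsupp.sum_apply, Finsupp.sum, Finset.sum_filter]
  exact Finset.sum_congr rfl fun P _ => by rw [Finsupp.single_apply]

omit [NeZero N] [IsAlgClosed (Kappa A)] in
/-- Positivity on a disc. -/
theorem one_le_mapDomain {D : Divisor Qb Fb} {Q : Place (Kappa A) Fk}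
    (h0 : ∀ P, r P = Q → 0 ≤ D P) {P : Place Qb Fb} (hP : r P = Q) (h1 : 1 ≤ D P) :
    1 ≤ Finsupp.mapDomain r D Q := by
  rw [mapDomain_apply_eq_sum]
  refine h1.trans (Finset.single_le_sum (f := fun P => D P)
    (fun P' hP' => h0 P' (Finset.mem_filter.mp hP').2) ?_)
  exact Finset.mem_filter.mpr ⟨Finsupp.mem_support_iff.mpr (by omega), hP⟩

omit [NeZero N] [IsAlgClosed (Kappa A)] in
theorem mapDomain_nonneg_apply {D : Divisor Qb Fb} {Q : Place (Kappa A) Fk}
    (h0 : ∀ P, r P = Q → 0 ≤ D P) : 0 ≤ Finsupp.mapDomain r D Q := by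
  rw [mapDomain_apply_eq_sum]
  exact Finset.sum_nonneg fun P hP => h0 P (Finset.mem_filter.mp hP).2

omit [NeZero N] [IsAlgClosed (Kappa A)] in
theorem mapDomain_congr_disc {D E : Divisor Qb Fb} {Q : Place (Kappa A) Fk}
    (h : ∀ P, r P = Q → D P = E P) :
    Finsupp.mapDomain r D Q = Finsupp.mapDomain r E Q := by
  have h0 : Finsupp.mapDomain r (D - E) Q = 0 := by
    rw [mapDomain_apply_eq_sum]
    refine Finset.sum_eq_zero fun P hP => ?_
    rw [Finsupp.sub_apply, h P (Finset.mem_filter.mp hP).2, sub_self]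
  rw [← Finsupp.mapDomain.addMonoidHom_apply, map_sub, Finsupp.mapDomain.addMonoidHom_apply,
    Finsupp.mapDomain.addMonoidHom_apply, Finsupp.sub_apply, sub_eq_zero] at h0
  exact h0

/-- Multiplying by a function regular on the disc and vanishing at one of its points raises the
order of the reduction. -/
theorem ord_redF_gain (hr : IsPlaceReductionModL A N r) {g w : sint A Fb}
    (hg : redF hFb hNA g ≠ 0) (hw : redF hFb hNA w ≠ 0) {e : Fb} (he : (g : Fb) = (w : Fb) * e)
    {Q : Place (Kappa A) Fk} (h0 : ∀ P, r P = Q → e ∈ ordGe P 0)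
    {P : Place Qb Fb} (hP : r P = Q) (h1 : e ∈ ordGe P 1) :
    Q.ord (redF hFb hNA w) + 1 ≤ Q.ord (redF hFb hNA g) := by
  have hg0 := coe_ne_zero_of_redF hNA hg
  have hw0 := coe_ne_zero_of_redF hNA hw
  have he0 : e ≠ 0 := fun h => hg0 (by rw [he, h, mul_zero])
  rw [ord_redF_eq hNA hr hg, ord_redF_eq hNA hr hw, he, FF.div_mul hw0 he0,
    Finsupp.mapDomain_add, Finsupp.add_apply]
  refine add_le_add le_rfl (one_le_mapDomain (fun P' hP' => ?_) hP ?_)
  · rw [FF.div_apply]; exact le_ord_of_mem_ordGe P' he0 (h0 P' hP')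
  · rw [FF.div_apply]; exact le_ord_of_mem_ordGe P he0 h1

/-- The value of a quotient of integral functions on a disc free of its zeros and poles. -/
theorem exists_value_disc (hr : IsPlaceReductionModL A N r)
    {u w : sint A Fb}
    (hu : redF hFb hNA u ≠ 0) (hw : redF hFb hNA w ≠ 0) {Q : Place (Kappa A) Fk}
    (hdisc : ∀ P, r P = Q → P.ord (u : Fb) = P.ord (w : Fb))
    {P : Place Qb Fb} (hP : r P = Q) :
    ∃ d : A, (u : Fb) / (w : Fb) - algebraMap Qb Fb (d : Qb) ∈ ordGe P 1 ∧
      redF hFb hNA u / redF hFb hNA w - algebraMap (Kappa A) Fk (residue A d) ∈ ordGe Q 1 ∧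
      residue A d ≠ 0 := by
  have hu0 := coe_ne_zero_of_redF hNA hu
  have hw0 := coe_ne_zero_of_redF hNA hw
  have hf0 : (u : Fb) / (w : Fb) ≠ 0 := div_ne_zero hu0 hw0
  have hford : ∀ P', r P' = Q → P'.ord ((u : Fb) / (w : Fb)) = 0 := fun P' hP' => by
    rw [FF.ord_div P' hu0 hw0, hdisc P' hP', sub_self]
  -- `c` is the value of `u / w` at `P`
  obtain ⟨c, hc⟩ := exists_sub_mem_ordGe_one P
    (mem_ordGe_of_le P (hford P hP).ge : (u : Fb) / (w : Fb) ∈ ordGe P 0)
  have hcA : ∀ P' : Place Qb Fb, algebraMap Qb Fb c ∈ ordGe P' 0 := fun P' =>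
    mem_ordGe_of_le P' (FF.ord_algebraMap P' c).ge
  have hQu : Q.ord (redF hFb hNA u) = Q.ord (redF hFb hNA w) := by
    rw [ord_redF_eq hNA hr hu, ord_redF_eq hNA hr hw]
    exact mapDomain_congr_disc fun P' hP' => by rw [FF.div_apply, FF.div_apply, hdisc P' hP']
  have hc0 : c ≠ 0 := by
    rintro rfl
    rw [map_zero, sub_zero] at hc
    have := le_ord_of_mem_ordGe P hf0 hc
    rw [hford P hP] at this
    omega
  by_cases hcm : c ∈ A
  swap
  · -- for nonintegral `c`, `u / c - w` reduces to `- red w` but vanishes to higher order than `w`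
    exfalso
    have hi : c⁻¹ ∈ A := (A.mem_or_inv_mem c).resolve_left hcm
    set g : sint A Fb := cS ⟨c⁻¹, hi⟩ * u - w with hg
    have hres : residue A ⟨c⁻¹, hi⟩ = 0 := by
      exact Arith.residue_inv_eq_zero hcm hi
    have hgr : redF hFb hNA g = -redF hFb hNA w := by
      rw [hg, map_sub, map_mul, redF_cS hNA, hres, map_zero, zero_mul, zero_sub]
    have h := ord_redF_gain hNA hr (g := g) (w := w)
      (by rw [hgr]; exact neg_ne_zero.mpr hw) hw
      (e := algebraMap Qb Fb c⁻¹ * ((u : Fb) / (w : Fb) - algebraMap Qb Fb c))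
      (by
        rw [mul_sub, ← map_mul, inv_mul_cancel₀ hc0, map_one, mul_sub, mul_one,
          mul_left_comm, mul_div_cancel₀ _ hw0]
        rfl)
      (fun P' hP' => by
        have := mul_mem_ordGe P' (mem_ordGe_of_le P' (FF.ord_algebraMap P' c⁻¹).ge)
          (sub_mem (mem_ordGe_of_le P' (hford P' hP').ge) (hcA P'))
        simpa using this)
      hP (by
        have := mul_mem_ordGe P (mem_ordGe_of_le P (FF.ord_algebraMap P c⁻¹).ge) hc
        simpa using this)
    rw [hgr, FF.ord_neg] at h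
    omega
  refine ⟨⟨c, hcm⟩, hc, ?_⟩
  set d : A := ⟨c, hcm⟩
  -- `u - c w` reduces to `0`, or to higher order than `w`: so `red u / red w` has value `c mod 𝔪`
  set g : sint A Fb := u - cS d * w with hg
  have hgr : redF hFb hNA g =
      redF hFb hNA u - algebraMap (Kappa A) Fk (residue A d) * redF hFb hNA w := by
    rw [hg, map_sub, map_mul, redF_cS hNA]
  by_cases hg0 : redF hFb hNA g = 0
  · rw [hgr, sub_eq_zero] at hg0
    refine ⟨?_, fun h => hu (by rw [hg0, h, map_zero, zero_mul])⟩
    rw [hg0, mul_div_assoc, div_self hw, mul_one, sub_self]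
    exact zero_mem _
  have h := ord_redF_gain hNA hr (g := g) (w := w) hg0 hw
    (e := (u : Fb) / (w : Fb) - algebraMap Qb Fb c)
    (by
      rw [mul_sub, mul_div_cancel₀ _ hw0, mul_comm (w : Fb)]
      rfl)
    (fun P' hP' => sub_mem (mem_ordGe_of_le P' (hford P' hP').ge) (hcA P')) hP hc
  refine ⟨?_, fun hd => ?_⟩
  · have e : redF hFb hNA u / redF hFb hNA w - algebraMap (Kappa A) Fk (residue A d)
        = redF hFb hNA g / redF hFb hNA w := by
      rw [hgr, sub_div, mul_div_assoc, div_self hw, mul_one]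
    rw [e]
    refine mem_ordGe_of_le Q ?_
    rw [FF.ord_div Q hg0 hw]
    omega
  · rw [hgr, hd, map_zero, zero_mul, sub_zero] at h
    omega

include hNA in
/-- An integral function without poles in a disc has integral values there. -/
theorem exists_value_of_regular (hr : IsPlaceReductionModL A N r)
    (u : sint A Fb) {Q : Place (Kappa A) Fk} (hdisc : ∀ P, r P = Q → (u : Fb) ∈ ordGe P 0)
    {P : Place Qb Fb} (hP : r P = Q) :
    ∃ d : A, (u : Fb) - algebraMap Qb Fb (d : Qb) ∈ ordGe P 1 := by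
  obtain ⟨c, hc⟩ := exists_sub_mem_ordGe_one P (hdisc P hP)
  by_cases hcm : c ∈ A
  · exact ⟨⟨c, hcm⟩, hc⟩
  exfalso
  have hc0 : c ≠ 0 := fun h => hcm (h ▸ A.zero_mem)
  have hi : c⁻¹ ∈ A := (A.mem_or_inv_mem c).resolve_left hcm
  set g : sint A Fb := cS ⟨c⁻¹, hi⟩ * u - 1 with hg
  have hres : residue A ⟨c⁻¹, hi⟩ = 0 := by
    exact Arith.residue_inv_eq_zero hcm hi
  have hgr : redF hFb hNA g = -1 := by
    rw [hg, map_sub, map_mul, redF_cS hNA, hres, map_zero, zero_mul, zero_sub, map_one]
  have h := ord_redF_gain hNA hr (g := g) (w := 1)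
    (by rw [hgr]; exact neg_ne_zero.mpr one_ne_zero) (by rw [map_one]; exact one_ne_zero)
    (e := algebraMap Qb Fb c⁻¹ * ((u : Fb) - algebraMap Qb Fb c))
    (by
      rw [OneMemClass.coe_one, one_mul, mul_sub, ← map_mul, inv_mul_cancel₀ hc0, map_one]
      rfl)
    (fun P' hP' => by
      have := mul_mem_ordGe P' (mem_ordGe_of_le P' (FF.ord_algebraMap P' c⁻¹).ge)
        (sub_mem (hdisc P' hP') (mem_ordGe_of_le P' (FF.ord_algebraMap P' c).ge))
      simpa using this)
    hP (by
      have := mul_mem_ordGe P (mem_ordGe_of_le P (FF.ord_algebraMap P c⁻¹).ge) hc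
      simpa using this)
  rw [hgr, FF.ord_neg, map_one] at h
  simp at h

/-- Every nonzero function is a constant times a quotient of integral functions with nonzero
reduction. -/
theorem exists_fraction {f : Fb} (hf : f ≠ 0) :
    ∃ (c : Qb) (u w : sint A Fb), c ≠ 0 ∧ redF hFb hNA u ≠ 0 ∧ redF hFb hNA w ≠ 0 ∧
      f = algebraMap Qb Fb c * ((u : Fb) / (w : Fb)) := by
  let _ := ratAlgebra (transcendental_jF (F := Fb) hFb)
  let _ := ratAlgebra (transcendental_jF (K := Kappa A) (N := N) (F := Fk) rfl)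
  have := EichlerShimura.isScalarTower_ratAlgebra (transcendental_jF (F := Fb) hFb)
  obtain ⟨c, hc, z, hfz, hz⟩ := (model hFb hNA).exists_scale' hf
  obtain ⟨u, w, hwr, hu, hred⟩ := EichlerShimura.exists_sint_frac hNA z
  have hur : redF hFb hNA u ≠ 0 := hred ▸ mul_ne_zero hz hwr
  refine ⟨c, u, w, hc, hur, hwr, ?_⟩
  rw [hu, mul_div_assoc, div_self (coe_ne_zero_of_redF hNA hwr), mul_one, hfz,
    ← RatFunc.algebraMap_eq_C, ← IsScalarTower.algebraMap_apply]

include hNA in
/-- A function without zeros and poles in a disc has values there of constant residual ratio. -/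
theorem exists_disc_values (hr : IsPlaceReductionModL A N r) {f : Fb}
    (hf : f ≠ 0) {Q : Place (Kappa A) Fk} (hdisc : ∀ P, r P = Q → P.ord f = 0)
    {P P' : Place Qb Fb} (hP : r P = Q) (hP' : r P' = Q) :
    ∃ (c : Qb) (d d' : A), c ≠ 0 ∧ f - algebraMap Qb Fb (c * (d : Qb)) ∈ ordGe P 1 ∧
      f - algebraMap Qb Fb (c * (d' : Qb)) ∈ ordGe P' 1 ∧
      residue A d = residue A d' ∧ residue A d ≠ 0 := by
  obtain ⟨c, u, w, hc, hu, hw, hfeq⟩ := exists_fraction hNA hf
  have hu0 := coe_ne_zero_of_redF hNA hu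
  have hw0 := coe_ne_zero_of_redF hNA hw
  have hdisc' : ∀ P, r P = Q → P.ord (u : Fb) = P.ord (w : Fb) := fun P hP => by
    have := hdisc P hP
    rw [hfeq, P.ord_mul ((_root_.map_ne_zero _).mpr hc) (div_ne_zero hu0 hw0), FF.ord_algebraMap,
      FF.ord_div P hu0 hw0] at this
    omega
  obtain ⟨d, hd, hdQ, hd0⟩ := exists_value_disc hNA hr hu hw hdisc' hP
  obtain ⟨d', hd', hdQ', -⟩ := exists_value_disc hNA hr hu hw hdisc' hP'
  have key : ∀ (P : Place Qb Fb) (d : A), (u : Fb) / (w : Fb) - algebraMap Qb Fb (d : Qb)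
      ∈ ordGe P 1 → algebraMap Qb Fb c * ((u : Fb) / (w : Fb)) -
        algebraMap Qb Fb (c * (d : Qb)) ∈ ordGe P 1 := fun P d h => by
    have := mul_mem_ordGe P (mem_ordGe_of_le P (FF.ord_algebraMap P c).ge) h
    rw [zero_add] at this
    rwa [map_mul, ← mul_sub]
  rw [hfeq]
  refine ⟨c, d, d', hc, key P d hd, key P' d' hd', ?_, hd0⟩
  have := sub_mem hdQ' hdQ
  rw [sub_sub_sub_cancel_left, ← map_sub] at this
  exact sub_eq_zero.mp ((algebraMap_mem_ordGe_one_iff Q).mp this)

end Fermat.Agent.Mazur.Eisenstein
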