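import Fermat.Agent.Mazur.Eisenstein.Assembly
import Fermat.Agent.Mazur.Eisenstein.Connected
import Fermat.Agent.Mazur.Eisenstein.CycInertia
import Fermat.Agent.Mazur.Eisenstein.GalData
import Fermat.Agent.Mazur.Eisenstein.Inputs

/-!
# Fixed points of odd prime order `r` do not reduce to zero at `r`

On points congruent to zero inertia at `r` acts through the cyclotomic character, which is not
trivial on the `r`-th roots of unity.
-/

set_option autoImplicit false

noncomputable section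

open Fermat.Agent.Arith

namespace Fermat.Agent.Mazur.Eisenstein

variable {N : ℕ} [NeZero N]

theorem fixedTorsionProperty (hN : N.Prime) (hord : OrderProperty N) : FixedTorsionProperty N := by
  intro r hr hr2 hrN A hA x hx hrx hker
  by_contra hx0
  have : Fact r.Prime := ⟨hr⟩
  obtain ⟨M, _, _, _, i, O, hinj, hequiv, hrange, hcong⟩ :=
    hord r hr (fun h => hrN ((Nat.prime_dvd_prime_iff_eq hr hN).mp h)) A hA 1
  obtain ⟨x₀, hx₀⟩ := hrange x (by rw [pow_one]; exact hrx)
  subst hx₀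
  have hfix : ∀ g : GQ, g • x₀ = x₀ := fun g => hinj (by rw [hequiv]; exact hx g)
  have hr0 : r • x₀ = 0 := hinj (by rw [map_nsmul, hrx, map_zero])
  -- The line of `x` is admissible with trivial character and congruent to zero at `r`.
  set S₀ := AddSubgroup.zmultiples x₀ with hS₀
  have hfixS : ∀ g : GQ, ∀ y ∈ S₀, g • y = y := by
    intro g y hy
    obtain ⟨k, rfl⟩ := AddSubgroup.mem_zmultiples_iff.mp hy
    exact (map_zsmul (DistribSMul.toAddMonoidHom M g) k x₀).trans (congrArg (k • ·) (hfix g))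
  have hkillS : ∀ y ∈ S₀, r • y = 0 := by
    intro y hy
    obtain ⟨k, rfl⟩ := AddSubgroup.mem_zmultiples_iff.mp hy
    rw [smul_comm, hr0, smul_zero]
  have hstab : ∀ g : A.inertiaSubgroupIn ℚ, ∀ y ∈ S₀, g • y ∈ S₀ := fun g y hy => by
    show (g : GQ) • y ∈ S₀
    rw [hfixS _ y hy]
    exact hy
  let χ : A.inertiaSubgroupIn ℚ →* (ZMod r)ˣ := 1
  have hadm : letI := subAction S₀ hstab; IsAdmissible S₀ r χ := by
    let := subAction S₀ hstab
    refine ⟨fun b => ⟨1, Subtype.ext (by rw [pow_one]; exact hkillS b b.2)⟩, fun g b => ⟨1, ?_⟩⟩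
    have hb : g • b = b := Subtype.ext (hfixS (g : GQ) b b.2)
    show pieceOp S₀ g _ b = 0
    simp [pieceOp, hb]
  have hcongS : ∀ f ∈ O.H, ∀ y ∈ S₀, f y - f 0 ∈ A.nonunits := by
    intro f hf y hy
    obtain ⟨k, rfl⟩ := AddSubgroup.mem_zmultiples_iff.mp hy
    refine hcong f hf _ ?_
    rw [map_zsmul]
    exact reductionModL_eq_zero_of_mem (zsmul_mem hker k)
  set e := Monoid.exponent (Multiplicative M) with he
  -- An inertia element inverting `r`-th roots of unity then multiplies `x` by the same exponent.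
  obtain ⟨σ, hσ, hinv⟩ := exists_inertia_inv hA hr 1
  set c := (cyclotomicHom e σ : ZMod e).val
  have hxne : x₀ ≠ 0 := fun h => hx0 (by rw [h, map_zero])
  have hcx : σ • x₀ = c • x₀ :=
    inertia_smul_of_congruent hA hr O χ S₀ hstab hadm hcongS hσ (c := c)
      (fun ζ hζ => apply_root_eq_pow_cyclotomicHom σ hζ) (AddSubgroup.mem_zmultiples x₀)
  rw [hfix] at hcx
  have hordx : addOrderOf x₀ = r :=
    addOrderOf_eq_prime hr0 hxne
  have hre : r ∣ e := by
    rw [he, ← hordx, ← orderOf_ofAdd_eq_addOrderOf]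
    exact Monoid.order_dvd_exponent _
  -- As it fixes `x`, the exponent is one, and `ζ ^ 2 = 1`.
  obtain ⟨ζ, hζ⟩ := HasEnoughRootsOfUnity.exists_primitiveRoot QBar r
  have h1 : σ ζ = ζ ^ c := apply_root_eq_pow_cyclotomicHom σ (by
    obtain ⟨k, hk⟩ := hre
    rw [hk, pow_mul, hζ.pow_eq_one, one_pow])
  have h2 : σ ζ = ζ⁻¹ := hinv ζ (by rw [pow_one]; exact hζ.pow_eq_one)
  have hc1 : c ≡ 1 [MOD r] := by
    rw [← hordx]
    exact nsmul_eq_nsmul_iff_modEq.mp (by rw [one_smul, ← hcx])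
  have h3 : ζ ^ c = ζ := by
    conv_rhs => rw [← pow_one ζ]
    rw [(hζ.isOfFinOrder hr.ne_zero).pow_eq_pow_iff_modEq, ← hζ.eq_orderOf]
    exact hc1
  have hne0 : ζ ≠ 0 := hζ.ne_zero hr.ne_zero
  have h4 : ζ * ζ = 1 := by
    conv_lhs => arg 1; rw [← h3, ← h1, h2]
    exact inv_mul_cancel₀ hne0
  exact hr2 ((Nat.prime_dvd_prime_iff_eq hr Nat.prime_two).mp
    (hζ.dvd_of_pow_eq_one 2 (by rw [pow_two, h4])))

end Fermat.Agent.Mazur.Eisenstein

end
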