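import Fermat.Agent.Mazur.Eisenstein.Assembly
import Fermat.Agent.Mazur.Eisenstein.DescentProof
import Fermat.Agent.Mazur.Eisenstein.FixedTorsion
import Fermat.Agent.Mazur.Large.Main

/-!
# Mazur's theorems from the arithmetic of `J₀(p)`

The results are `threePlaceLemma_of_inputs` (used for S09 and S12) and
`not_inZeroComponentAt_of_inputs` (used for S15). Both say that, for a prime
`p ∉ {2, 3, 5, 7, 13}`, a point of order `p` is on the same side of the identity component at
every multiplicative place `≠ p` as at `2` and at `3`. The argument: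

1. `JacobianInputs`: torsion is finite flat away from `p`, inertia at `p` acts semistably. It is
   proved as `jacobianInputs` in `Mazur/Eisenstein/InputsProved`, from `FiniteFlat` and
   `Semistable`.
2. The inputs, with the injectivity of reduction on torsion (`RedTorsion/InjTorsion`), give the
   Eisenstein descent `DescentProperty` on `J₀(p)` (`DescentProof`).
3. Finite flatness gives `FixedTorsionProperty`: a fixed point of odd prime order `r ≠ p` does not
   reduce to zero at `r` (`FixedTorsion`).
4. The line generated by the point defines a rational point of `X₀(p)` reducing to a cusp at each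
   multiplicative place, the cusp telling the component (`Mazur/Moduli/Main`). Its class minus
   that of a cusp would contradict the descent if two of the cusps differed (`component_eq_in`,
   `component_eq_out` in `Assembly`).

## References

* B. Mazur, *Modular curves and the Eisenstein ideal*, Publ. Math. IHÉS (1977).
* B. Mazur, *Rational isogenies of prime degree*, Invent. Math. (1978).

The Eisenstein quotient is replaced by an Eisenstein idempotent at one prime acting on the points
of `J₀(p)`; only those three properties and the descent are used.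
-/

set_option autoImplicit false

noncomputable section

namespace Fermat.Agent.Mazur.Eisenstein

/-! ## The inputs -/

/-- What the models of `J₀(p)` supply for a prime `p ∉ {2, 3, 5, 7, 13}`: finite flat torsion away
from `p` and semistable inertia at `p`. -/
def JacobianInputs : Prop :=
  ∀ (p : ℕ) [NeZero p], p.Prime → p ∉ ({2, 3, 5, 7, 13} : Finset ℕ) →
    OrderProperty p ∧ SemistableProperty p p

variable (h : JacobianInputs)

include h

/-! ## Descent and fixed torsion -/

/-- The Eisenstein descent from the inputs. -/
theorem descentProperty_of_inputs {p : ℕ} [NeZero p] (hp : p.Prime)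
    (hp' : p ∉ ({2, 3, 5, 7, 13} : Finset ℕ)) : DescentProperty p :=
  haveI := Fact.mk hp
  descentProperty (five_le_of_not_mem hp hp') (h p hp hp').1 (h p hp hp').2

/-- The property of fixed torsion from the inputs. -/
theorem fixedTorsionProperty_of_inputs {p : ℕ} [NeZero p] (hp : p.Prime)
    (hp' : p ∉ ({2, 3, 5, 7, 13} : Finset ℕ)) : FixedTorsionProperty p :=
  fixedTorsionProperty hp (h p hp hp').1

/-! ## The component lemmas -/

/-- **Mazur's three-place lemma**, from the inputs on `J₀(p)`: a stable subgroup of order `p` in the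
identity component at `2` and `3` is in it at every multiplicative place away from `p`. -/
theorem threePlaceLemma_of_inputs : Large.ThreePlaceLemma := by
  intro p hp hp' W hΔ T hT hstable h2Δ h2c h2 h3Δ h3c h3 l hl hlp hlΔ hlc A hA
  have := Fact.mk hp
  exact component_eq_in hp' (descentProperty_of_inputs h hp hp')
    (fixedTorsionProperty_of_inputs h hp hp') W hΔ T hT hstable h2Δ h2c h3Δ h3c hl hlp hlΔ hlc
    h2 h3 A hA

open scoped WeierstrassCurve.Affine in
/-- A rational point of order `p` off the identity component at `2` and `3` is off it at every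
multiplicative place away from `p`. -/
theorem not_inZeroComponentAt_of_inputs {p : ℕ} (hp : p.Prime)
    (hp' : p ∉ ({2, 3, 5, 7, 13} : Finset ℕ)) (W : WeierstrassCurve ℤ) (hΔ : W.Δ ≠ 0)
    (Q : ((W.map (Int.castRingHom ℚ))⁄(AlgebraicClosure ℚ)).Point)
    (hQfix : ∀ σ : AlgebraicClosure ℚ ≃ₐ[ℚ] AlgebraicClosure ℚ, σ • Q = Q)
    (hQord : addOrderOf Q = p)
    (h2Δ : (2 : ℤ) ∣ W.Δ) (h2c₄ : ¬ (2 : ℤ) ∣ W.c₄)
    (h2 : ∀ A : ValuationSubring (AlgebraicClosure ℚ), A.LiesOverPrime 2 →
      ¬ W.InZeroComponentAt A Q)
    (h3Δ : (3 : ℤ) ∣ W.Δ) (h3c₄ : ¬ (3 : ℤ) ∣ W.c₄)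
    (h3 : ∀ A : ValuationSubring (AlgebraicClosure ℚ), A.LiesOverPrime 3 →
      ¬ W.InZeroComponentAt A Q)
    {l : ℕ} (hl : l.Prime) (hlp : l ≠ p) (hlΔ : (l : ℤ) ∣ W.Δ) (hlc₄ : ¬ (l : ℤ) ∣ W.c₄)
    (A : ValuationSubring (AlgebraicClosure ℚ)) (hA : A.LiesOverPrime l) :
    ¬ W.InZeroComponentAt A Q := by
  have : NeZero p := ⟨hp.ne_zero⟩
  have := Fact.mk hp
  exact component_eq_out hp' (descentProperty_of_inputs h hp hp')
    (fixedTorsionProperty_of_inputs h hp hp') W hΔ Q hQord
    (fun σ => ⟨1, by rw [one_nsmul]; exact hQfix σ⟩) h2Δ h2c₄ h3Δ h3c₄ hl hlp hlΔ hlc₄ h2 h3 A hA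

end Fermat.Agent.Mazur.Eisenstein

end
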