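import Fermat.Agent.Mazur.Eisenstein.Padic

/-!
# Idempotents at a maximal ideal

The idempotent of the localisation of a finite commutative ring at a maximal ideal, and the lift
of an idempotent modulo `r` to `ℤ_r` matrices.
-/

set_option autoImplicit false

noncomputable section

namespace Fermat.Agent.Mazur.Eisenstein

theorem exists_pow_isIdempotentElem {R : Type*} [CommMonoid R] [Finite R] (x : R) :
    ∃ k : ℕ, 0 < k ∧ IsIdempotentElem (x ^ k) := by
  obtain ⟨a, b, hne, hab⟩ := Finite.exists_ne_map_eq_of_infinite fun n : ℕ => x ^ n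
  wlog hlt : a < b generalizing a b
  · exact this b a hne.symm hab.symm (lt_of_le_of_ne (not_lt.mp hlt) hne.symm)
  have hstep : ∀ t j : ℕ, a ≤ j → x ^ (j + t * (b - a)) = x ^ j := by
    intro t
    induction t with
    | zero => intro j _; simp
    | succ t ih =>
      intro j hj
      obtain ⟨i, rfl⟩ := Nat.exists_eq_add_of_le hj
      rw [show a + i + (t + 1) * (b - a) = (b + i) + t * (b - a) by
        rw [Nat.succ_mul]; omega, ih (b + i) (by omega)]
      rw [pow_add, pow_add, show x ^ b = x ^ a from hab.symm]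
  refine ⟨(a + 1) * (b - a), Nat.mul_pos (by omega) (by omega), ?_⟩
  show x ^ _ * x ^ _ = x ^ _
  rw [← pow_add]
  refine hstep (a + 1) _ ?_
  calc a ≤ (a + 1) * 1 := by omega
    _ ≤ _ := Nat.mul_le_mul_left _ (by omega)

/-- The idempotent of the factor of a finite commutative ring at a point. -/
theorem exists_idempotent_at {R : Type*} [CommRing R] [Finite R] {k : Type*} [Field k]
    (e : R →+* k) : ∃ i : R, IsIdempotentElem i ∧ e i = 1 ∧
      ∀ y : R, e y = 0 → IsNilpotent (y * i) := by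
  classical
  have := Fintype.ofFinite R
  choose n hn0 hn using fun x : R => exists_pow_isIdempotentElem x
  set S := (Finset.univ : Finset R).filter fun x => e x ≠ 0 with hS
  set i := ∏ x ∈ S, x ^ n x with hi
  have hidem : IsIdempotentElem i := by
    show i * i = i
    rw [hi, ← Finset.prod_mul_distrib]
    exact Finset.prod_congr rfl fun x _ => hn x
  refine ⟨i, hidem, ?_, fun y hy => ⟨n y, ?_⟩⟩
  · have hne : e i ≠ 0 := by
      rw [hi, map_prod]
      exact Finset.prod_ne_zero_iff.mpr fun x hx => by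
        rw [map_pow]
        exact pow_ne_zero _ (Finset.mem_filter.mp hx).2
    have h := congrArg e (show i * i = i from hidem)
    rw [map_mul] at h
    exact mul_left_cancel₀ hne (h.trans (mul_one _).symm)
  · set f := y ^ n y with hf
    have hf0 : e f = 0 := by rw [hf, map_pow, hy, zero_pow (hn0 y).ne']
    have hmem : 1 - f ∈ S := Finset.mem_filter.mpr
      ⟨Finset.mem_univ _, by rw [map_sub, map_one, hf0, sub_zero]; exact one_ne_zero⟩
    have hfi : f * i = 0 := by
      rw [hi, ← Finset.mul_prod_erase _ _ hmem, ← mul_assoc, (hn y).one_sub.pow_eq (hn0 _).ne',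
        (hn y).mul_one_sub_self, zero_mul]
    rw [mul_pow, (hidem).pow_eq (hn0 y).ne', hfi]

section Matrix

variable {d : ℕ} {r : ℕ} [Fact r.Prime]

/-- `X ≡ Y` modulo `r ^ n`, entrywise. -/
def MatModEq (n : ℕ) (X Y : Matrix (Fin d) (Fin d) ℤ_[r]) : Prop :=
  ∃ Z : Matrix (Fin d) (Fin d) ℤ_[r], X - Y = (r : ℤ_[r]) ^ n • Z

theorem MatModEq.mono {m n : ℕ} (h : m ≤ n) {X Y : Matrix (Fin d) (Fin d) ℤ_[r]}
    (hXY : MatModEq n X Y) : MatModEq m X Y := by
  obtain ⟨Z, hZ⟩ := hXY
  obtain ⟨j, rfl⟩ := Nat.exists_eq_add_of_le h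
  exact ⟨(r : ℤ_[r]) ^ j • Z, by rw [hZ, smul_smul, pow_add]⟩

theorem matModEq_of_map_eq {n : ℕ} {X Y : Matrix (Fin d) (Fin d) ℤ_[r]}
    (h : X.map (PadicInt.toZModPow n) = Y.map (PadicInt.toZModPow n)) : MatModEq n X Y := by
  have hd : ∀ i j, ∃ z, (X - Y) i j = (r : ℤ_[r]) ^ n * z := fun i j => by
    have h2 : PadicInt.toZModPow n ((X - Y) i j) = 0 := by
      have := congrFun (congrFun h i) j
      simp only [Matrix.map_apply] at this
      simp [this]
    rw [← RingHom.mem_ker, PadicInt.ker_toZModPow, Ideal.mem_span_singleton] at h2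
    exact h2
  choose Z hZ using hd
  exact ⟨Z, Matrix.ext fun i j => hZ i j⟩

theorem MatModEq.pow_prime {n : ℕ} (hn : 0 < n) {X Y : Matrix (Fin d) (Fin d) ℤ_[r]}
    (hc : Commute X Y) (h : MatModEq n X Y) : MatModEq (n + 1) (X ^ r) (Y ^ r) := by
  obtain ⟨Z, hZ⟩ := h
  obtain ⟨j, rfl⟩ : ∃ j, n = j + 1 := ⟨n - 1, by omega⟩
  rw [MatModEq, ← hc.geom_sum₂_mul r, hZ]
  set G := ∑ i ∈ Finset.range r, X ^ i * Y ^ (r - 1 - i) with hG
  have hGr : ∃ W, G = (r : ℤ_[r]) • W := by
    have hi : ∀ i, ∃ W, X ^ i = Y ^ i + (r : ℤ_[r]) • W := by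
      intro i
      induction i with
      | zero => exact ⟨0, by simp⟩
      | succ i ih =>
        obtain ⟨W, hW⟩ := ih
        refine ⟨W * X + (r : ℤ_[r]) ^ j • (Y ^ i * Z), ?_⟩
        have hX : X = Y + (r : ℤ_[r]) ^ (j + 1) • Z := eq_add_of_sub_eq' hZ
        rw [pow_succ, hW, add_mul, smul_add, Matrix.smul_mul, smul_smul, ← pow_succ',
          pow_succ Y, add_comm ((r : ℤ_[r]) • (W * X))]
        conv_lhs => arg 1; rw [hX]
        rw [mul_add, Matrix.mul_smul, add_assoc]
    choose W hW using hi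
    refine ⟨Y ^ (r - 1) + ∑ i ∈ Finset.range r, W i * Y ^ (r - 1 - i), ?_⟩
    rw [hG, smul_add, Finset.smul_sum]
    have e : ∀ i ∈ Finset.range r, X ^ i * Y ^ (r - 1 - i) =
        Y ^ (r - 1) + (r : ℤ_[r]) • (W i * Y ^ (r - 1 - i)) := fun i hi => by
      rw [hW, add_mul, Matrix.smul_mul, ← pow_add]
      congr 2
      have := Finset.mem_range.mp hi
      omega
    rw [Finset.sum_congr rfl e, Finset.sum_add_distrib, Finset.sum_const, Finset.card_range,
      ← Nat.cast_smul_eq_nsmul ℤ_[r]]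
  obtain ⟨W, hW⟩ := hGr
  exact ⟨W * Z, by rw [hW, Matrix.smul_mul, Matrix.mul_smul, smul_smul, ← pow_succ']⟩

/-- An idempotent modulo `r` lifts to an idempotent commuting with the commutant. -/
theorem exists_idempotent_lift {X : Matrix (Fin d) (Fin d) ℤ_[r]} (h : MatModEq 1 (X * X) X) :
    ∃ E : Matrix (Fin d) (Fin d) ℤ_[r], E * E = E ∧
      (∀ m : ℕ, MatModEq (m + 1) E (X ^ r ^ m)) ∧ ∀ Y, Y * X = X * Y → Y * E = E * Y := by
  -- `X ^ r ^ m` is idempotent modulo `r ^ (m + 1)` and the sequence is Cauchy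
  have hstep : ∀ m, MatModEq (m + 1) (X ^ r ^ m * X ^ r ^ m) (X ^ r ^ m) := by
    intro m
    induction m with
    | zero => simpa using h
    | succ m ih =>
      have := ih.pow_prime (Nat.succ_pos m) ((Commute.refl _).mul_left (Commute.refl _))
      rw [← pow_add, ← pow_mul, ← pow_mul, add_mul, ← pow_succ, pow_add] at this
      exact this
  have hpow : ∀ m k, MatModEq (m + 1) ((X ^ r ^ m) ^ (k + 1)) (X ^ r ^ m) := by
    intro m k
    induction k with
    | zero => exact ⟨0, by simp⟩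
    | succ k ih =>
      obtain ⟨Z, hZ⟩ := ih
      obtain ⟨W, hW⟩ := hstep m
      refine ⟨Z * X ^ r ^ m + W, ?_⟩
      rw [smul_add, ← Matrix.smul_mul, ← hZ, ← hW, sub_mul, ← pow_succ]
      abel
  have hcomp : ∀ m, MatModEq (m + 1) (X ^ r ^ (m + 1)) (X ^ r ^ m) := by
    intro m
    have := hpow m (r - 1)
    rwa [← pow_mul, Nat.sub_add_cancel (Fact.out : r.Prime).one_le, ← pow_succ] at this
  have hcomp' : ∀ m n, m ≤ n → MatModEq (m + 1) (X ^ r ^ n) (X ^ r ^ m) := by
    intro m n hmn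
    induction n, hmn using Nat.le_induction with
    | base => exact ⟨0, by simp⟩
    | succ n hn ih =>
      obtain ⟨Z, hZ⟩ := (hcomp n).mono (show m + 1 ≤ n + 1 by omega)
      obtain ⟨W, hW⟩ := ih
      exact ⟨Z + W, by rw [smul_add, ← hZ, ← hW]; abel⟩
  -- its limit, entry by entry
  have hlim : ∀ i j, ∃ L : ℤ_[r], ∀ n, (r : ℤ_[r]) ^ n ∣ (X ^ r ^ n) i j - L := by
    intro i j
    obtain ⟨L, hL⟩ := IsPrecomplete.prec' (I := IsLocalRing.maximalIdeal ℤ_[r])
      (M := ℤ_[r]) (fun n => (X ^ r ^ n) i j) (fun {m n} hmn => by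
        obtain ⟨Z, hZ⟩ := (hcomp' m n hmn).mono (Nat.le_succ m)
        rw [SModEq.sub_mem, smul_eq_mul, Ideal.mul_top, PadicInt.maximalIdeal_eq_span_p,
          Ideal.span_singleton_pow, Ideal.mem_span_singleton]
        refine ⟨-Z i j, ?_⟩
        have := congrFun (congrFun hZ i) j
        simp only [Matrix.sub_apply, Matrix.smul_apply, smul_eq_mul] at this
        linear_combination -this)
    refine ⟨L, fun n => ?_⟩
    have := hL n
    rwa [SModEq.sub_mem, smul_eq_mul, Ideal.mul_top, PadicInt.maximalIdeal_eq_span_p,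
      Ideal.span_singleton_pow, Ideal.mem_span_singleton] at this
  choose E hE using hlim
  set E' : Matrix (Fin d) (Fin d) ℤ_[r] := Matrix.of E
  have hEX : ∀ m, MatModEq (m + 1) E' (X ^ r ^ m) := by
    intro m
    obtain ⟨W, hW⟩ := hcomp m
    choose Z hZ using fun i j => hE i j (m + 1)
    refine ⟨W - Matrix.of Z, ?_⟩
    rw [smul_sub, ← hW]
    ext i j
    have := hZ i j
    simp only [E', Matrix.sub_apply, Matrix.smul_apply, Matrix.of_apply, smul_eq_mul] at this ⊢
    linear_combination -this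
  -- identities modulo every power hold exactly
  have hzero : ∀ V : Matrix (Fin d) (Fin d) ℤ_[r], (∀ m : ℕ, MatModEq (m + 1) V 0) → V = 0 := by
    intro V hV
    have := mem_of_forall_mem_sup (⊥ : Submodule ℤ_[r] (Matrix (Fin d) (Fin d) ℤ_[r])) (v := V)
      fun m => by
        obtain ⟨Z, hZ⟩ := (hV m).mono (Nat.le_succ m)
        exact ⟨Z, by rw [Submodule.mem_bot, ← hZ, sub_zero, sub_self]⟩
    exact (Submodule.mem_bot _).mp this
  refine ⟨E', sub_eq_zero.mp (hzero _ fun m => ?_), hEX, fun Y hY =>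
    sub_eq_zero.mp (hzero _ fun m => ?_)⟩
  · obtain ⟨Z, hZ⟩ := hEX m
    obtain ⟨W, hW⟩ := hstep m
    refine ⟨Z * E' + X ^ r ^ m * Z + W - Z, ?_⟩
    rw [sub_zero, smul_sub, smul_add, smul_add, ← Matrix.smul_mul, ← Matrix.mul_smul, ← hZ, ← hW,
      sub_mul, mul_sub]
    abel
  · obtain ⟨Z, hZ⟩ := hEX m
    refine ⟨Y * Z - Z * Y, ?_⟩
    have hc : Y * X ^ r ^ m = X ^ r ^ m * Y := (Commute.pow_right hY _)
    rw [sub_zero, smul_sub, ← Matrix.mul_smul, ← Matrix.smul_mul, ← hZ, mul_sub, sub_mul, hc]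
    abel

end Matrix

end Fermat.Agent.Mazur.Eisenstein
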