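import Fermat.Agent.Mazur.Eisenstein.Final
import Fermat.Agent.FiniteFlat.OrderProperty
import Fermat.Agent.Semistable.Main

/-!
# The arithmetic of `J₀(p)` needed for Mazur's theorems

`jacobianInputs`: for every prime `p ∉ {2, 3, 5, 7, 13}` the two properties of `JacobianInputs`
hold, from `FiniteFlat` (finite flat torsion) and `Semistable` (semistable action of inertia at
`p`). It is used for S09, S12 and S15.
-/

set_option autoImplicit false

noncomputable section

namespace Fermat.Agent.Mazur.Eisenstein

/-- `J₀(p)` supplies the inputs of the Eisenstein argument: Galois orders away from `p` and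
semistable inertia at `p`. -/
theorem jacobianInputs : JacobianInputs := fun p _ hp _ =>
  ⟨FiniteFlat.orderProperty p,
    Semistable.semistableProperty hp dvd_rfl fun h => by
      have := Nat.le_of_dvd hp.pos h
      have h2 := hp.two_le
      nlinarith⟩

end Fermat.Agent.Mazur.Eisenstein
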