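import Fermat.Agent.Mazur.Eisenstein.Datum
import Fermat.Agent.Mazur.Eisenstein.Kummer
import Mathlib.Topology.MetricSpace.ProperSpace
import Mathlib.NumberTheory.Padics.ProperSpace

/-!
# Valuation classes of twisted cocycles

The valuation classes of cocycles on inertia with values in the roots of unity of `r`-power
order, as a homomorphism.
-/

set_option autoImplicit false

noncomputable section

namespace Fermat.Agent.Mazur.Eisenstein

open Fermat.Agent.Arith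
open scoped Pointwise

variable {r : ℕ} [Fact r.Prime]

theorem exists_zetaSeq (r : ℕ) [Fact r.Prime] :
    ∃ ζ : ℕ → QBar, (∀ m, IsPrimitiveRoot (ζ m) (r ^ m)) ∧ ∀ m, ζ (m + 1) ^ r = ζ m := by
  have hr : r.Prime := Fact.out
  have : NeZero r := ⟨hr.ne_zero⟩
  obtain ⟨z, hz⟩ := HasEnoughRootsOfUnity.exists_primitiveRoot QBar r
  choose root hroot using fun x : QBar => IsAlgClosed.exists_pow_nat_eq x hr.pos
  let ζ : ℕ → QBar := fun m => Nat.rec 1 (fun k x => if k = 0 then z else root x) m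
  have hpow : ∀ m, ζ (m + 1) ^ r = ζ m := fun m => by
    show (if m = 0 then z else root (ζ m)) ^ r = ζ m
    by_cases h : m = 0
    · subst h; rw [if_pos rfl, hz.pow_eq_one]; rfl
    · rw [if_neg h, hroot]
  refine ⟨ζ, fun m => ?_, hpow⟩
  induction m with
  | zero => rw [pow_zero]; exact IsPrimitiveRoot.one
  | succ m ih =>
    by_cases h : m = 0
    · subst h; rw [zero_add, pow_one]; exact hz
    refine IsPrimitiveRoot.iff_orderOf.mpr (orderOf_eq_prime_pow (fun h1 => ?_)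
      (by rw [pow_succ', pow_mul, hpow, ih.pow_eq_one]))
    obtain ⟨k, rfl⟩ : ∃ k, m = k + 1 := ⟨m - 1, by omega⟩
    rw [pow_succ', pow_mul, hpow] at h1
    have h2 := Nat.le_of_dvd (pow_pos hr.pos _) (ih.dvd_of_pow_eq_one _ h1)
    have h3 : r ^ k < r ^ (k + 1) := Nat.pow_lt_pow_right hr.one_lt (Nat.lt_succ_self k)
    omega

/-- A compatible system of roots of unity. -/
def zetaSeq (r : ℕ) [Fact r.Prime] (m : ℕ) : QBar := (exists_zetaSeq r).choose m

theorem zetaSeq_isPrimitiveRoot (m : ℕ) : IsPrimitiveRoot (zetaSeq r m) (r ^ m) :=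
  (exists_zetaSeq r).choose_spec.1 m

theorem zetaSeq_succ (m : ℕ) : zetaSeq r (m + 1) ^ r = zetaSeq r m :=
  (exists_zetaSeq r).choose_spec.2 m

/-- A class modulo `r ^ m` as a root of unity. -/
def zexp (m : ℕ) (a : ZMod (r ^ m)) : QBar := zetaSeq r m ^ a.val

theorem zexp_natCast (m k : ℕ) : zexp m (k : ZMod (r ^ m)) = zetaSeq r m ^ k := by
  rw [zexp, ZMod.val_natCast, ← pow_mod_orderOf (zetaSeq r m) k,
    (zetaSeq_isPrimitiveRoot m).eq_orderOf.symm]

theorem zexp_add (m : ℕ) (a b : ZMod (r ^ m)) : zexp m (a + b) = zexp m a * zexp m b := by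
  conv_lhs => rw [← ZMod.natCast_zmod_val a, ← ZMod.natCast_zmod_val b, ← Nat.cast_add]
  rw [zexp_natCast, pow_add, zexp, zexp]

theorem zexp_ne_zero (m : ℕ) (a : ZMod (r ^ m)) : zexp m a ≠ 0 :=
  pow_ne_zero _ ((zetaSeq_isPrimitiveRoot m).ne_zero (NeZero.ne _))

theorem zexp_pow_eq_one (m : ℕ) (a : ZMod (r ^ m)) : zexp m a ^ r ^ m = 1 := by
  rw [zexp, ← pow_mul, mul_comm, pow_mul, (zetaSeq_isPrimitiveRoot m).pow_eq_one, one_pow]

theorem exists_zexp_eq (m : ℕ) {x : QBar} (hx : x ^ r ^ m = 1) :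
    ∃ a : ZMod (r ^ m), zexp m a = x := by
  obtain ⟨i, -, hi⟩ := (zetaSeq_isPrimitiveRoot (r := r) m).eq_pow_of_pow_eq_one hx
  exact ⟨i, by rw [zexp_natCast, hi]⟩

/-- The cyclotomic character modulo `r ^ m`. -/
def chiMod (r : ℕ) [Fact r.Prime] (m : ℕ) (g : GQ) : ZMod (r ^ m) :=
  PadicInt.toZModPow m (chi r g : ℤ_[r])

theorem chiMod_mul (m : ℕ) (g h : GQ) : chiMod r m (g * h) = chiMod r m g * chiMod r m h := by
  rw [chiMod, map_mul, Units.val_mul, map_mul]; rfl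

theorem chiMod_conj (m : ℕ) (φ g : GQ) : chiMod r m (φ * g * φ⁻¹) = chiMod r m g := by
  simp only [chiMod, map_mul, map_inv, mul_comm (chi r φ), mul_inv_cancel_right]

theorem apply_zexp (g : GQ) (m : ℕ) (a : ZMod (r ^ m)) :
    g (zexp m a) = zexp m (chiMod r m g * a) := by
  rw [zexp, map_pow, chi_spec g (zetaSeq_isPrimitiveRoot m).pow_eq_one, ← pow_mul, ← zexp_natCast,
    Nat.cast_mul, ZMod.natCast_zmod_val, ZMod.natCast_zmod_val]
  rfl

/-- Twisted cocycles on a subgroup with values modulo `r ^ m`. -/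
def kummerCoc (I : Subgroup GQ) (m : ℕ) : AddSubgroup (GQ → ZMod (r ^ m)) where
  carrier := {a | (∀ g ∈ I, ∀ h ∈ I, a (g * h) = a g + chiMod r m g * a h) ∧
    ∃ L : IntermediateField ℚ QBar, FiniteDimensional ℚ L ∧
      ∀ g ∈ I, ∀ g' ∈ I, (∀ x ∈ L, g x = g' x) → a g = a g'}
  zero_mem' := ⟨fun g _ h _ => by simp, ⊥, inferInstance, fun g _ g' _ _ => rfl⟩
  add_mem' := by
    rintro a b ⟨ha, L, hL, haL⟩ ⟨hb, L', hL', hbL⟩
    refine ⟨fun g hg h hh => by simp only [Pi.add_apply, ha g hg h hh, hb g hg h hh]; ring,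
      L ⊔ L', inferInstance, fun g hg g' hg' hx => ?_⟩
    rw [Pi.add_apply, Pi.add_apply, haL g hg g' hg' fun x hxL => hx x ((le_sup_left : L ≤ _) hxL),
      hbL g hg g' hg' fun x hxL => hx x ((le_sup_right : L' ≤ _) hxL)]
  neg_mem' := by
    rintro a ⟨ha, L, hL, haL⟩
    refine ⟨fun g hg h hh => by simp only [Pi.neg_apply, ha g hg h hh]; ring, L, hL,
      fun g hg g' hg' hx => by rw [Pi.neg_apply, Pi.neg_apply, haL g hg g' hg' hx]⟩

variable {A : ValuationSubring QBar} (hA : A.LiesOverPrime r) {m : ℕ}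

local notation "Ir" => ValuationSubring.inertiaSubgroupIn ℚ A

/-- The valuation class of a twisted cocycle. -/
def kv (A : ValuationSubring QBar) (m : ℕ) (a : GQ → ZMod (r ^ m)) : ZMod (r ^ m) :=
  kummerVal A r (r ^ m) (A.inertiaSubgroupIn ℚ) fun g => zexp m (a g)

theorem exists_root {a : GQ → ZMod (r ^ m)} (ha : a ∈ kummerCoc Ir m) :
    ∃ y : QBar, y ≠ 0 ∧ ∀ g ∈ Ir, g y = zexp m (a g) * y := by
  obtain ⟨hcoc, L, hL, hfac⟩ := ha
  exact exists_coboundary Ir (fun g => zexp m (a g)) L (fun g _ => zexp_ne_zero m _)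
    (fun g hg h hh => by rw [hcoc g hg h hh, zexp_add, apply_zexp])
    (fun g hg g' hg' hx => by rw [hfac g hg g' hg' hx])

include hA

theorem kv_eq {a : GQ → ZMod (r ^ m)} {y : QBar} {k : ℤ} (hy : y ≠ 0)
    (hgy : ∀ g ∈ Ir, g y = zexp m (a g) * y) (hk : ((r ^ m : ℕ) : ℚ) * ordAt A r y = k) :
    kv A m a = k :=
  kummerVal_eq hA (Fact.out : r.Prime) (fun _ _ => zexp_ne_zero m _) hy hgy hk

theorem exists_kv {a : GQ → ZMod (r ^ m)} (ha : a ∈ kummerCoc Ir m) :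
    ∃ (y : QBar) (k : ℤ), y ≠ 0 ∧ (∀ g ∈ Ir, g y = zexp m (a g) * y) ∧
      ((r ^ m : ℕ) : ℚ) * ordAt A r y = k := by
  obtain ⟨y, hy, hgy⟩ := exists_root ha
  obtain ⟨k, hk⟩ := exists_int_of_coboundary hA (Fact.out : r.Prime)
    (fun g _ => zexp_pow_eq_one m (a g)) hy hgy
  exact ⟨y, k, hy, hgy, hk⟩

/-- The valuation class is additive. -/
theorem kv_add {a b : GQ → ZMod (r ^ m)} (ha : a ∈ kummerCoc Ir m) (hb : b ∈ kummerCoc Ir m) :
    kv A m (a + b) = kv A m a + kv A m b := by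
  obtain ⟨y, k, hy, hgy, hk⟩ := exists_kv hA ha
  obtain ⟨z, l, hz, hgz, hl⟩ := exists_kv hA hb
  rw [kv_eq hA hy hgy hk, kv_eq hA hz hgz hl, ← Int.cast_add]
  refine kv_eq hA (mul_ne_zero hy hz) (fun g hg => ?_) ?_
  · rw [map_mul, hgy g hg, hgz g hg, Pi.add_apply, zexp_add]; ring
  · rw [ordAt_mul hA (Fact.out : r.Prime) hy hz, mul_add, hk, hl]; push_cast; rfl

/-- The valuation class depends only on the cocycle on inertia. -/
theorem kv_congr {a b : GQ → ZMod (r ^ m)} (ha : a ∈ kummerCoc Ir m)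
    (h : ∀ g ∈ Ir, a g = b g) : kv A m a = kv A m b := by
  obtain ⟨y, k, hy, hgy, hk⟩ := exists_kv hA ha
  rw [kv_eq hA hy hgy hk, kv_eq hA hy (fun g hg => by rw [← h g hg, hgy g hg]) hk]

/-- The valuation class as a homomorphism. -/
def kvHom : kummerCoc (r := r) Ir m →+ ZMod (r ^ m) :=
  AddMonoidHom.mk' (fun a => kv A m (a : GQ → ZMod (r ^ m))) fun a b => kv_add hA a.2 b.2

theorem kv_smul (c : ZMod (r ^ m)) {a : GQ → ZMod (r ^ m)} (ha : a ∈ kummerCoc Ir m) :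
    (c • a) ∈ kummerCoc Ir m ∧ kv A m (c • a) = c * kv A m a := by
  have e : c • a = c.val • a := funext fun g => by
    rw [Pi.smul_apply, Pi.smul_apply, smul_eq_mul, nsmul_eq_mul, ZMod.natCast_zmod_val]
  refine ⟨e ▸ nsmul_mem ha _, ?_⟩
  rw [e]
  have := map_nsmul (kvHom hA) c.val (⟨a, ha⟩ : kummerCoc (r := r) Ir m)
  exact this.trans (by rw [nsmul_eq_mul, ZMod.natCast_zmod_val]; rfl)

theorem kv_sum {ι : Type*} (s : Finset ι) {a : ι → GQ → ZMod (r ^ m)}
    (ha : ∀ i ∈ s, a i ∈ kummerCoc Ir m) : kv A m (∑ i ∈ s, a i) = ∑ i ∈ s, kv A m (a i) := by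
  classical
  induction s using Finset.induction_on with
  | empty =>
    simp only [Finset.sum_empty]
    exact map_zero (kvHom (m := m) hA)
  | insert i s hi ih =>
    rw [Finset.sum_insert hi, Finset.sum_insert hi, kv_add hA (ha i (Finset.mem_insert_self i s))
      (AddSubgroup.sum_mem _ fun j hj => ha j (Finset.mem_insert_of_mem hj)),
      ih fun j hj => ha j (Finset.mem_insert_of_mem hj)]

theorem kv_coboundary {a : GQ → ZMod (r ^ m)} (c : ZMod (r ^ m))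
    (h : ∀ g ∈ Ir, a g = chiMod r m g * c - c) : kv A m a = 0 := by
  refine (kv_eq hA (k := 0) (zexp_ne_zero m c) (fun g hg => ?_) ?_).trans Int.cast_zero
  · rw [apply_zexp, h g hg, ← zexp_add, sub_add_cancel]
  · rw [ordAt_root_of_unity hA (Fact.out : r.Prime) (NeZero.ne (r ^ m)) (zexp_pow_eq_one m c),
      mul_zero, Int.cast_zero]

/-- Conjugation by `φ` multiplies the valuation class by the cyclotomic character. -/
theorem kv_conj {φ : GQ} (hφ : φ • A = A) {a : GQ → ZMod (r ^ m)} (ha : a ∈ kummerCoc Ir m) :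
    (fun g => a (φ * g * φ⁻¹)) ∈ kummerCoc Ir m ∧
      kv A m (fun g => a (φ * g * φ⁻¹)) = chiMod r m φ * kv A m a := by
  have hmem : ∀ g ∈ Ir, φ * g * φ⁻¹ ∈ Ir := fun g hg => by
    have := (mem_inertia_smul_iff (g := φ)).mpr hg
    rwa [hφ] at this
  have hconj : (fun g => a (φ * g * φ⁻¹)) ∈ kummerCoc Ir m := by
    obtain ⟨hcoc, L, hL, hfac⟩ := id ha
    refine ⟨fun g hg h hh => ?_, L.map (φ⁻¹ : GQ).toAlgHom, inferInstance,
      fun g hg g' hg' hx => hfac _ (hmem g hg) _ (hmem g' hg') fun x hxL => ?_⟩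
    · show a (φ * (g * h) * φ⁻¹) = _
      rw [show φ * (g * h) * φ⁻¹ = φ * g * φ⁻¹ * (φ * h * φ⁻¹) by group,
        hcoc _ (hmem g hg) _ (hmem h hh), chiMod_conj]
    · rw [AlgEquiv.mul_apply, AlgEquiv.mul_apply, AlgEquiv.mul_apply, AlgEquiv.mul_apply]
      exact congrArg φ (hx ((φ⁻¹ : GQ) x) ⟨x, hxL, rfl⟩)
  refine ⟨hconj, ?_⟩
  obtain ⟨y, k, hy, hgy, hk⟩ := exists_kv hA ha
  have h1 : kv A m (chiMod r m φ⁻¹ • fun g => a (φ * g * φ⁻¹)) = k := by
    refine kv_eq hA (y := (φ⁻¹ : GQ) y) ((map_ne_zero_iff _ (φ⁻¹ : GQ).injective).mpr hy)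
      (fun g hg => ?_) ?_
    · rw [Pi.smul_apply, smul_eq_mul, ← apply_zexp, ← map_mul, ← hgy _ (hmem g hg),
        AlgEquiv.mul_apply, AlgEquiv.mul_apply, ← AlgEquiv.mul_apply φ⁻¹ φ, inv_mul_cancel,
        AlgEquiv.one_apply]
    · rw [ordAt_smul hA (Fact.out : r.Prime) (inv_smul_eq_iff.mpr hφ.symm) hy, hk]
  rw [(kv_smul hA _ hconj).2] at h1
  rw [kv_eq hA hy hgy hk, ← h1, ← mul_assoc, ← chiMod_mul, mul_inv_cancel]
  simp [chiMod]

theorem kv_cast {a : GQ → ZMod (r ^ (m + 1))} (ha : a ∈ kummerCoc Ir (m + 1)) :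
    kv A m (fun g => ZMod.castHom (pow_dvd_pow r (Nat.le_succ m)) (ZMod (r ^ m)) (a g)) =
      ZMod.castHom (pow_dvd_pow r (Nat.le_succ m)) (ZMod (r ^ m)) (kv A (m + 1) a) := by
  obtain ⟨y, k, hy, hgy, hk⟩ := exists_kv hA ha
  rw [kv_eq hA hy hgy hk, map_intCast]
  refine kv_eq hA (pow_ne_zero r hy) (fun g hg => ?_) ?_
  · rw [map_pow, hgy g hg, mul_pow]
    congr 1
    rw [zexp, ← pow_mul, mul_comm, pow_mul, zetaSeq_succ, ← zexp_natCast, ← map_natCast
      (ZMod.castHom (pow_dvd_pow r (Nat.le_succ m)) (ZMod (r ^ m))), ZMod.natCast_zmod_val]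
  · rw [ordAt_pow hA (Fact.out : r.Prime) hy, ← hk]
    push_cast
    ring

theorem exists_unit_of_kv_eq_zero {a : GQ → ZMod (r ^ m)} (ha : a ∈ kummerCoc Ir m)
    (h : kv A m a = 0) :
    ∃ u : QBar, u ≠ 0 ∧ IsUnitAt A u ∧ ∀ g ∈ Ir, g u = zexp m (a g) * u :=
  exists_unit_of_kummerVal_eq_zero hA (Fact.out : r.Prime) (NeZero.ne _)
    (fun g _ => zexp_pow_eq_one m (a g)) (exists_root ha) h

omit hA in
/-- A compatible system of classes is given by an element of `ℤ_r`. -/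
theorem exists_toZModPow_eq (a : ∀ m, ZMod (r ^ m))
    (h : ∀ m, ZMod.castHom (pow_dvd_pow r (Nat.le_succ m)) (ZMod (r ^ m)) (a (m + 1)) = a m) :
    ∃ x : ℤ_[r], ∀ m, PadicInt.toZModPow m x = a m := by
  have hiff : ∀ (m : ℕ) (x : ℤ_[r]),
      x ∈ Metric.closedBall ((a m).val : ℤ_[r]) ((r : ℝ) ^ (-(m : ℤ))) ↔
        PadicInt.toZModPow m x = a m := by
    intro m x
    rw [Metric.mem_closedBall, dist_eq_norm, PadicInt.norm_le_pow_iff_mem_span_pow,
      ← PadicInt.ker_toZModPow, RingHom.mem_ker, map_sub, map_natCast, ZMod.natCast_zmod_val,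
      sub_eq_zero]
  obtain ⟨x, hx⟩ := IsCompact.nonempty_iInter_of_sequence_nonempty_isCompact_isClosed
    (fun m => Metric.closedBall ((a m).val : ℤ_[r]) ((r : ℝ) ^ (-(m : ℤ))))
    (fun m x hx => by
      rw [hiff] at hx ⊢
      rw [← h m, ← hx, ← RingHom.comp_apply]
      exact (RingHom.congr_fun (PadicInt.zmod_cast_comp_toZModPow m (m + 1)
        (Nat.le_succ m)) x).symm)
    (fun m => ⟨_, Metric.mem_closedBall_self (zpow_nonneg (Nat.cast_nonneg r) _)⟩)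
    (isCompact_closedBall _ _) (fun m => Metric.isClosed_closedBall)
  exact ⟨x, fun m => (hiff m x).mp (Set.mem_iInter.mp hx m)⟩

end Fermat.Agent.Mazur.Eisenstein
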