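import Mathlib.GroupTheory.PGroup
import Mathlib.Algebra.CharP.Lemmas
import Mathlib.Algebra.Module.ZMod

/-!
# Stable lines in admissible modules

A finite module on which every `g` satisfies `(g - 1)(g - χ g)` nilpotent has a stable line with
character `1` or `χ` (`exists_stable_line`).
-/

set_option autoImplicit false

noncomputable section

namespace Fermat.Agent.Mazur.Eisenstein

universe u

variable {G : Type*} [Group G]

/-! ## Admissible modules -/

/-- The operator `(g - 1)(g - c)`. -/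
def pieceOp (B : Type*) [AddCommGroup B] [DistribMulAction G B] (g : G) (c : ℤ) : B →+ B where
  toFun b := g • (g • b) - g • b - c • (g • b) + c • b
  map_zero' := by simp
  map_add' a b := by simp only [smul_add]; abel

/-- Admissibility: every element is killed by some power of `r` and, for every `g`, by some power of
`(g - 1)(g - χ g)`. -/
structure IsAdmissible (B : Type*) [AddCommGroup B] [DistribMulAction G B] (r : ℕ)
    (χ : G →* (ZMod r)ˣ) : Prop where
  rPow : ∀ b : B, ∃ k : ℕ, r ^ k • b = 0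
  nilp : ∀ (g : G) (b : B), ∃ n : ℕ, (⇑(pieceOp B g ((χ g : ZMod r).val : ℤ)))^[n] b = 0

theorem pieceOp_map {A B : Type*} [AddCommGroup A] [DistribMulAction G A] [AddCommGroup B]
    [DistribMulAction G B] (f : A →+ B) (hf : ∀ (g : G) a, f (g • a) = g • f a) (g : G) (c : ℤ)
    (n : ℕ) (a : A) : f ((⇑(pieceOp A g c))^[n] a) = (⇑(pieceOp B g c))^[n] (f a) :=
  Function.Semiconj.iterate_right (f := f) (fun x => by simp [pieceOp, hf]) n a

theorem IsAdmissible.of_injective {A B : Type*} [AddCommGroup A] [DistribMulAction G A]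
    [AddCommGroup B] [DistribMulAction G B] {r : ℕ} {χ : G →* (ZMod r)ˣ} (h : IsAdmissible B r χ)
    (f : A →+ B) (hinj : Function.Injective f) (hf : ∀ (g : G) a, f (g • a) = g • f a) :
    IsAdmissible A r χ where
  rPow a := (h.rPow (f a)).imp fun k hk => hinj (by rw [map_nsmul, hk, map_zero])
  nilp g a := (h.nilp g (f a)).imp fun n hn => hinj (by rw [pieceOp_map f hf, hn, map_zero])

theorem IsAdmissible.of_surjective {B C : Type*} [AddCommGroup B] [DistribMulAction G B]
    [AddCommGroup C] [DistribMulAction G C] {r : ℕ} {χ : G →* (ZMod r)ˣ} (h : IsAdmissible B r χ)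
    (f : B →+ C) (hsurj : Function.Surjective f) (hf : ∀ (g : G) b, f (g • b) = g • f b) :
    IsAdmissible C r χ where
  rPow c := by
    obtain ⟨b, rfl⟩ := hsurj c
    exact (h.rPow b).imp fun k hk => by rw [← map_nsmul, hk, map_zero]
  nilp g c := by
    obtain ⟨b, rfl⟩ := hsurj c
    exact (h.nilp g b).imp fun n hn => by rw [← pieceOp_map f hf, hn, map_zero]

/-! ## Simple admissible modules -/

/-- A minimal stable subgroup. -/
theorem exists_minimal_stable (B : Type*) [AddCommGroup B] [DistribMulAction G B] [Finite B]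
    (S : AddSubgroup B) (hS : S ≠ ⊥) (hstab : ∀ (g : G), ∀ b ∈ S, g • b ∈ S) :
    ∃ V : AddSubgroup B, V ≤ S ∧ V ≠ ⊥ ∧ (∀ (g : G), ∀ b ∈ V, g • b ∈ V) ∧
      ∀ W : AddSubgroup B, W ≤ V → W ≠ ⊥ → (∀ (g : G), ∀ b ∈ W, g • b ∈ W) → W = V := by
  obtain ⟨V, ⟨h1, h2, h3⟩, hmin⟩ := exists_minimal_of_wellFoundedLT
    (fun V : AddSubgroup B => V ≤ S ∧ V ≠ ⊥ ∧ ∀ (g : G), ∀ b ∈ V, g • b ∈ V) ⟨S, le_rfl, hS, hstab⟩
  exact ⟨V, h1, h2, h3, fun W hW hW0 hWs =>
    le_antisymm hW (hmin ⟨hW.trans h1, hW0, hWs⟩ hW)⟩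

/-- An endomorphism `f` of a finite group of exponent `r` with `(f - 1) ^ 2` locally nilpotent has
`r`-power order. -/
private theorem exists_pow_prime_pow_eq_one_of_nilpotent {r : ℕ} [Fact r.Prime] {V : Type*}
    [AddCommGroup V] [Finite V] [CharP (AddMonoid.End V) r] (f : AddMonoid.End V)
    (hnil : ∀ v : V, ∃ n : ℕ, (((f - 1) * (f - 1)) ^ n : AddMonoid.End V) v = 0) :
    ∃ k : ℕ, f ^ r ^ k = 1 := by
  have hr : r.Prime := Fact.out
  have : ∀ v : V, ∃ k : ℕ, (((f - 1)) ^ r ^ k : AddMonoid.End V) v = 0 := by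
    intro v
    obtain ⟨n, hn⟩ := hnil v
    refine ⟨2 * n, ?_⟩
    have hle : 2 * n ≤ r ^ (2 * n) := (Nat.lt_pow_self hr.one_lt).le
    rw [← sq, ← pow_mul] at hn
    rw [← Nat.sub_add_cancel hle, pow_add]
    show (((f - 1)) ^ (r ^ (2 * n) - 2 * n)) ((((f - 1)) ^ (2 * n)) v) = 0
    rw [hn, map_zero]
  choose k hk using this
  have : Fintype V := Fintype.ofFinite V
  refine ⟨Finset.univ.sup k, ?_⟩
  rw [← sub_eq_zero]
  have hcomm : Commute f 1 := Commute.one_right _
  have h2 := sub_pow_char_pow_of_commute (p := r) (Finset.univ.sup k) hcomm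
  rw [one_pow] at h2
  rw [← h2]
  refine DFunLike.ext _ _ fun v => ?_
  have hle : r ^ k v ≤ r ^ Finset.univ.sup k :=
    Nat.pow_le_pow_right hr.pos (Finset.le_sup (Finset.mem_univ v))
  show (((f - 1)) ^ r ^ Finset.univ.sup k) v = (0 : AddMonoid.End V) v
  rw [← Nat.sub_add_cancel hle, pow_add]
  show (((f - 1)) ^ (r ^ Finset.univ.sup k - r ^ k v)) ((((f - 1)) ^ r ^ k v) v) = 0
  rw [hk v, map_zero]

/-- An `r`-group fixing zero of a nontrivial `r`-group fixes a nonzero element. -/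
private theorem exists_ne_zero_mem_fixedPoints {r : ℕ} [Fact r.Prime] {P V : Type*} [Group P]
    [Zero V]
    [MulAction P V] [Finite V] (hPp : IsPGroup r P) (hdvd : r ∣ Nat.card V)
    (h0 : (0 : V) ∈ MulAction.fixedPoints P V) : ∃ w ∈ MulAction.fixedPoints P V, w ≠ (0 : V) := by
  have hr : r.Prime := Fact.out
  have hfix := hPp.card_modEq_card_fixedPoints V
  have hdvd' : r ∣ Nat.card (MulAction.fixedPoints P V) :=
    (Nat.ModEq.dvd_iff hfix dvd_rfl).mp hdvd
  by_contra hcon
  push Not at hcon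
  have : MulAction.fixedPoints P V = {(0 : V)} :=
    Set.eq_singleton_iff_unique_mem.mpr ⟨h0, hcon⟩
  rw [this, Nat.card_coe_set_eq, Set.ncard_singleton] at hdvd'
  exact hr.ne_one (Nat.dvd_one.mp hdvd')

/-- In exponent `r` multiples only depend on the class modulo `r`. -/
private theorem nsmul_eq_nsmul_of_natCast_eq {r : ℕ} {V : Type*} [AddCommMonoid V] {v : V}
    (hv : r • v = 0) {m n : ℕ} (hmn : (m : ZMod r) = n) : m • v = n • v := by
  rw [ZMod.natCast_eq_natCast_iff'] at hmn
  rw [← Nat.mod_add_div m r, ← Nat.mod_add_div n r, add_smul, add_smul, mul_comm r, mul_comm r,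
    mul_smul, mul_smul, hv, smul_zero, smul_zero, hmn]

/-- A nontrivial group of `r`-power exponent has a nonzero element killed by `r`. -/
private theorem ker_nsmul_ne_bot {B : Type*} [AddCommGroup B] [Nontrivial B] {r : ℕ}
    (hpow : ∀ b : B, ∃ k : ℕ, r ^ k • b = 0) :
    (nsmulAddMonoidHom r : B →+ B).ker ≠ ⊥ := by
  classical
  obtain ⟨b, hb⟩ := exists_ne (0 : B)
  have hex := hpow b
  have hk := Nat.find_spec hex
  cases hcase : Nat.find hex with
  | zero => rw [hcase, pow_zero, one_smul] at hk; exact absurd hk hb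
  | succ k =>
    have hne : r ^ k • b ≠ 0 := fun h0 => by
      have := Nat.find_min' hex h0
      omega
    rw [hcase, pow_succ', mul_smul] at hk
    exact fun hbot =>
      hne ((AddSubgroup.eq_bot_iff_forall _).mp hbot _ (AddMonoidHom.mem_ker.mpr hk))

/-- If every element acts as `1` or as `χ` on a group of exponent `r`, then all do so uniformly. -/
private theorem forall_smul_eq_or_forall_smul_eq {r : ℕ} [Fact r.Prime] (χ : G →* (ZMod r)ˣ)
    {V : Type*} [AddCommGroup V] [DistribMulAction G V] (hrV : ∀ v : V, r • v = 0)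
    (hscal : ∀ g : G, (∀ v : V, g • v = v) ∨ ∀ v : V, g • v = (χ g : ZMod r).val • v) :
    (∀ (g : G) (v : V), g • v = v) ∨
      ∀ (g : G) (v : V), g • v = (χ g : ZMod r).val • v := by
  by_contra hcon
  push Not at hcon
  obtain ⟨⟨g, v, hgv⟩, ⟨h, w, hhw⟩⟩ := hcon
  have hg : ∀ v : V, g • v = (χ g : ZMod r).val • v :=
    (hscal g).resolve_left fun h1 => hgv (h1 v)
  have hh : ∀ v : V, h • v = v := (hscal h).resolve_right fun h1 => hhw (h1 w)
  rcases hscal (g * h) with h1 | h1
  · exact hgv (by simpa [mul_smul, hh v] using h1 v)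
  · apply hhw
    rw [hh w]
    have h2 : g • (h • w) = (χ (g * h) : ZMod r).val • w := by rw [← mul_smul]; exact h1 w
    rw [hh w, hg w] at h2
    have hcancel : (χ g : ZMod r).val • w = (χ g : ZMod r).val • ((χ h : ZMod r).val • w) := by
      rw [h2, ← mul_smul]
      refine nsmul_eq_nsmul_of_natCast_eq (hrV w) ?_
      simp
    have hinj : ∀ u u' : V, (χ g : ZMod r).val • u = (χ g : ZMod r).val • u' → u = u' := by
      intro u u' hu
      have h3 := congrArg ((((χ g)⁻¹ : (ZMod r)ˣ) : ZMod r).val • ·) hu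
      have h4 : ∀ x : V, (((χ g)⁻¹ : (ZMod r)ˣ) : ZMod r).val • (χ g : ZMod r).val • x = x := by
        intro x
        rw [← mul_smul]
        conv_rhs => rw [← one_smul ℕ x]
        refine nsmul_eq_nsmul_of_natCast_eq (hrV x) ?_
        simp
      simpa only [h4] using h3
    exact hinj _ _ hcancel

/-- A nonzero group of exponent `r` has endomorphism ring of characteristic `r`. -/
private theorem charP_end {r : ℕ} [Fact r.Prime] {V : Type*} [AddCommGroup V]
    (hrV : ∀ v : V, r • v = 0) {v₀ : V} (hv₀ : v₀ ≠ 0) : CharP (AddMonoid.End V) r := by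
  have hend : ∀ (m : ℕ) (v : V), ((m : AddMonoid.End V) v) = m • v := fun m v => rfl
  refine ⟨fun n => ⟨fun h => ?_, fun ⟨m, hm⟩ => ?_⟩⟩
  · have h1 : n • v₀ = 0 := by rw [← hend, h]; rfl
    exact addOrderOf_eq_prime (hrV v₀) hv₀ ▸ addOrderOf_dvd_of_nsmul_eq_zero h1
  · refine DFunLike.ext _ _ fun v => ?_
    rw [hend, hm, mul_comm, mul_smul, hrV, smul_zero]
    rfl

/-- On a simple module, an equivariant endomorphism killing a nonzero element is zero. -/
private theorem eq_zero_of_equivariant {V : Type*} [AddCommGroup V] [DistribMulAction G V]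
    (hirr : ∀ W : AddSubgroup V, W ≠ ⊥ → (∀ (g : G), ∀ v ∈ W, g • v ∈ W) → W = ⊤)
    (f : AddMonoid.End V) (hf : ∀ (h : G) v, f (h • v) = h • f v) {v₀ : V} (hv : v₀ ≠ 0)
    (hv0 : f v₀ = 0) (v : V) : f v = 0 := by
  have hW : AddMonoidHom.ker f = ⊤ :=
    hirr _ (fun hbot => hv ((AddSubgroup.eq_bot_iff_forall _).mp hbot _ hv0)) fun h x hx => by
      show f (h • x) = 0
      rw [hf, show f x = 0 from hx, smul_zero]
  exact (hW ▸ AddSubgroup.mem_top v : v ∈ AddMonoidHom.ker f)

/-- On a simple module of `r`-power order, elements of the kernel of `χ` acting with `r`-power order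
act trivially. -/
private theorem smul_eq_self_of_pow {r : ℕ} [Fact r.Prime] (χ : G →* (ZMod r)ˣ) {V : Type*}
    [AddCommGroup V] [DistribMulAction G V] [Finite V]
    (hirr : ∀ W : AddSubgroup V, W ≠ ⊥ → (∀ (g : G), ∀ v ∈ W, g • v ∈ W) → W = ⊤)
    (hdvd : r ∣ Nat.card V)
    (hpow : ∀ g, χ g = 1 → ∃ k : ℕ, DistribMulAction.toAddMonoidEnd G V g ^ r ^ k = 1)
    {g : G} (hg : χ g = 1) (v : V) : g • v = v := by
  set P := χ.ker.map (MulAction.toPermHom G V)
  have hPp : IsPGroup r P := by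
    rintro ⟨_, g, hg, rfl⟩
    obtain ⟨k, hk⟩ := hpow g (MonoidHom.mem_ker.mp hg)
    refine ⟨k, Subtype.ext (Equiv.ext fun v => ?_)⟩
    have h3 := congrArg (fun f : AddMonoid.End V => f v) hk
    rw [← map_pow] at h3
    rw [SubmonoidClass.coe_pow, ← map_pow]
    exact h3
  obtain ⟨w, hw, hw0⟩ := exists_ne_zero_mem_fixedPoints hPp hdvd (by
    rintro ⟨_, g, -, rfl⟩; exact smul_zero g)
  let W : AddSubgroup V :=
    { carrier := {b | ∀ g, χ g = 1 → g • b = b}
      zero_mem' := fun g _ => smul_zero g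
      add_mem' := fun ha hb g hg => by rw [smul_add, ha g hg, hb g hg]
      neg_mem' := fun ha g hg => by rw [smul_neg, ha g hg] }
  have hW : W = ⊤ := hirr W
    (fun hbot => hw0 ((AddSubgroup.eq_bot_iff_forall W).mp hbot _
      fun g hg => hw ⟨_, ⟨g, hg, rfl⟩⟩))
    fun h b hb g hg => by
      have h1 : χ (h⁻¹ * g * h) = 1 := by
        rw [map_mul, map_mul, hg, mul_one, map_inv, inv_mul_cancel]
      have h2 := congrArg (h • ·) (hb _ h1)
      simpa [mul_smul, smul_inv_smul] using h2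
  exact (hW ▸ AddSubgroup.mem_top v : v ∈ W) g hg

/-- On an irreducible commutative module an element `g` with `(g - 1)(g - c)` nilpotent at a
nonzero vector acts as `1` or as `c`. -/
private theorem smul_eq_self_or_eq_nsmul {V : Type*} [AddCommGroup V] [DistribMulAction G V]
    (hirr : ∀ W : AddSubgroup V, W ≠ ⊥ → (∀ (g : G), ∀ v ∈ W, g • v ∈ W) → W = ⊤)
    (hcomm : ∀ (g h : G) (v : V), g • h • v = h • g • v) {v₀ : V} (hv₀ : v₀ ≠ 0) (g : G) {c : ℕ}
    (hnil : ∃ n : ℕ, (((DistribMulAction.toAddMonoidEnd G V g - 1) *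
      (DistribMulAction.toAddMonoidEnd G V g - (c : AddMonoid.End V))) ^ n :
        AddMonoid.End V) v₀ = 0) :
    (∀ v : V, g • v = v) ∨ ∀ v : V, g • v = c • v := by
  set X : AddMonoid.End V := DistribMulAction.toAddMonoidEnd G V g - 1
  set Y : AddMonoid.End V := DistribMulAction.toAddMonoidEnd G V g - (c : AddMonoid.End V)
  by_cases hXz : ∃ v, v ≠ 0 ∧ X v = 0
  · left
    intro v
    obtain ⟨w, hw, hw0⟩ := hXz
    have := eq_zero_of_equivariant hirr X (fun h v => by
      show g • h • v - h • v = h • (g • v - v)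
      rw [smul_sub, hcomm]) hw hw0 v
    exact sub_eq_zero.mp this
  · right
    intro v
    by_cases hYz : ∃ v, v ≠ 0 ∧ Y v = 0
    · obtain ⟨w, hw, hw0⟩ := hYz
      have := eq_zero_of_equivariant hirr Y (fun h v => by
        show g • h • v - c • (h • v) = h • (g • v - c • v)
        rw [smul_sub, hcomm]; congr 1; exact (smul_comm _ _ _)) hw hw0 v
      exact sub_eq_zero.mp this
    · exfalso
      push Not at hXz hYz
      obtain ⟨n, hn⟩ := hnil
      have : ∀ n : ℕ, ((X * Y) ^ n) v₀ ≠ 0 := by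
        intro n
        induction n with
        | zero => exact hv₀
        | succ n ih => rw [pow_succ']; exact fun h => hXz _ (hYz _ ih) h
      exact this n hn

/-! ## The stable line -/

/-- A stable line. -/
theorem exists_stable_line {r : ℕ} [Fact r.Prime] (χ : G →* (ZMod r)ˣ) (B : Type*)
    [AddCommGroup B] [DistribMulAction G B] [Finite B] [Nontrivial B]
    (hB : IsAdmissible B r χ) :
    ∃ A : AddSubgroup B, Nat.card A = r ∧ (∀ (g : G), ∀ a ∈ A, g • a ∈ A) ∧
      ((∀ (g : G), ∀ a ∈ A, g • a = a) ∨ ∀ (g : G), ∀ a ∈ A, g • a = (χ g : ZMod r).val • a) := by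
  classical
  set T : AddSubgroup B := (nsmulAddMonoidHom r : B →+ B).ker
  have hTmem : ∀ b, b ∈ T ↔ r • b = 0 := fun b => AddMonoidHom.mem_ker
  have hT0 : T ≠ ⊥ := ker_nsmul_ne_bot hB.rPow
  obtain ⟨V, hVT, hV0, hVs, hVmin⟩ := exists_minimal_stable (G := G) B T hT0
    (fun g b hb => by rw [hTmem] at hb ⊢; rw [smul_comm, hb, smul_zero])
  have hrV : ∀ v ∈ V, r • v = 0 := fun v hv => (hTmem v).mp (hVT hv)
  -- endomorphisms of `V`
  let : DistribMulAction G V :=
    { smul := fun g v => ⟨g • (v : B), hVs g v v.2⟩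
      one_smul := fun v => Subtype.ext (one_smul G (v : B))
      mul_smul := fun g h v => Subtype.ext (mul_smul g h (v : B))
      smul_zero := fun g => Subtype.ext (smul_zero g)
      smul_add := fun g v w => Subtype.ext (smul_add g (v : B) w) }
  have hVne : ∃ v₀ : V, v₀ ≠ 0 := by
    obtain ⟨b, hb, hb0⟩ := (AddSubgroup.bot_or_exists_ne_zero V).resolve_left hV0
    exact ⟨⟨b, hb⟩, fun h => hb0 (congrArg Subtype.val h)⟩
  have : Nontrivial V := let ⟨v₀, h⟩ := hVne; ⟨⟨v₀, 0, h⟩⟩
  have hrV' : ∀ v : V, r • v = 0 := fun v => Subtype.ext (hrV _ v.2)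
  have hchar : CharP (AddMonoid.End V) r := let ⟨v₀, h⟩ := hVne; charP_end hrV' h
  set ρ : G →* AddMonoid.End V := DistribMulAction.toAddMonoidEnd G V
  set X : G → AddMonoid.End V := fun g => ρ g - 1 with hX
  set Y : G → AddMonoid.End V := fun g => ρ g - ((χ g : ZMod r).val : AddMonoid.End V) with hY
  have hop : ∀ g, (X g * Y g : AddMonoid.End V) = pieceOp V g ((χ g : ZMod r).val : ℤ) := by
    intro g
    refine DFunLike.ext _ _ fun v => ?_
    show g • (g • v - (χ g : ZMod r).val • v) - (g • v - (χ g : ZMod r).val • v)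
      = g • (g • v) - g • v - (((χ g : ZMod r).val : ℕ) : ℤ) • (g • v)
        + (((χ g : ZMod r).val : ℕ) : ℤ) • v
    rw [smul_sub, natCast_zsmul, natCast_zsmul, smul_comm g ((χ g : ZMod r).val) v]
    abel
  have hnil : ∀ g, ∀ v : V, ∃ n : ℕ, ((X g * Y g) ^ n : AddMonoid.End V) v = 0 := by
    intro g v
    obtain ⟨n, hn⟩ := (hB.of_injective V.subtype Subtype.val_injective (fun _ _ => rfl)).nilp g v
    refine ⟨n, ?_⟩
    rw [AddMonoid.End.coe_pow,
      show (⇑(X g * Y g) : V → V) = ⇑(pieceOp V g ((χ g : ZMod r).val : ℤ)) from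
        congrArg (fun f : V →+ V => (⇑f : V → V)) (hop g)]
    exact hn
  -- elements with trivial character act with `r`-power order
  have hpgroup : ∀ g, χ g = 1 → ∃ k : ℕ, ρ g ^ r ^ k = 1 := by
    intro g hg
    have hxy : Y g = X g := by simp [hX, hY, hg]
    exact exists_pow_prime_pow_eq_one_of_nilpotent (ρ g) fun v => by
      obtain ⟨n, hn⟩ := hnil g v
      exact ⟨n, by rwa [hxy] at hn⟩
  -- hence the kernel of `χ` acts trivially
  have hirr : ∀ W : AddSubgroup V, W ≠ ⊥ → (∀ (g : G), ∀ v ∈ W, g • v ∈ W) → W = ⊤ := by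
    intro W hW0 hWs
    rw [eq_top_iff]
    intro v _
    obtain ⟨u, hu, huv⟩ := (hVmin (W.map V.subtype) (by rintro _ ⟨x, -, rfl⟩; exact x.2)
      (fun hbot => hW0 ((AddSubgroup.map_eq_bot_iff_of_injective _ Subtype.val_injective).mp hbot))
      (by rintro g _ ⟨x, hx, rfl⟩; exact ⟨g • x, hWs g x hx, rfl⟩)).ge v.2
    rwa [← Subtype.val_injective huv]
  have hdvd : r ∣ Nat.card V := by
    obtain ⟨v₀, hv₀⟩ := hVne
    exact (addOrderOf_eq_prime (hrV' v₀) hv₀) ▸ addOrderOf_dvd_natCard v₀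
  have htriv : ∀ g, χ g = 1 → ∀ v : V, g • v = v := fun g hg =>
    smul_eq_self_of_pow χ hirr hdvd hpgroup hg
  have hcomm : ∀ (g h : G) (v : V), g • h • v = h • g • v := by
    intro g h v
    have hc : χ ((h * g)⁻¹ * (g * h)) = 1 := by
      rw [map_mul, map_inv, map_mul, map_mul, mul_comm (χ h) (χ g), inv_mul_cancel]
    have := congrArg ((h * g) • ·) (htriv _ hc v)
    simpa only [← mul_smul, mul_inv_cancel_left] using this
  -- every element acts as `1` or as `χ`
  have hscal : ∀ g, (∀ v : V, g • v = v) ∨ ∀ v : V, g • v = (χ g : ZMod r).val • v := fun g =>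
    let ⟨v₀, hv₀⟩ := hVne
    smul_eq_self_or_eq_nsmul hirr hcomm hv₀ g (hnil g v₀)
  have hglobal := forall_smul_eq_or_forall_smul_eq χ hrV' hscal
  obtain ⟨v₀, hv₀⟩ := hVne
  have hb0 : (v₀ : B) ≠ 0 := fun h => hv₀ (Subtype.ext h)
  have hstab : ∀ g : G, g • (v₀ : B) ∈ AddSubgroup.zmultiples (v₀ : B) := fun g => by
    rcases hglobal with h | h
    · have h1 := congrArg Subtype.val (h g v₀)
      exact (congrArg (· ∈ AddSubgroup.zmultiples (v₀ : B)) (show g • (v₀ : B) = v₀ from h1)).mpr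
        (AddSubgroup.mem_zmultiples _)
    · have h1 := congrArg Subtype.val (h g v₀)
      exact (show g • (v₀ : B) = (χ g : ZMod r).val • (v₀ : B) from h1) ▸
        AddSubgroup.nsmul_mem_zmultiples _ _
  refine ⟨AddSubgroup.zmultiples (v₀ : B), ?_, ?_, ?_⟩
  · rw [Nat.card_zmultiples, addOrderOf_eq_prime (hrV _ v₀.2) hb0]
  · rintro g _ ⟨n, rfl⟩
    show g • (n • (v₀ : B)) ∈ _
    rw [smul_comm]; exact zsmul_mem (hstab g) n
  · refine hglobal.imp (fun h => ?_) (fun h => ?_) <;> rintro g _ ⟨n, rfl⟩ <;>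
      show g • (n • (v₀ : B)) = _
    · rw [smul_comm g, show g • (v₀ : B) = v₀ from congrArg Subtype.val (h g v₀)]
    · rw [smul_comm g, show g • (v₀ : B) = (χ g : ZMod r).val • (v₀ : B) from
        congrArg Subtype.val (h g v₀), smul_comm]

end Fermat.Agent.Mazur.Eisenstein
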